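import Mathlib.Tactic

/-!
# The obstruction to deforming a commutant

Over a ring of characteristic two the defect of a matrix `W` measures how far a representation is
from conjugating it to `W + η`: its behaviour under change of `W`, its trace, and the relation it
inherits from that of `W`. `SelmerZero` says that the cocycles with values in the residual module
allowed by the local data are coboundaries; the lifting itself is in `LT/Deform/Lift`.
-/

set_option autoImplicit false

open Matrix

namespace Fermat.Agent.LT.Deform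

/-- `2 × 2` matrices. -/
abbrev M2 (R : Type*) := Matrix (Fin 2) (Fin 2) R

/-- The indices of the entries of a matrix of order two, row by row. -/
def entryIdx : Fin 4 → Fin 2 × Fin 2 := ![(0, 0), (0, 1), (1, 0), (1, 1)]

/-- The residual element of order three. -/
def w₀ : M2 (ZMod 2) := !![0, 1; 1, 1]

theorem w₀_sq : w₀ * w₀ + w₀ + 1 = 0 := by decide

/-- The residual module: the matrices exchanged by the element of order three. -/
def InV (x : M2 (ZMod 2)) : Prop := x * w₀ + w₀ * x + x = 0

instance (x : M2 (ZMod 2)) : Decidable (InV x) := by unfold InV; infer_instance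

variable {G : Type*} [Group G]

/-- The representation of `G` on the residual module. -/
def conjAct (r : G →* (M2 (ZMod 2))ˣ) (g : G) (x : M2 (ZMod 2)) : M2 (ZMod 2) :=
  (r g : M2 (ZMod 2)) * x * (↑(r g)⁻¹ : M2 (ZMod 2))

/-- A cocycle with values in the residual module. -/
structure IsCocycle (r : G →* (M2 (ZMod 2))ˣ) (c : G → M2 (ZMod 2)) : Prop where
  /-- The values lie in the residual module. -/
  inV : ∀ g, InV (c g)
  /-- The cocycle identity for the action by conjugation. -/
  mul : ∀ g h, c (g * h) = c g + conjAct r g (c h)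

/-- Local data: a set of elements and the unipotent matrix attached to it. -/
structure Place (G : Type*) (R : Type*) where
  /-- The decomposition set. -/
  D : Set G
  /-- The matrix attached to the place. -/
  N : M2 R

variable {R : Type*} [CommRing R]

/-- Cocycles which are trivial on `Z` and have zero trace against `n i` on each `D i` are
coboundaries. -/
def SelmerZero (r : G →* (M2 (ZMod 2))ˣ) (Z : Set G) {ι : Type*} (D : ι → Set G)
    (n : ι → M2 (ZMod 2)) : Prop :=
  ∀ c : G → M2 (ZMod 2), IsCocycle r c → (∀ g ∈ Z, c g = 0) →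
    (∀ i, ∀ g ∈ D i, (n i * c g).trace = 0) →
    ∃ y, InV y ∧ ∀ g, c g = conjAct r g y + y

section Trace

variable {S : Type*} [CommRing S]

theorem trace_conj_of_commute (N g g' W : M2 S) (hgg : g * g' = 1) (hN : g * N = N * g) :
    (N * (g * W * g')).trace = (N * W).trace := by
  have hg'g : g' * g = 1 := mul_eq_one_comm.mp hgg
  calc (N * (g * W * g')).trace = (N * g * W * g').trace := by simp only [mul_assoc]
    _ = (g * N * W * g').trace := by rw [hN]
    _ = (g' * (g * N * W)).trace := Matrix.trace_mul_comm _ _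
    _ = (N * W).trace := by rw [← mul_assoc, ← mul_assoc, hg'g, one_mul]

end Trace

/-- The defect of `W` at `g`. -/
def defect (ρ : G →* (M2 R)ˣ) (η : G → R) (W : M2 R) (g : G) : M2 R :=
  (ρ g : M2 R) * W * (↑(ρ g)⁻¹ : M2 R) + W + η g • 1

theorem defect_mul [CharP R 2] (ρ : G →* (M2 R)ˣ) (η : G → R)
    (hη : ∀ g h, η (g * h) = η g + η h) (W : M2 R) (g h : G) :
    defect ρ η W (g * h) =
      defect ρ η W g + (ρ g : M2 R) * defect ρ η W h * (↑(ρ g)⁻¹ : M2 R) := by
  have e : ((ρ g : M2 R) * ↑(ρ g)⁻¹) = 1 := Units.mul_inv _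
  have h2 : ∀ a : M2 R, a + a = 0 := fun a => by
    ext i j; simp [CharTwo.add_self_eq_zero]
  simp only [defect, map_mul, _root_.mul_inv_rev, Units.val_mul, mul_add, add_mul, hη, add_smul,
    mul_smul_comm, smul_mul_assoc, mul_one, e, ← mul_assoc]
  have := h2 ((ρ g : M2 R) * W * (↑(ρ g)⁻¹ : M2 R))
  linear_combination (norm := abel) -this

/-- Changing `W` changes the defect by a coboundary. -/
theorem defect_add (ρ : G →* (M2 R)ˣ) (η : G → R) (W Y : M2 R) (g : G) :
    defect ρ η (W + Y) g =
      defect ρ η W g + ((ρ g : M2 R) * Y * (↑(ρ g)⁻¹ : M2 R) + Y) := by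
  simp only [defect, mul_add, add_mul]
  abel

theorem trace_defect [CharP R 2] (ρ : G →* (M2 R)ˣ) (η : G → R) (W N : M2 R)
    (hN : N.trace = 0) {g : G} (hg : (ρ g : M2 R) * N = N * (ρ g : M2 R)) :
    (N * defect ρ η W g).trace = 0 := by
  rw [defect, mul_add, mul_add, Matrix.trace_add, Matrix.trace_add,
    trace_conj_of_commute N _ _ W (Units.mul_inv _) hg, mul_smul_comm, mul_one, Matrix.trace_smul,
    hN, smul_zero, add_zero, CharTwo.add_self_eq_zero]

/-- Conjugating the relation. -/
theorem defect_rel [CharP R 2] (ρ : G →* (M2 R)ˣ) (η : G → R) (hη : ∀ g, η g * η g = η g)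
    (W : M2 R) (g : G) :
    defect ρ η W g * W + W * defect ρ η W g + defect ρ η W g =
      (ρ g : M2 R) * (W * W + W + 1) * (↑(ρ g)⁻¹ : M2 R) + (W * W + W + 1) +
        defect ρ η W g * defect ρ η W g := by
  set g' : M2 R := (↑(ρ g)⁻¹ : M2 R) with hg'
  have h2 : ∀ a : M2 R, a + a = 0 := fun a => by
    ext i j; simp [CharTwo.add_self_eq_zero]
  have hgg : (ρ g : M2 R) * g' = 1 := Units.mul_inv _
  have hg'g : g' * (ρ g : M2 R) = 1 := Units.inv_mul _
  set X : M2 R := (ρ g : M2 R) * W * g' with hX
  have hX2 : (ρ g : M2 R) * (W * W + W + 1) * g' = X * X + X + 1 := by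
    have : X * X = (ρ g : M2 R) * (W * W) * g' := by
      calc X * X = (ρ g : M2 R) * W * (g' * (ρ g : M2 R)) * W * g' := by
            simp only [hX, mul_assoc]
        _ = _ := by rw [hg'g, mul_one, mul_assoc (ρ g : M2 R) W W]
    rw [mul_add, mul_add, add_mul, add_mul, mul_one, hgg, ← this]
  have hd : defect ρ η W g = X + W + η g • 1 := rfl
  rw [hX2, hd]
  simp only [add_mul, mul_add, smul_mul_assoc, one_mul, mul_smul_comm, mul_one, smul_smul, smul_add,
    hη g]
  linear_combination (norm := abel) -(h2 (X * X)) - h2 (1 : M2 R) - h2 (η g • X)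

end Fermat.Agent.LT.Deform
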