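import Mathlib

/-!
# Elements which are divisible at all points of a maximal ideal

For a reduced ring, finite free over `ℤ`, an element whose values at all points in a maximal ideal
`𝔪` over `2` are divisible by a high power of `2` is killed, modulo a power of `2`, by an element
outside `𝔪`.

Main result: `exists_killer`.
-/

set_option autoImplicit false

noncomputable section

open Matrix

namespace Fermat.Agent.LT.Deform

variable {T : Type*} [CommRing T] [Module.Finite ℤ T] [Module.Free ℤ T] [IsReduced T]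
  {K : Type*} [Field K] [CharZero K] [IsAlgClosed K]

/-! ## Values at the points -/

/-- The multiplication by an element. -/
abbrev lmulZ (a : T) : T →ₗ[ℤ] T := LinearMap.mulLeft ℤ a

omit [IsReduced T] [CharZero K] [IsAlgClosed K] in
/-- A polynomial killing `a` kills the eigenvalues of multiplication by `a`. -/
private theorem aeval_eq_zero_of_root (a : T) {r : K}
    (hr : r ∈ ((lmulZ a).charpoly.map (algebraMap ℤ K)).roots) {p : Polynomial ℤ}
    (hp : Polynomial.aeval a p = 0) : Polynomial.aeval r p = 0 := by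
  have hr' := (Polynomial.mem_roots'.mp hr).2
  let b := Module.Free.chooseBasis ℤ T
  set ψ : Polynomial ℤ →ₐ[ℤ] T := Polynomial.aeval a
  have h0 : Polynomial.aeval (lmulZ a) p = 0 := by
    ext x
    have : ∀ q : Polynomial ℤ, (Polynomial.aeval (lmulZ a) q) x = ψ q * x := by
      intro q
      induction q using Polynomial.induction_on' with
      | add p q hp hq => simp [hp, hq, add_mul]
      | monomial n c =>
        simp only [Polynomial.aeval_monomial, ψ]
        rw [Module.algebraMap_end_eq_smul_id, smul_mul_assoc, ← Module.End.one_eq_id, one_mul,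
          LinearMap.smul_apply, LinearMap.pow_mulLeft, LinearMap.mulLeft_apply,
          ← Algebra.smul_def,
          smul_mul_assoc]
    rw [this, hp, zero_mul, LinearMap.zero_apply]
  have hm : Polynomial.aeval ((LinearMap.toMatrix b b (lmulZ a)).map (algebraMap ℤ K)) p = 0 := by
    have h1 : Polynomial.aeval (LinearMap.toMatrixAlgEquiv b (lmulZ a)) p = 0 := by
      rw [Polynomial.aeval_algEquiv, AlgHom.comp_apply, h0, map_zero]
    have h2 := congrArg ((Algebra.ofId ℤ K).mapMatrix) h1
    rw [← Polynomial.aeval_algHom_apply, map_zero] at h2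
    exact h2
  have hmem : r ∈ spectrum K ((LinearMap.toMatrix b b (lmulZ a)).map (algebraMap ℤ K)) := by
    refine Matrix.mem_spectrum_of_isRoot_charpoly ?_
    rw [← RingHom.mapMatrix_apply, RingHom.mapMatrix_apply, Matrix.charpoly_map,
      LinearMap.charpoly_toMatrix]
    exact hr'
  rw [← Polynomial.aeval_map_algebraMap K r p]
  have h3 := spectrum.subset_polynomial_aeval
    ((LinearMap.toMatrix b b (lmulZ a)).map (algebraMap ℤ K)) (p.map (algebraMap ℤ K))
    ⟨r, hmem, rfl⟩
  rw [Polynomial.aeval_map_algebraMap, hm] at h3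
  rw [Polynomial.aeval_map_algebraMap K r p, ← Polynomial.aeval_map_algebraMap K r p,
    Polynomial.coe_aeval_eq_eval]
  by_contra hne
  exact (spectrum.mem_iff.mp h3) (by
    rw [sub_zero]
    exact ((isUnit_iff_ne_zero.mpr hne).map (algebraMap K _)))

omit [IsReduced T] [CharZero K] in
/-- Eigenvalues of a multiplication are values at points. -/
theorem exists_hom_of_root (a : T) {r : K}
    (hr : r ∈ ((lmulZ a).charpoly.map (algebraMap ℤ K)).roots) : ∃ θ : T →+* K, θ a = r := by
  set ψ : Polynomial ℤ →ₐ[ℤ] T := Polynomial.aeval a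
  -- if `p(a) = 0` then `p(r) = 0`, as `r` is an eigenvalue of multiplication by `a`
  have hker : ∀ p : Polynomial ℤ, ψ p = 0 → Polynomial.aeval r p = 0 := fun p =>
    aeval_eq_zero_of_root a hr
  -- so evaluation at `r` is a homomorphism `θS` on `S = ℤ[a]`
  let S : Subalgebra ℤ T := Algebra.adjoin ℤ {a}
  have hS : ∀ x : S, ∃ p : Polynomial ℤ, ψ p = x := fun x => by
    have := x.2
    simp only [S, Algebra.adjoin_singleton_eq_range_aeval] at this
    exact this
  choose P hP using hS
  have hwd : ∀ p q : Polynomial ℤ, ψ p = ψ q → Polynomial.aeval r p = Polynomial.aeval r q :=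
    fun p q h => sub_eq_zero.mp (by rw [← map_sub]; exact hker _ (by rw [map_sub, h, sub_self]))
  let θS : S →ₐ[ℤ] K :=
    { toFun := fun x => Polynomial.aeval r (P x)
      map_one' := by
        rw [hwd (P 1) 1 (by rw [hP, map_one]; rfl), map_one]
      map_mul' := fun x y => by
        rw [← map_mul, hwd (P (x * y)) (P x * P y) (by rw [hP, map_mul, hP, hP]; rfl)]
      map_zero' := by rw [hwd (P 0) 0 (by rw [hP, map_zero]; rfl), map_zero]
      map_add' := fun x y => by
        rw [← map_add, hwd (P (x + y)) (P x + P y) (by rw [hP, map_add, hP, hP]; rfl)]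
      commutes' := fun n => by
        rw [hwd (P _) (algebraMap ℤ _ n) (by rw [hP, AlgHom.commutes]; rfl), AlgHom.commutes] }
  -- extend along the integral extension: a prime `Q` of `T` lies over the kernel of `θS`, and the
  -- integral extension `T ⧸ Q` of the image of `θS` embeds in the algebraically closed field
  let := θS.toRingHom.toAlgebra
  have : Algebra.IsIntegral S T := ⟨fun x => (Algebra.IsIntegral.isIntegral (R := ℤ) x).tower_top⟩
  have hinj : Function.Injective (algebraMap S T) := Subtype.val_injective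
  have : (RingHom.ker θS.toRingHom).IsPrime := RingHom.ker_isPrime _
  obtain ⟨Q, -, hQp, hQ⟩ := Ideal.exists_ideal_over_prime_of_isIntegral
    (RingHom.ker θS.toRingHom) (⊥ : Ideal T) (by
      intro x hx
      rw [Ideal.mem_comap, Ideal.mem_bot] at hx
      rw [RingHom.mem_ker, hinj (hx.trans (map_zero _).symm), map_zero])
  let i : S ⧸ RingHom.ker θS.toRingHom →+* T ⧸ Q :=
    Ideal.quotientMap Q (algebraMap S T) hQ.ge
  let := i.toAlgebra
  have hi : Function.Injective i := Ideal.quotientMap_injective' hQ.le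
  let := (RingHom.kerLift θS.toRingHom).toAlgebra
  have : Algebra.IsIntegral (S ⧸ RingHom.ker θS.toRingHom) (T ⧸ Q) := by
    refine ⟨fun x => ?_⟩
    obtain ⟨y, rfl⟩ := Ideal.Quotient.mk_surjective x
    exact IsIntegral.map_of_comp_eq (Ideal.Quotient.mk (RingHom.ker θS.toRingHom))
      (Ideal.Quotient.mk Q) rfl (Algebra.IsIntegral.isIntegral (R := S) y)
  have : Module.IsTorsionFree (S ⧸ RingHom.ker θS.toRingHom) K :=
    Module.IsTorsionFree.of_smul_eq_zero fun c x h => by
      rcases mul_eq_zero.mp h with h | h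
      · exact Or.inl ((RingHom.kerLift_injective θS.toRingHom) (h.trans (map_zero _).symm))
      · exact Or.inr h
  have : (RingHom.ker θS.toRingHom).IsPrime := RingHom.ker_isPrime _
  obtain ⟨g⟩ : Nonempty ((T ⧸ Q) →ₐ[S ⧸ RingHom.ker θS.toRingHom] K) := by
    have : Module.IsTorsionFree (S ⧸ RingHom.ker θS.toRingHom) (T ⧸ Q) :=
      Module.IsTorsionFree.of_smul_eq_zero fun c x h => by
        rcases mul_eq_zero.mp h with h | h
        · exact Or.inl (hi (h.trans (map_zero _).symm))
        · exact Or.inr h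
    have : Algebra.IsAlgebraic (S ⧸ RingHom.ker θS.toRingHom) (T ⧸ Q) :=
      Algebra.IsIntegral.isAlgebraic
    exact ⟨IsAlgClosed.lift⟩
  refine ⟨g.toRingHom.comp (Ideal.Quotient.mk Q), ?_⟩
  have ha : a ∈ S := Algebra.subset_adjoin rfl
  show g (Ideal.Quotient.mk Q a) = r
  rw [show Ideal.Quotient.mk Q a = algebraMap (S ⧸ RingHom.ker θS.toRingHom) (T ⧸ Q)
    (Ideal.Quotient.mk _ ⟨a, ha⟩) from rfl, g.commutes]
  show θS ⟨a, ha⟩ = r
  show Polynomial.aeval r (P _) = r
  rw [hwd (P ⟨a, ha⟩) Polynomial.X (by rw [hP]; simp [ψ]), Polynomial.aeval_X]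

variable (A : ValuationSubring K)

omit [Module.Free ℤ T] [IsReduced T] [CharZero K] [IsAlgClosed K] in
/-- The values at a point lie in the valuation ring. -/
theorem apply_mem_subring (θ : T →+* K) (a : T) : θ a ∈ A := by
  have h : IsIntegral ℤ (θ a) := (Algebra.IsIntegral.isIntegral (R := ℤ) a).map θ.toIntAlgHom
  obtain ⟨y, hy⟩ := IsIntegrallyClosed.isIntegral_iff.mp (h.tower_top (A := A))
  exact hy ▸ y.2

/-! ## Divisibility at all points and the trace form -/

/-- `a` is divisible by `m` at a point. -/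
def DvdAt (θ : T →+* K) (m : K) (a : T) : Prop := ∃ x ∈ A, θ a = m * x

omit [CharZero K] [IsReduced T] in
/-- The trace of a multiplication is divisible by `m` if all values are. -/
theorem trace_dvd {m : K} (a : T) (h : ∀ θ : T →+* K, DvdAt A θ m a) :
    ∃ x ∈ A, (algebraMap ℤ K (LinearMap.trace ℤ T (lmulZ a))) = m * x := by
  classical
  let b := Module.Free.chooseBasis ℤ T
  have e : algebraMap ℤ K (LinearMap.trace ℤ T (lmulZ a)) =
      ((lmulZ a).charpoly.map (algebraMap ℤ K)).roots.sum := by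
    rw [LinearMap.trace_eq_matrix_trace ℤ b, ← LinearMap.charpoly_toMatrix _ b,
      ← Matrix.charpoly_map, ← Matrix.trace_eq_sum_roots_charpoly]
    exact (AddMonoidHom.map_trace (algebraMap ℤ K).toAddMonoidHom _)
  rw [e]
  have key : ∀ s : Multiset K, (∀ r ∈ s, ∃ x ∈ A, r = m * x) → ∃ x ∈ A, s.sum = m * x := by
    intro s
    induction s using Multiset.induction with
    | empty => exact fun _ => ⟨0, A.zero_mem, by simp⟩
    | cons r s ih =>
      intro hs
      obtain ⟨x, hx, rfl⟩ := hs r (Multiset.mem_cons_self _ _)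
      obtain ⟨y, hy, e'⟩ := ih fun q hq => hs q (Multiset.mem_cons_of_mem hq)
      exact ⟨x + y, A.add_mem _ _ hx hy, by rw [Multiset.sum_cons, e', mul_add]⟩
  refine key _ fun r hr => ?_
  obtain ⟨θ, hθ⟩ := exists_hom_of_root a hr
  obtain ⟨x, hx, e'⟩ := h θ
  exact ⟨x, hx, by rw [← hθ, e']⟩

variable (h2 : (2 : K)⁻¹ ∉ A)

omit [IsAlgClosed K] in
include h2 in
/-- Divisibility by a power of two in `A` is divisibility in `ℤ`. -/
theorem two_pow_dvd (z : ℤ) (n : ℕ) (h : ∃ x ∈ A, (z : K) = (2 : K) ^ n * x) : (2 : ℤ) ^ n ∣ z := by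
  induction n generalizing z with
  | zero => simp
  | succ n ih =>
    obtain ⟨x, hx, e⟩ := h
    rcases Int.even_or_odd z with ⟨k, rfl⟩ | ⟨k, rfl⟩
    · rw [show k + k = 2 * k by ring, pow_succ']
      refine mul_dvd_mul_left 2 (ih k ⟨x, hx, ?_⟩)
      push_cast at e
      have : (2 : K) * (k : K) = 2 * (2 ^ n * x) := by rw [pow_succ'] at e; linear_combination e
      exact mul_left_cancel₀ two_ne_zero this
    · exfalso
      apply h2
      have : (2 : K)⁻¹ = 2 ^ n * x - (k : K) := by
        push_cast at e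
        field_simp
        linear_combination e
      rw [this]
      exact sub_mem (mul_mem (pow_mem (ofNat_mem A 2) n) hx) (intCast_mem A k)

/-- The trace form of a reduced ring, finite free over `ℤ`, is non-degenerate. -/
private theorem det_traceMatrix_ne_zero {κ : Type*} [Fintype κ] [DecidableEq κ]
    (b : Module.Basis κ ℤ T) : (Algebra.traceMatrix ℤ b).det ≠ 0 := by
  let G : Matrix κ κ ℤ := Algebra.traceMatrix ℤ b
  show G.det ≠ 0
  intro hdet
  -- a vector killed by the matrix is an element `y ≠ 0` orthogonal to `T`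
  obtain ⟨v, hv0, hv⟩ := Matrix.exists_mulVec_eq_zero_iff.mpr hdet
  set y : T := ∑ i, v i • b i with hy
  have hy0 : y ≠ 0 := fun h => hv0 (funext fun i => by
    have := congrArg (fun z => b.repr z i) h
    rwa [hy, ← b.equivFun_symm_apply, ← b.equivFun_apply, LinearEquiv.apply_symm_apply,
      map_zero] at this)
  have htr : ∀ x, Algebra.trace ℤ T (y * x) = 0 := by
    intro x
    have h1 : ∀ j, Algebra.trace ℤ T (y * b j) = 0 := fun j => by
      have := congrFun hv j
      simp only [Matrix.mulVec, dotProduct, Pi.zero_apply, G, Algebra.traceMatrix_apply,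
        Algebra.traceForm_apply] at this
      rw [hy, Finset.sum_mul, map_sum, ← this]
      exact Finset.sum_congr rfl fun i _ => by
        rw [smul_mul_assoc, map_smul, smul_eq_mul, mul_comm (b j), mul_comm]
    rw [← b.sum_repr x, Finset.mul_sum, map_sum]
    exact Finset.sum_eq_zero fun j _ => by rw [mul_smul_comm, map_smul, h1, smul_zero]
  -- write the characteristic polynomial of multiplication by `y` as `X ^ a g`
  -- with `g = X h + c`, `c ≠ 0`; as `T` is reduced, `y g(y) = 0`, so `f = -y h(y)` satisfies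
  -- `y f = c y` and `f f = c f`
  obtain ⟨g, hg, hcop⟩ := Polynomial.exists_eq_pow_rootMultiplicity_mul_and_not_dvd
    (lmulZ y).charpoly (lmulZ y).charpoly_monic.ne_zero 0
  rw [map_zero, sub_zero] at hg hcop
  set a := Polynomial.rootMultiplicity 0 (lmulZ y).charpoly
  have hc : g.coeff 0 ≠ 0 := fun h => hcop (Polynomial.X_dvd_iff.mpr h)
  obtain ⟨h, hgh⟩ : ∃ h : Polynomial ℤ, g = Polynomial.X * h + Polynomial.C (g.coeff 0) :=
    ⟨g.divX, (Polynomial.X_mul_divX_add g).symm⟩
  have happ : ∀ q : Polynomial ℤ, (Polynomial.aeval (lmulZ y) q) 1 = Polynomial.aeval y q := by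
    intro q
    induction q using Polynomial.induction_on' with
    | add p q hp hq => simp [hp, hq]
    | monomial n c =>
      simp only [Polynomial.aeval_monomial]
      rw [Module.End.mul_apply, LinearMap.pow_mulLeft, Module.algebraMap_end_apply,
        LinearMap.mulLeft_apply, mul_one, Algebra.smul_def]
  have hCH : y ^ a * Polynomial.aeval y g = 0 := by
    have := congrArg (fun f => f (1 : T)) (lmulZ y).aeval_self_charpoly
    simp only [LinearMap.zero_apply, happ] at this
    rwa [hg, map_mul, map_pow, Polynomial.aeval_X] at this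
  have hyg : y * Polynomial.aeval y g = 0 := by
    refine IsReduced.eq_zero _ ⟨a + 1, ?_⟩
    calc (y * Polynomial.aeval y g) ^ (a + 1)
        = y * (Polynomial.aeval y g) ^ a * (y ^ a * Polynomial.aeval y g) := by ring
      _ = 0 := by rw [hCH, mul_zero]
  set c := g.coeff 0
  rw [hgh, map_add, map_mul, Polynomial.aeval_X, Polynomial.aeval_C, eq_intCast] at hyg
  obtain ⟨f, hf⟩ : ∃ f : T, f = -(y * Polynomial.aeval y h) := ⟨_, rfl⟩
  have hyf : y * f = (c : T) * y := by rw [hf]; linear_combination -hyg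
  have hff : f * f = (c : T) * f := by
    calc f * f = -(Polynomial.aeval y h * (y * f)) := by rw [hf]; ring
      _ = _ := by rw [hyf, hf]; ring
  -- hence `f / c` is an idempotent over `ℚ`; its trace is zero as `f` is a multiple of `y`
  let M : Matrix κ κ ℤ := Algebra.leftMulMatrix b f
  let E : Matrix κ κ ℚ := (c : ℚ)⁻¹ • M.map (algebraMap ℤ ℚ)
  have hcK : (c : ℚ) ≠ 0 := Int.cast_ne_zero.mpr hc
  have hMM : M * M = c • M := by
    rw [← map_mul, hff, ← zsmul_eq_mul, map_zsmul]
  have hEE : IsIdempotentElem E := by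
    show E * E = E
    simp only [E, smul_mul_assoc, mul_smul_comm, smul_smul]
    rw [← RingHom.mapMatrix_apply, ← map_mul, hMM, map_zsmul, RingHom.mapMatrix_apply,
      ← Int.cast_smul_eq_zsmul ℚ c, smul_smul, mul_assoc, inv_mul_cancel₀ hcK, mul_one]
  have hE : E = 0 := by
    have htrM : M.trace = 0 := by
      rw [← Algebra.trace_eq_matrix_trace, hf, ← mul_neg]
      exact htr _
    have h1 : IsIdempotentElem (Matrix.toLinAlgEquiv' E) := by
      show _ * _ = _
      rw [← map_mul, hEE.eq]
    have h2 := LinearMap.IsIdempotentElem.eq_zero_of_trace_eq_zero h1 (by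
      show LinearMap.trace ℚ _ (Matrix.toLin' E) = 0
      rw [Matrix.trace_toLin'_eq, Matrix.trace_smul,
        show (M.map (algebraMap ℤ ℚ)).trace = algebraMap ℤ ℚ M.trace from
          (AddMonoidHom.map_trace (algebraMap ℤ ℚ).toAddMonoidHom M).symm, htrM, map_zero,
        smul_zero])
    exact (map_eq_zero_iff _ Matrix.toLinAlgEquiv'.injective).mp h2
  -- so it vanishes, and `c y = y f = 0`
  have hf0 : f = 0 := by
    refine Algebra.leftMulMatrix_injective b (Matrix.ext fun i j => ?_)
    have := congrFun (congrFun hE i) j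
    simp only [E, Matrix.smul_apply, Matrix.map_apply, Matrix.zero_apply, smul_eq_mul] at this
    rcases mul_eq_zero.mp this with h | h
    · exact absurd (inv_eq_zero.mp h) hcK
    · rw [map_zero]; exact RingHom.injective_int (algebraMap ℤ ℚ) (h.trans (map_zero _).symm)
  rw [hf0, mul_zero, ← zsmul_eq_mul] at hyf
  exact hy0 ((smul_eq_zero.mp hyf.symm).resolve_left hc)

include h2 in
/-- Up to a fixed nonzero integer factor, an element divisible by a power of two at all points is so
in the ring. -/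
theorem exists_discr : ∃ D : ℤ, D ≠ 0 ∧ ∀ (n : ℕ) (y : T),
    (∀ θ : T →+* K, DvdAt A θ ((2 : K) ^ n) y) → ∃ y', D • y = (2 : ℤ) ^ n • y' := by
  classical
  let b := Module.Free.chooseBasis ℤ T
  let G : Matrix _ _ ℤ := Algebra.traceMatrix ℤ b
  have hG : G.det ≠ 0 := det_traceMatrix_ne_zero b
  -- the pairings of `y` with the basis are integers divisible by `2 ^ n` in `A`, so in `ℤ`; the
  -- adjugate of the trace matrix recovers `det G • y` from them
  refine ⟨G.det, hG, fun n y hy => ?_⟩
  have hw : ∀ j, (2 : ℤ) ^ n ∣ (G *ᵥ b.repr y) j := by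
    intro j
    have e : (G *ᵥ b.repr y) j = Algebra.trace ℤ T (y * b j) := by
      conv_rhs => rw [← b.sum_repr y, Finset.sum_mul, map_sum]
      simp only [Matrix.mulVec, dotProduct, G, Algebra.traceMatrix_apply, Algebra.traceForm_apply]
      exact Finset.sum_congr rfl fun i _ => by
        rw [smul_mul_assoc, map_smul, smul_eq_mul, mul_comm (b j), mul_comm]
    rw [e, Algebra.trace_apply]
    refine two_pow_dvd A h2 _ n ?_
    obtain ⟨x, hx, e'⟩ := trace_dvd A (y * b j) fun θ => by
      obtain ⟨x, hx, e'⟩ := hy θ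
      exact ⟨x * θ (b j), A.mul_mem _ _ hx (apply_mem_subring A θ _),
        by rw [map_mul, e', mul_assoc]⟩
    exact ⟨x, hx, e'⟩
  choose w hw using hw
  refine ⟨∑ i, (G.adjugate *ᵥ w) i • b i, ?_⟩
  have e1 : G.det • (b.repr y : _ → ℤ) = (2 : ℤ) ^ n • (G.adjugate *ᵥ w) := by
    rw [← Matrix.mulVec_smul, show (2 : ℤ) ^ n • w = G *ᵥ b.repr y from funext fun j => (hw j).symm,
      Matrix.mulVec_mulVec, Matrix.adjugate_mul, Matrix.smul_mulVec, Matrix.one_mulVec]
  conv_lhs => rw [← b.sum_repr y]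
  rw [Finset.smul_sum, Finset.smul_sum]
  refine Finset.sum_congr rfl fun i _ => ?_
  rw [smul_smul, smul_smul]
  exact congrArg (· • b i) (congrFun e1 i)

/-! ## The ideal of a point -/

/-- The ideal of the elements with values in the maximal ideal at a point. -/
def pointIdeal (θ : T →+* K) : Ideal T :=
  (IsLocalRing.maximalIdeal A).comap (θ.codRestrict A.toSubring (apply_mem_subring A θ))

omit [CharZero K] [IsAlgClosed K] [Module.Free ℤ T] [IsReduced T] in
/-- An element is in the ideal of a point exactly when its value is in the maximal ideal. -/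
theorem mem_pointIdeal {θ : T →+* K} {a : T} :
    a ∈ pointIdeal A θ ↔ (⟨θ a, apply_mem_subring A θ a⟩ : A) ∈ IsLocalRing.maximalIdeal A :=
  Iff.rfl

omit [CharZero K] in
include h2 in
omit [IsAlgClosed K] [Module.Free ℤ T] [IsReduced T] in
theorem two_mem_pointIdeal (θ : T →+* K) : (2 : T) ∈ pointIdeal A θ := by
  rw [mem_pointIdeal, IsLocalRing.mem_maximalIdeal, mem_nonunits_iff]
  intro hu
  obtain ⟨x, hx⟩ := isUnit_iff_exists_inv.mp hu
  apply h2
  have e : θ 2 * (x : K) = 1 := congrArg Subtype.val hx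
  rw [map_ofNat] at e
  rw [inv_eq_of_mul_eq_one_right e]
  exact x.2

omit [CharZero K] [IsAlgClosed K] [IsReduced T] in
/-- A large power of an element of a point ideal is divisible by a power of two. -/
theorem exists_pow_dvd_two (θ : T →+* K) (u : T) (hu : u ∈ pointIdeal A θ) (n : ℕ) :
    ∃ k, DvdAt A θ ((2 : K) ^ n) (u ^ k) := by
  have : Finite (T ⧸ Ideal.span {((2 : T) ^ n)}) := by
    let b := Module.Free.chooseBasis ℤ T
    refine Finite.of_surjective (fun v : Module.Free.ChooseBasisIndex ℤ T → ZMod (2 ^ n) =>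
      Ideal.Quotient.mk (Ideal.span {((2 : T) ^ n)}) (∑ i, ((v i).val : ℤ) • b i)) fun y => ?_
    obtain ⟨x, rfl⟩ := Ideal.Quotient.mk_surjective y
    refine ⟨fun i => ((b.repr x i : ℤ) : ZMod (2 ^ n)), ?_⟩
    rw [Ideal.Quotient.eq, ← Ideal.neg_mem_iff, neg_sub]
    conv => arg 2; arg 1; rw [← b.sum_repr x]
    rw [← Finset.sum_sub_distrib]
    refine Ideal.sum_mem _ fun i _ => ?_
    rw [← sub_smul]
    obtain ⟨w, hw⟩ : ((2 ^ n : ℕ) : ℤ) ∣ b.repr x i
        - (((b.repr x i : ℤ) : ZMod (2 ^ n)).val : ℤ) := by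
      rw [← ZMod.intCast_zmod_eq_zero_iff_dvd]
      simp
    rw [hw, zsmul_eq_mul]
    push_cast
    exact Ideal.mul_mem_right _ _ (Ideal.mul_mem_right _ _ (Ideal.mem_span_singleton_self _))
  obtain ⟨i, j, hij, e⟩ := Finite.exists_ne_map_eq_of_infinite
    fun k : ℕ => Ideal.Quotient.mk (Ideal.span {((2 : T) ^ n)}) (u ^ k)
  wlog hlt : i < j generalizing i j
  · exact this j i hij.symm e.symm (by omega)
  rw [Ideal.Quotient.eq, Ideal.mem_span_singleton'] at e
  obtain ⟨x, hx⟩ := e
  obtain ⟨d, hd, rfl⟩ : ∃ d, 0 < d ∧ j = i + d := ⟨j - i, by omega, by omega⟩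
  have hmax : (⟨θ u, apply_mem_subring A θ u⟩ : A) ^ (d : ℕ) ∈ IsLocalRing.maximalIdeal A :=
    Ideal.pow_mem_of_mem (IsLocalRing.maximalIdeal A) hu _ hd
  obtain ⟨w, hw⟩ := (IsLocalRing.isUnit_one_sub_self_of_mem_nonunits _
    ((IsLocalRing.mem_maximalIdeal _).mp hmax)).exists_right_inv
  refine ⟨i, θ x * (w : K), mul_mem (apply_mem_subring A θ x) w.2, ?_⟩
  have e1 := congrArg θ hx
  have e2 : (1 - θ u ^ d) * (w : K) = 1 := congrArg Subtype.val hw
  simp only [map_mul, map_pow, map_sub, map_ofNat, pow_add] at e1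
  rw [map_pow]
  linear_combination -(w : K) * e1 - θ u ^ i * e2

/-! ## Divisibility at the points of `𝔪` -/

include h2 in
/-- **Divisibility at the points of `𝔪`.** -/
theorem exists_killer (𝔪 : Ideal T) [h𝔪 : 𝔪.IsMaximal]
    (h2𝔪 : (2 : T) ∈ 𝔪) : ∃ c : ℕ, ∀ M : ℕ, ∃ u, u ∉ 𝔪 ∧
    ∀ x : T, (∀ θ : T →+* K, pointIdeal A θ = 𝔪 → DvdAt A θ ((2 : K) ^ (M + c)) x) →
      ∃ x', u * x = (2 : ℤ) ^ M • x' := by
  classical
  -- the loss `c` is the two-adic valuation of the factor `D`, with odd part `o`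
  obtain ⟨D, hD0, hD⟩ := exists_discr (T := T) A h2
  obtain ⟨c, o, ho, hDo⟩ : ∃ (c : ℕ) (o : ℤ), Odd o ∧ D = 2 ^ c * o := by
    have hfin : FiniteMultiplicity (2 : ℤ) D := Int.finiteMultiplicity_iff.mpr ⟨by decide, hD0⟩
    obtain ⟨o, ho⟩ := pow_multiplicity_dvd (2 : ℤ) D
    refine ⟨multiplicity 2 D, o, Int.not_even_iff_odd.mp fun he => ?_, ho⟩
    obtain ⟨k, rfl⟩ := he
    exact hfin.not_pow_dvd_of_multiplicity_lt (Nat.lt_succ_self _)
      ⟨k, by rw [pow_succ]; linear_combination ho⟩
  -- finitely many points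
  have hfinT : Finite (T →+* K) := by
    have : Finite (T →ₐ[ℤ] K) := inferInstance
    exact Finite.of_injective RingHom.toIntAlgHom fun a b h => RingHom.ext fun x =>
      DFunLike.congr_fun h x
  have := Fintype.ofFinite (T →+* K)
  -- an element `u₀` outside `𝔪` and in the ideals of all the other points
  have hsep : ∀ θ : T →+* K, ∃ s, s ∉ 𝔪 ∧ (pointIdeal A θ ≠ 𝔪 → s ∈ pointIdeal A θ) := by
    intro θ
    by_cases h : pointIdeal A θ = 𝔪
    · exact ⟨1, h𝔪.ne_top ∘ 𝔪.eq_top_iff_one.mpr, fun h' => absurd h h'⟩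
    · have hp : (pointIdeal A θ).IsPrime := Ideal.IsPrime.comap _
      have hmax : (pointIdeal A θ).IsMaximal := by
        refine Ideal.isMaximal_of_isIntegral_of_isMaximal_comap (R := ℤ) _ ?_
        have hle : Ideal.span {(2 : ℤ)} ≤ (pointIdeal A θ).comap (algebraMap ℤ T) := by
          rw [Ideal.span_le, Set.singleton_subset_iff, SetLike.mem_coe, Ideal.mem_comap, map_ofNat]
          exact two_mem_pointIdeal A h2 θ
        have hm : (Ideal.span {(2 : ℤ)}).IsMaximal :=
          PrincipalIdealRing.isMaximal_of_irreducible Int.prime_two.irreducible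
        rw [← hm.eq_of_le (Ideal.IsPrime.comap _).ne_top hle]
        exact hm
      obtain ⟨s, hs, hs'⟩ : ∃ s ∈ pointIdeal A θ, s ∉ 𝔪 := by
        by_contra hall
        push Not at hall
        exact h (hmax.eq_of_le h𝔪.ne_top hall)
      exact ⟨s, hs', fun _ => hs⟩
  choose s hs hs' using hsep
  set u₀ := ∏ θ, s θ
  have hu₀ : u₀ ∉ 𝔪 := fun h => by
    obtain ⟨θ, -, hθ⟩ := (h𝔪.isPrime.prod_mem_iff).mp h
    exact hs θ hθ
  refine ⟨c, fun M => ?_⟩
  -- at another point a high power of `u₀` is divisible by `2 ^ (M + c)`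
  have hpow : ∀ θ : T →+* K, pointIdeal A θ ≠ 𝔪 →
      ∃ k, ∀ k' ≥ k, DvdAt A θ ((2 : K) ^ (M + c)) (u₀ ^ k') := by
    intro θ hθ
    have hmem : u₀ ∈ pointIdeal A θ :=
      Ideal.mem_of_dvd _ (Finset.dvd_prod_of_mem _ (Finset.mem_univ θ)) (hs' θ hθ)
    obtain ⟨k, hk⟩ := exists_pow_dvd_two A θ u₀ hmem (M + c)
    refine ⟨k, fun k' hk' => ?_⟩
    obtain ⟨x, hx, e⟩ := hk
    obtain ⟨j, rfl⟩ := Nat.exists_eq_add_of_le hk'
    exact ⟨x * θ u₀ ^ j, mul_mem hx (pow_mem (apply_mem_subring A θ u₀) j),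
      by rw [pow_add, map_mul, e, map_pow]; ring⟩
  choose k hk using hpow
  -- the sum `K₀` of these exponents serves all of them, and `o u₀ ^ K₀` is the element sought
  set K₀ := ∑ θ : T →+* K, if h : pointIdeal A θ ≠ 𝔪 then k θ h else 0
  refine ⟨(o : T) * u₀ ^ K₀, fun h => ?_, fun x hx => ?_⟩
  · rcases h𝔪.isPrime.mem_or_mem h with h | h
    · obtain ⟨e, rfl⟩ := ho
      have h2' := h2𝔪
      refine h𝔪.ne_top (𝔪.eq_top_iff_one.mpr ?_)
      have := 𝔪.sub_mem h (𝔪.mul_mem_right (e : T) h2')
      push_cast at this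
      simpa using this
    · exact hu₀ (h𝔪.isPrime.mem_of_pow_mem K₀ h)
  · -- `u₀ ^ K₀ x` is divisible at all points; cancel `2 ^ c` from what `D` gives
    have hall : ∀ θ : T →+* K, DvdAt A θ ((2 : K) ^ (M + c)) (u₀ ^ K₀ * x) := by
      intro θ
      by_cases hθ : pointIdeal A θ = 𝔪
      · obtain ⟨y, hy, e⟩ := hx θ hθ
        exact ⟨θ (u₀ ^ K₀) * y, mul_mem (apply_mem_subring A θ _) hy, by rw [map_mul, e]; ring⟩
      · obtain ⟨y, hy, e⟩ := hk θ hθ K₀ (le_trans (by rw [dif_pos hθ])
          (Finset.single_le_sum (f := fun θ : T →+* K => if h : pointIdeal A θ ≠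
            𝔪 then k θ h else 0)
            (fun _ _ => Nat.zero_le _) (Finset.mem_univ θ)))
        exact ⟨y * θ x, mul_mem hy (apply_mem_subring A θ _), by rw [map_mul, e]; ring⟩
    obtain ⟨y', hy'⟩ := hD (M + c) _ hall
    refine ⟨y', ?_⟩
    rw [hDo, mul_smul, pow_add (2 : ℤ), mul_comm ((2 : ℤ) ^ M), mul_smul] at hy'
    rw [mul_assoc, ← zsmul_eq_mul]
    exact smul_right_injective T (pow_ne_zero c (two_ne_zero : (2 : ℤ) ≠ 0)) hy'

end Fermat.Agent.LT.Deform
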