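import Fermat.Agent.LT.Deform.Assembly
import Fermat.Agent.LT.Deform.Points

/-!
# The homomorphism of the Hecke ring, and the size of its local part modulo `2`

`exists_system`: if `π` sends the generators to the prescribed integers up to nilpotents and the
representations at its points, with values in the valuation ring modulo high powers of `2`, satisfy
`Input`, then a homomorphism to `ZMod (2 ^ N)` takes the prescribed values on the generators and
the part of the ring local at it is spanned modulo `2` by at most as many elements as the target of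
`π` has. It is used in `LT/Compose/System`.
-/

set_option autoImplicit false

noncomputable section

open Matrix

namespace Fermat.Agent.LT.Deform

universe u

variable {T : Type*} [CommRing T] [Module.Finite ℤ T] [Module.Free ℤ T] [IsReduced T]
  {K : Type u} [Field K] [CharZero K] [IsAlgClosed K] (A : ValuationSubring K)
  {Λ : Type*} [CommRing Λ] (π : T →+* Λ)

/-- The maximal ideal cut out by `π`. -/
def piIdeal : Ideal T := (nilradical Λ).comap π

/-- The points of the maximal ideal. -/
abbrev Pts : Type _ := {θ : T →+* K // pointIdeal A θ = piIdeal π}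

/-- Functions on the points with values modulo `2 ^ M`. -/
abbrev AmbAt (M : ℕ) : Type _ := Pts A π → A ⧸ Ideal.span {(2 : A) ^ M}

/-- The values at the points modulo `2 ^ M`. -/
def evAt (M : ℕ) : T →+* AmbAt A π M :=
  RingHom.pi fun θ =>
    (Ideal.Quotient.mk _).comp (θ.1.codRestrict A.toSubring (apply_mem_subring A θ.1))

/-- The representation on the functions on the points. -/
def repAt {G : Type*} [Group G] (ρ : Pts A π → G →* M2 A) (M : ℕ) : G →* M2 (AmbAt A π M) where
  toFun g := Matrix.of fun i j θ => Ideal.Quotient.mk _ (ρ θ g i j)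
  map_one' := by ext i j θ; fin_cases i <;> fin_cases j <;> simp
  map_mul' g h := by ext i j θ; simp [Matrix.mul_apply, Fin.sum_univ_two]

omit [Module.Finite ℤ T] [Module.Free ℤ T] [IsReduced T] in
/-- Every element of the generated ring is congruent to an integer, compatibly with any map sending
the generators to the same integers. -/
private theorem exists_int_congr {t : ℕ → T} {P : Set ℕ} {a : ℕ → ℤ}
    (hgen : Algebra.adjoin ℤ (t '' P) = ⊤) (hcongr : ∀ l ∈ P, IsNilpotent (π (t l) - (a l : Λ)))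
    {S : Type*} [CommRing S] (f : T →+* S) (hf : ∀ l ∈ P, f (t l) = (a l : S)) (x : T) :
    ∃ n : ℤ, IsNilpotent (π x - (n : Λ)) ∧ f x = (n : S) := by
  have hx : x ∈ Algebra.adjoin ℤ (t '' P) := by rw [hgen]; trivial
  induction hx using Algebra.adjoin_induction with
  | mem y hy =>
    obtain ⟨l, hl, rfl⟩ := hy
    exact ⟨a l, hcongr l hl, hf l hl⟩
  | algebraMap n => exact ⟨n, by simp, by simp⟩
  | add y z _ _ hy hz =>
    obtain ⟨m, hm, hm'⟩ := hy
    obtain ⟨n, hn, hn'⟩ := hz
    refine ⟨m + n, ?_, by simp [hm', hn']⟩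
    rw [map_add, Int.cast_add, add_sub_add_comm]
    exact (Commute.all _ _).isNilpotent_add hm hn
  | mul y z _ _ hy hz =>
    obtain ⟨m, hm, hm'⟩ := hy
    obtain ⟨n, hn, hn'⟩ := hz
    refine ⟨m * n, ?_, by simp [hm', hn']⟩
    rw [map_mul, Int.cast_mul, show π y * π z - (m : Λ) * n =
      π y * (π z - n) + (n : Λ) * (π y - m) by ring]
    exact (Commute.all _ _).isNilpotent_add ((Commute.all _ _).isNilpotent_mul_left hn)
      ((Commute.all _ _).isNilpotent_mul_left hm)

omit [IsReduced T] [CharZero K] [IsAlgClosed K] in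
/-- The values modulo `2 ^ M` at the points form a finite ring. -/
private theorem finite_range_evAt (M : ℕ) : (Set.range (evAt A π M)).Finite := by
  let b := Module.Free.chooseBasis ℤ T
  refine Set.Finite.subset
    (Set.finite_range fun v : Module.Free.ChooseBasisIndex ℤ T → ZMod (2 ^ M) =>
    evAt A π M (∑ i, ((v i).val : ℤ) • b i)) ?_
  rintro _ ⟨x, rfl⟩
  refine ⟨fun i => ((b.repr x i : ℤ) : ZMod (2 ^ M)), ?_⟩
  conv_rhs => rw [← b.sum_repr x]
  simp only [map_sum]
  refine Finset.sum_congr rfl fun i _ => ?_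
  rw [← sub_eq_zero, ← map_sub, ← sub_smul]
  obtain ⟨w, hw⟩ : ((2 ^ M : ℕ) : ℤ) ∣
      (((b.repr x i : ℤ) : ZMod (2 ^ M)).val : ℤ) - b.repr x i := by
    rw [← ZMod.intCast_zmod_eq_zero_iff_dvd]
    simp
  rw [hw, zsmul_eq_mul, Int.cast_mul, map_mul, map_mul]
  push_cast
  rw [map_pow, map_ofNat]
  refine mul_eq_zero_of_left (mul_eq_zero_of_left ?_ _) _
  funext θ
  simp only [Pi.pow_apply, Pi.ofNat_apply]
  rw [← map_ofNat (Ideal.Quotient.mk (Ideal.span {(2 : A) ^ M})) 2, ← map_pow,
    Ideal.Quotient.eq_zero_iff_mem]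
  exact Ideal.mem_span_singleton_self _

omit [Module.Free ℤ T] [IsReduced T] [IsAlgClosed K] in
/-- A value killed by `2 ^ i` modulo `2 ^ M` is divisible by `2 ^ (M - i)` at every point. -/
private theorem dvdAt_of_pow_mul_evAt_eq_zero {i M : ℕ} (hi : i ≤ M) {x : T}
    (hx : (2 : AmbAt A π M) ^ i * evAt A π M x = 0) (θ : Pts A π) :
    DvdAt A θ.1 ((2 : K) ^ (M - i)) x := by
  have h0 := congrFun hx θ
  simp only [evAt, Pi.mul_apply, Pi.pow_apply, Pi.ofNat_apply] at h0
  have h0' : Ideal.Quotient.mk (Ideal.span {(2 : A) ^ M})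
      ((2 : A) ^ i * ⟨θ.1 x, apply_mem_subring A θ.1 x⟩) = 0 := by
    rw [map_mul, map_pow, map_ofNat]; exact h0
  rw [Ideal.Quotient.eq_zero_iff_mem, Ideal.mem_span_singleton'] at h0'
  obtain ⟨y, hy⟩ := h0'
  have hy' : (y : K) * 2 ^ M = 2 ^ i * θ.1 x := congrArg Subtype.val hy
  refine ⟨y, y.2, mul_left_cancel₀ (pow_ne_zero i (two_ne_zero : (2 : K) ≠ 0)) ?_⟩
  rw [← hy', ← mul_assoc, ← pow_add, Nat.add_sub_cancel' hi, mul_comm]

omit [Module.Finite ℤ T] [Module.Free ℤ T] [IsReduced T] in
/-- A prescribed system with the residue of `π` sends elements outside the ideal of `π` to units. -/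
private theorem isUnit_apply {t : ℕ → T} {P : Set ℕ} {a : ℕ → ℤ} {N : ℕ}
    (h2Λ : (2 : Λ) = 0) [Nontrivial Λ] (hgen : Algebra.adjoin ℤ (t '' P) = ⊤)
    (hcongr : ∀ l ∈ P, IsNilpotent (π (t l) - (a l : Λ))) {φ : T →+* ZMod (2 ^ N)}
    (hφ : ∀ l ∈ P, φ (t l) = (a l : ZMod (2 ^ N))) {u : T} (hu : IsNilpotent (π u - 1)) :
    IsUnit (φ u) := by
  obtain ⟨n, hn, hn'⟩ := exists_int_congr π hgen hcongr φ hφ u
  have hodd : Odd n := by
    by_contra heven
    obtain ⟨w, rfl⟩ := Int.not_odd_iff_even.mp heven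
    have h1 := (Commute.all _ _).isNilpotent_sub hn hu
    push_cast at h1
    rw [← two_mul, h2Λ, zero_mul, sub_zero, sub_sub_cancel] at h1
    exact h1.not_isUnit isUnit_one
  rw [hn']
  obtain ⟨v, rfl⟩ := hodd
  push_cast
  have hn2 : IsNilpotent (2 * (v : ZMod (2 ^ N))) := ⟨N, by
    rw [mul_pow, show (2 : ZMod (2 ^ N)) ^ N = ((2 ^ N : ℕ) : ZMod (2 ^ N)) by push_cast; rfl,
      ZMod.natCast_self, zero_mul]⟩
  rw [add_comm]
  exact hn2.isUnit_add_left_of_commute isUnit_one (Commute.all _ _)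

omit [Module.Finite ℤ T] [Module.Free ℤ T] [IsReduced T] in
/-- Modulo nilpotents every value of `π` is `0` or `1`. -/
private theorem mem_piIdeal_or_sub_one_mem {t : ℕ → T} {P : Set ℕ} {a : ℕ → ℤ}
    (h2Λ : (2 : Λ) = 0) (hgen : Algebra.adjoin ℤ (t '' P) = ⊤)
    (hcongr : ∀ l ∈ P, IsNilpotent (π (t l) - (a l : Λ))) (x : T) :
    x ∈ piIdeal π ∨ x - 1 ∈ piIdeal π := by
  obtain ⟨n, hn, -⟩ := exists_int_congr π hgen hcongr ((Ideal.Quotient.mk (nilradical Λ)).comp π)
    (fun l hl => by
      rw [RingHom.comp_apply, ← map_intCast (Ideal.Quotient.mk (nilradical Λ))]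
      exact Ideal.Quotient.eq.mpr (mem_nilradical.mpr (hcongr l hl))) x
  rcases Int.even_or_odd n with ⟨w, rfl⟩ | ⟨w, rfl⟩
  · left
    rw [piIdeal, Ideal.mem_comap, mem_nilradical]
    push_cast at hn
    rwa [← two_mul, h2Λ, zero_mul, sub_zero] at hn
  · right
    rw [piIdeal, Ideal.mem_comap, mem_nilradical, map_sub, map_one]
    push_cast at hn
    rwa [h2Λ, zero_mul, zero_add] at hn

omit [Module.Finite ℤ T] [Module.Free ℤ T] [IsReduced T] in
/-- An ideal of `π` with residue field `𝔽₂` is maximal. -/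
private theorem isMaximal_piIdeal [Nontrivial Λ]
    (hcases : ∀ x : T, x ∈ piIdeal π ∨ x - 1 ∈ piIdeal π) : (piIdeal π).IsMaximal := by
  have h1 : (1 : T) ∉ piIdeal π := by
    rw [piIdeal, Ideal.mem_comap, mem_nilradical, map_one]
    exact not_isNilpotent_one
  refine Ideal.isMaximal_iff.mpr ⟨h1, fun J x hJ hx hxJ => ?_⟩
  rcases hcases x with h | h
  · exact absurd h hx
  · have := J.sub_mem hxJ (hJ h)
    rwa [sub_sub_cancel] at this

omit [Module.Finite ℤ T] [Module.Free ℤ T] [IsReduced T] in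
/-- Off the ideal of `π`, whose residue field is `𝔽₂`, the values of `π` are units. -/
private theorem isUnit_of_notMem_piIdeal
    (hcases : ∀ x : T, x ∈ piIdeal π ∨ x - 1 ∈ piIdeal π) {u : T} (hu : u ∉ piIdeal π) :
    IsUnit (π u) := by
  rcases hcases u with h | h
  · exact absurd h hu
  · rw [piIdeal, Ideal.mem_comap, mem_nilradical, map_sub, map_one] at h
    simpa using h.isUnit_add_one

variable [Finite Λ] [Algebra (ZMod 2) Λ] (h2 : (2 : K)⁻¹ ∉ A)
  {t : ℕ → T} {P : Set ℕ} {a : ℕ → ℤ} {N : ℕ} {G : Type*} [Group G]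
  (ρ : Pts A π → G →* M2 A) {ρN : G →* M2 (ZMod (2 ^ N))} {r : G →* (M2 (ZMod 2))ˣ}
  {η : G → ZMod 2} {J : Type*} {D I : J → Set G} {τ : J → G} {ω : Λ}
  {C : Type*} [CommGroup C] [Fintype C] {e : C →* Λˣ} {k : ℕ}

include h2 in
/-- **The system at level `N`.** If `Input` holds at every precision `M ≥ N`, a homomorphism `φ` to
`ZMod (2 ^ N)` takes the values `a` on the generators and, for some `u` with `φ u` a unit, `u T` is
spanned modulo `2` by at most `|Λ|` elements. -/
theorem exists_system [Nontrivial Λ] (hN : 0 < N) (hgen : Algebra.adjoin ℤ (t '' P) = ⊤)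
    (hcongr : ∀ l ∈ P, IsNilpotent (π (t l) - (a l : Λ)))
    (hinput : ∀ M, N ≤ M →
      (Set.range (evAt A π M)).Finite → (∀ x : T, ¬ IsNilpotent (π x) → IsUnit (evAt A π M x)) →
      (∀ i ≤ N, ∀ x : T, (2 : AmbAt A π M) ^ i * evAt A π M x = 0 → π x = 0) →
      Input t P a (evAt A π M) (repAt A π ρ M) ρN r η D I τ π ω e k) :
    ∃ (φ : T →+* ZMod (2 ^ N)) (u : T), (∀ l ∈ P, φ (t l) = (a l : ZMod (2 ^ N))) ∧ IsUnit (φ u) ∧
      ∃ s : Finset T, s.card ≤ Nat.card Λ ∧
        ∀ b : T, ∃ y z : T, y ∈ Submodule.span ℤ (s : Set T) ∧ u * b = y + 2 * z := by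
  classical
  have h2Λ : (2 : Λ) = 0 := algebra_two_eq_zero
  -- the ideal of `π` is maximal, with residue field `𝔽₂`
  have hcases := mem_piIdeal_or_sub_one_mem π h2Λ hgen hcongr
  have := isMaximal_piIdeal π hcases
  have h2m : (2 : T) ∈ piIdeal π := by
    rw [piIdeal, Ideal.mem_comap, map_ofNat, h2Λ]
    exact zero_mem _
  -- `c` is what is lost in passing from divisibility by a power of two at all the points of the
  -- ideal to divisibility in the ring, up to a factor outside the ideal. At precision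
  -- `M = N + c + 1` a value killed by `2 ^ i`, `i ≤ N`, keeps a factor `2` after this loss.
  obtain ⟨c, hkiller⟩ := exists_killer (K := K) A h2 (piIdeal π) h2m
  set M := N + c + 1 with hM
  have hdvdAt : ∀ (i : ℕ), i ≤ M → ∀ x : T, (2 : AmbAt A π M) ^ i * evAt A π M x = 0 →
      ∀ θ : Pts A π, DvdAt A θ.1 ((2 : K) ^ (M - i)) x := fun i hi x hx θ =>
    dvdAt_of_pow_mul_evAt_eq_zero A π hi hx θ
  -- so such a value dies in `Λ`
  have hker : ∀ i ≤ N, ∀ x : T, (2 : AmbAt A π M) ^ i * evAt A π M x = 0 → π x = 0 := by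
    intro i hi x hx
    obtain ⟨w, hw, hw'⟩ := hkiller (M - i - c)
    obtain ⟨x', e'⟩ := hw' x fun θ hθ => by
      rw [show M - i - c + c = M - i by omega]
      exact hdvdAt i (by omega) x hx ⟨θ, hθ⟩
    refine (isUnit_of_notMem_piIdeal π hcases hw).mul_right_eq_zero.mp ?_
    rw [← map_mul, e', map_zsmul, zsmul_eq_mul]
    push_cast
    rw [h2Λ, zero_pow (by omega), zero_mul]
  -- and a value outside the nilradical is a unit
  have hunit : ∀ x : T, ¬ IsNilpotent (π x) → IsUnit (evAt A π M x) := by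
    intro x hx
    refine Pi.isUnit_iff.mpr fun θ => ?_
    refine (IsUnit.map (Ideal.Quotient.mk _) ?_)
    by_contra hu
    refine hx ?_
    have : x ∈ pointIdeal A θ.1 := by
      rw [mem_pointIdeal, IsLocalRing.mem_maximalIdeal]
      exact hu
    rwa [θ.2, piIdeal, Ideal.mem_comap, mem_nilradical] at this
  have hfin : (Set.range (evAt A π M)).Finite := finite_range_evAt A π M
  obtain ⟨⟨φ, hφ⟩, htwice⟩ := exists_hom (hinput M (by omega) hfin hunit hker)
  -- `u` is the factor outside the ideal for divisibility by `2` itself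
  obtain ⟨u, hu, hu'⟩ := hkiller 1
  refine ⟨φ, u, hφ, ?_, ?_⟩
  · refine isUnit_apply π h2Λ hgen hcongr hφ ?_
    rcases hcases u with h | h
    · exact absurd h hu
    · rwa [piIdeal, Ideal.mem_comap, mem_nilradical, map_sub, map_one] at h
  · -- `u T` is spanned modulo two by the `u` times one lift of each value of `π`
    have : Finite (Set.range π) := Set.Finite.to_subtype (Set.toFinite _)
    have := Fintype.ofFinite (Set.range π)
    let lift : Set.range π → T := fun y => y.2.choose
    have hlift : ∀ y, π (lift y) = y := fun y => y.2.choose_spec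
    refine ⟨Finset.univ.image fun y => u * lift y, ?_, fun b => ?_⟩
    · refine Finset.card_image_le.trans ?_
      rw [Finset.card_univ, ← Nat.card_eq_fintype_card]
      exact Finite.card_subtype_le _
    · -- `y = b - lift (π b)` is killed by `π`, so its value is twice that of some `y'`; then
      -- `y - 2 y'` vanishes modulo `2 ^ M` at the points, and `u` makes it divisible by `2`
      obtain ⟨y, hy⟩ : ∃ y, y = b - lift ⟨π b, b, rfl⟩ := ⟨_, rfl⟩
      obtain ⟨y', hy'⟩ := htwice y (by rw [hy, map_sub, hlift, sub_self])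
      obtain ⟨z, hz⟩ := hu' (y - 2 * y') fun θ hθ => by
        have h0 : (2 : AmbAt A π M) ^ 0 * evAt A π M (y - 2 * y') = 0 := by
          rw [pow_zero, one_mul, map_sub, map_mul, map_ofNat, hy', sub_self]
        obtain ⟨x, hx, e'⟩ := hdvdAt 0 (Nat.zero_le _) _ h0 ⟨θ, hθ⟩
        refine ⟨2 ^ (N) * x, mul_mem (pow_mem (ofNat_mem A 2) _) hx, ?_⟩
        rw [e', ← mul_assoc, ← pow_add]
        congr 2
        omega
      refine ⟨u * lift ⟨π b, b, rfl⟩, z + u * y', Submodule.subset_span
        (Finset.mem_image_of_mem _ (Finset.mem_univ _)), ?_⟩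
      rw [pow_one, zsmul_eq_mul] at hz
      push_cast at hz
      linear_combination hz + u * (hy.symm : b - lift ⟨π b, b, rfl⟩ = y)

end Fermat.Agent.LT.Deform
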