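import Fermat.Agent.LT.Deform.Obstruction
import Mathlib.LinearAlgebra.Matrix.CharP
import Mathlib.RingTheory.Flat.TorsionFree
import Mathlib.RingTheory.RegularLocalRing.Defs
import Mathlib.RingTheory.SimpleRing.Principal

/-!
# The commutant lifts

Induction along the powers of the maximal ideal: the obstructions are cocycles with values in the
residual module which are line valued at the places, so they vanish when the Selmer group does.
-/

set_option autoImplicit false

open Matrix

namespace Fermat.Agent.LT.Deform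

variable {R : Type*} [CommRing R] [Algebra (ZMod 2) R]

/-- All entries lie in the ideal. -/
def EntriesIn (I : Ideal R) (A : M2 R) : Prop := ∀ i j, A i j ∈ I

namespace EntriesIn

variable {I J : Ideal R} {A B : M2 R}

omit [Algebra (ZMod 2) R] in
theorem add (hA : EntriesIn I A) (hB : EntriesIn I B) : EntriesIn I (A + B) :=
  fun i j => I.add_mem (hA i j) (hB i j)

omit [Algebra (ZMod 2) R] in
theorem mul_left (P : M2 R) (hA : EntriesIn I A) : EntriesIn I (P * A) := fun i j => by
  rw [Matrix.mul_apply]
  exact I.sum_mem fun t _ => I.mul_mem_left _ (hA t j)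

omit [Algebra (ZMod 2) R] in
theorem mul_right (hA : EntriesIn I A) (Q : M2 R) : EntriesIn I (A * Q) := fun i j => by
  rw [Matrix.mul_apply]
  exact I.sum_mem fun t _ => I.mul_mem_right _ (hA i t)

omit [Algebra (ZMod 2) R] in
/-- A product of matrices with entries in two ideals has entries in their product. -/
theorem mul (hA : EntriesIn I A) (hB : EntriesIn J B) : EntriesIn (I * J) (A * B) := fun i j => by
  rw [Matrix.mul_apply]
  exact (I * J).sum_mem fun t _ => Ideal.mul_mem_mul (hA i t) (hB t j)

omit [Algebra (ZMod 2) R] in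
/-- Matrices with entries in an ideal have entries in any larger one. -/
theorem mono (hA : EntriesIn I A) (h : I ≤ J) : EntriesIn J A := fun i j => h (hA i j)

end EntriesIn

variable (red : R →+* ZMod 2)

local notation "𝔪" => RingHom.ker red

theorem red_algebraMap (a : ZMod 2) : red (algebraMap (ZMod 2) R a) = a :=
  RingHom.congr_fun (RingHom.ext_zmod (red.comp (algebraMap (ZMod 2) R)) (RingHom.id _)) a

theorem sub_algebraMap_mem (r : R) : r - algebraMap (ZMod 2) R (red r) ∈ 𝔪 := by
  rw [RingHom.mem_ker, map_sub, red_algebraMap, sub_self]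

/-- A power of the maximal ideal as a vector space. -/
abbrev powSpace (k : ℕ) : Submodule (ZMod 2) R := (𝔪 ^ k).restrictScalars (ZMod 2)

/-- The graded piece. -/
abbrev Gr (k : ℕ) := powSpace red k ⧸ (powSpace red (k + 1)).comap (powSpace red k).subtype

open Classical in
/-- The class of an element in the graded piece (zero outside the ideal). -/
noncomputable def cls (k : ℕ) (a : R) : Gr red k :=
  if h : a ∈ powSpace red k then Submodule.Quotient.mk ⟨a, h⟩ else 0

variable {red} {k : ℕ}

theorem cls_of_mem {a : R} (h : a ∈ 𝔪 ^ k) :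
    cls red k a = Submodule.Quotient.mk ⟨a, h⟩ := dif_pos h

theorem cls_eq_zero_iff {a : R} (h : a ∈ 𝔪 ^ k) : cls red k a = 0 ↔ a ∈ 𝔪 ^ (k + 1) := by
  rw [cls_of_mem h, Submodule.Quotient.mk_eq_zero]
  rfl

theorem cls_add {a b : R} (ha : a ∈ 𝔪 ^ k) (hb : b ∈ 𝔪 ^ k) :
    cls red k (a + b) = cls red k a + cls red k b := by
  rw [cls_of_mem ha, cls_of_mem hb, cls_of_mem (Ideal.add_mem _ ha hb), ← Submodule.Quotient.mk_add]
  rfl

theorem cls_mul (r : R) {a : R} (ha : a ∈ 𝔪 ^ k) :
    cls red k (r * a) = red r • cls red k a := by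
  rw [cls_of_mem ha, cls_of_mem (Ideal.mul_mem_left _ r ha), ← Submodule.Quotient.mk_smul,
    Submodule.Quotient.eq]
  show r * a - red r • a ∈ 𝔪 ^ (k + 1)
  rw [Algebra.smul_def, ← sub_mul, pow_succ']
  exact Ideal.mul_mem_mul (sub_algebraMap_mem red r) ha

theorem cls_sum {ι : Type*} (s : Finset ι) (f : ι → R) (hf : ∀ i ∈ s, f i ∈ 𝔪 ^ k) :
    cls red k (∑ i ∈ s, f i) = ∑ i ∈ s, cls red k (f i) := by
  classical
  induction s using Finset.induction_on with
  | empty => simp [cls_of_mem (Ideal.zero_mem (𝔪 ^ k)), Submodule.Quotient.mk_eq_zero]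
  | insert x s hx ih =>
    simp only [Finset.mem_insert, forall_eq_or_imp] at hf
    rw [Finset.sum_insert hx, Finset.sum_insert hx, cls_add hf.1 (Ideal.sum_mem _ hf.2), ih hf.2]

/-- A functional on the graded piece, applied entrywise. -/
noncomputable def coord (l : Gr red k →ₗ[ZMod 2] ZMod 2) (A : M2 R) : M2 (ZMod 2) :=
  A.map fun a => l (cls red k a)

variable (l : Gr red k →ₗ[ZMod 2] ZMod 2) {A B : M2 R}

theorem coord_add (hA : EntriesIn (𝔪 ^ k) A) (hB : EntriesIn (𝔪 ^ k) B) :
    coord l (A + B) = coord l A + coord l B := by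
  ext i j
  simp [coord, cls_add (hA i j) (hB i j)]

theorem coord_eq_zero_of_mem (hA : EntriesIn (𝔪 ^ (k + 1)) A) : coord l A = 0 := by
  ext i j
  simp [coord, (cls_eq_zero_iff (Ideal.pow_le_pow_right k.le_succ (hA i j))).mpr (hA i j)]

theorem coord_mul_left (P : M2 R) (hA : EntriesIn (𝔪 ^ k) A) :
    coord l (P * A) = P.map red * coord l A := by
  ext i j
  simp only [coord, Matrix.map_apply, Matrix.mul_apply]
  rw [cls_sum _ _ fun t _ => Ideal.mul_mem_left _ _ (hA t j), map_sum]
  refine Finset.sum_congr rfl fun t _ => ?_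
  rw [cls_mul _ (hA t j), map_smul, smul_eq_mul]

theorem coord_mul_right (hA : EntriesIn (𝔪 ^ k) A) (Q : M2 R) :
    coord l (A * Q) = coord l A * Q.map red := by
  ext i j
  simp only [coord, Matrix.map_apply, Matrix.mul_apply]
  rw [cls_sum _ _ fun t _ => Ideal.mul_mem_right _ _ (hA i t), map_sum]
  refine Finset.sum_congr rfl fun t _ => ?_
  rw [mul_comm (A i t), cls_mul _ (hA i t), map_smul, smul_eq_mul, mul_comm]

theorem coord_trace (hA : EntriesIn (𝔪 ^ k) A) :
    (coord l A).trace = l (cls red k A.trace) := by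
  simp [coord, Matrix.trace, Fin.sum_univ_two, cls_add (hA 0 0) (hA 1 1)]

section Main

variable [CharP R 2] [Finite R] {G : Type*} [Group G] (ρ : G →* (M2 R)ˣ) (η : G → ZMod 2)
  {ι : Type*} (P : ι → Place G R)

/-- The residual representation. -/
def residual (red : R →+* ZMod 2) : G →* (M2 (ZMod 2))ˣ :=
  (Units.map red.mapMatrix.toMonoidHom).comp ρ

/-- The elements killed by the representation and the sign. -/
def killed : Set G := {g | ρ g = 1 ∧ η g = 0}

/-- The hypotheses of the lifting. -/
structure Setup (red : R →+* ZMod 2) : Prop where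
  nilpotent : ∃ n : ℕ, (RingHom.ker red) ^ n = ⊥
  add : ∀ g h, η (g * h) = η g + η h
  conj : ∀ g, conjAct (residual ρ red) g w₀ = w₀ + η g • 1
  trace : ∀ i, (P i).N.trace = 0
  comm : ∀ i, ∀ g ∈ (P i).D, (ρ g : M2 R) * (P i).N = (P i).N * (ρ g : M2 R)
  selmer : SelmerZero (residual ρ red) (killed ρ η) (fun i => (P i).D)
    fun i => (P i).N.map red

variable {ρ η P}

/-- The relation of `W`. -/
def rel (W : M2 R) : M2 R := W * W + W + 1

omit [Algebra (ZMod 2) R] [Finite R] in
theorem two_smul_eq_zero (a : M2 R) : a + a = 0 := by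
  ext i j; simp [CharTwo.add_self_eq_zero]

omit [Algebra (ZMod 2) R] [Finite R] in
theorem rel_add_self (W : M2 R) : rel (W + rel W) = rel W * rel W := by
  have hc : W * rel W = rel W * W := by simp only [rel]; noncomm_ring
  have e : rel (W + rel W) =
      rel W * rel W + ((W * rel W + rel W * W) + (rel W + rel W)) := by
    simp only [rel]; noncomm_ring
  rw [e, hc, two_smul_eq_zero, two_smul_eq_zero, add_zero, add_zero]

omit [Finite R] in
theorem defect_eq_zero_of_killed (W : M2 R) {g : G} (hg : g ∈ killed ρ η) :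
    defect ρ (fun g => algebraMap (ZMod 2) R (η g)) W g = 0 := by
  simp [defect, hg.1, hg.2, two_smul_eq_zero]

/-- The lifting property at the `k`-th power of the maximal ideal. -/
def LiftsTo (ρ : G →* (M2 R)ˣ) (η : G → ZMod 2) (red : R →+* ZMod 2) (k : ℕ) : Prop :=
  ∃ W : M2 R, W.map red = w₀ ∧ EntriesIn (RingHom.ker red ^ k) (rel W) ∧
    ∀ g, EntriesIn (RingHom.ker red ^ k) (defect ρ (fun g => algebraMap (ZMod 2) R (η g)) W g)

omit [Algebra (ZMod 2) R] [CharP R 2] [Finite R] in
theorem map_eq_zero_iff_entries (A : M2 R) : A.map red = 0 ↔ EntriesIn (𝔪 ^ 1) A := by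
  simp [← Matrix.ext_iff, EntriesIn, RingHom.mem_ker]

omit [CharP R 2] [Finite R] in
theorem liftsTo_one (h : Setup ρ η P red) : LiftsTo ρ η red 1 := by
  refine ⟨w₀.map (algebraMap (ZMod 2) R), ?_, ?_, fun g => ?_⟩
  · ext i j; simp [red_algebraMap]
  · rw [← map_eq_zero_iff_entries]
    have : (w₀.map (algebraMap (ZMod 2) R)).map red = w₀ := by ext i j; simp [red_algebraMap]
    show red.mapMatrix (rel _) = 0
    simp only [rel, map_add, map_mul, map_one, RingHom.mapMatrix_apply, this]
    exact w₀_sq
  · rw [← map_eq_zero_iff_entries]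
    have hw : (w₀.map (algebraMap (ZMod 2) R)).map red = w₀ := by ext i j; simp [red_algebraMap]
    have hs : (algebraMap (ZMod 2) R (η g) • (1 : M2 R)).map red = η g • 1 := by
      ext i j; by_cases hij : i = j <;>
        simp only [Matrix.map_apply, Matrix.smul_apply, Matrix.one_apply, hij, smul_eq_mul, if_true,
            if_false, mul_one, mul_zero, map_zero, red_algebraMap]
    show red.mapMatrix (defect _ _ _ g) = 0
    simp only [defect, map_add, map_mul, RingHom.mapMatrix_apply, hw, hs]
    have := h.conj g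
    rw [conjAct] at this
    change conjAct (residual ρ red) g w₀ + w₀ + η g • 1 = 0
    rw [conjAct, this, show w₀ + η g • (1 : M2 (ZMod 2)) + w₀ + η g • 1 =
      (w₀ + w₀) + (η g • (1 : M2 (ZMod 2)) + η g • 1) by abel]
    simp [CharTwo.add_self_eq_zero]

omit [CharP R 2] in
/-- Matrices over `ZMod 2` are the coordinates of a matrix with entries in the `k`-th power. -/
private theorem exists_entriesIn_coord_eq {ι : Type*} {k : ℕ}
    (b : Module.Basis ι (ZMod 2) (Gr red k)) (y : ι → M2 (ZMod 2)) :
    ∃ Y : M2 R, EntriesIn (𝔪 ^ k) Y ∧ ∀ i, coord (b.coord i) Y = y i := by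
  have hlift : ∀ q : Gr red k, ∃ a ∈ 𝔪 ^ k, cls red k a = q := fun q => by
    obtain ⟨⟨a, ha⟩, rfl⟩ := Submodule.Quotient.mk_surjective _ q
    exact ⟨a, ha, cls_of_mem ha⟩
  have : Finite (Gr red k) := Finite.of_surjective _ (Submodule.Quotient.mk_surjective _)
  have : Module.Finite (ZMod 2) (Gr red k) := Module.Finite.of_finite
  have : Finite ι := Module.Finite.finite_basis b
  have := Fintype.ofFinite ι
  have hfin : ∀ s t, ∃ a ∈ 𝔪 ^ k, ∀ i, b.coord i (cls red k a) = y i s t := by
    intro s t
    obtain ⟨a, ha, e⟩ := hlift (b.equivFun.symm fun i => y i s t)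
    refine ⟨a, ha, fun i => ?_⟩
    rw [e, Module.Basis.coord_apply, ← Module.Basis.equivFun_apply, LinearEquiv.apply_symm_apply]
  choose Y hYmem hY using hfin
  refine ⟨Matrix.of Y, fun s t => hYmem s t, fun i => ?_⟩
  ext s t
  exact hY s t i

theorem liftsTo_succ (h : Setup ρ η P red) {k : ℕ} (hk : 1 ≤ k) (hlift : LiftsTo ρ η red k) :
    LiftsTo ρ η red (k + 1) := by
  classical
  obtain ⟨W₀, hW₀, hrel₀, hdef₀⟩ := hlift
  set η' : G → R := fun g => algebraMap (ZMod 2) R (η g) with hη'
  have hη'add : ∀ g g', η' (g * g') = η' g + η' g' := fun g g' => by simp [hη', h.add]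
  have hη'idem : ∀ g, η' g * η' g = η' g := fun g => by
    simp only [hη', ← map_mul]
    congr 1
    generalize η g = a; revert a; decide
  -- first improve the relation
  set W := W₀ + rel W₀ with hWdef
  have hle : (𝔪 : Ideal R) ^ k * 𝔪 ^ k ≤ 𝔪 ^ (k + 1) := by
    rw [← pow_add]; exact Ideal.pow_le_pow_right (by omega)
  have hW : W.map red = w₀ := by
    show red.mapMatrix (W₀ + rel W₀) = w₀
    rw [map_add, RingHom.mapMatrix_apply, RingHom.mapMatrix_apply, hW₀,
      (map_eq_zero_iff_entries _).mpr (hrel₀.mono (Ideal.pow_le_pow_right hk)), add_zero]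
  have hrel : EntriesIn (𝔪 ^ (k + 1)) (rel W) := by
    rw [hWdef, rel_add_self]; exact (hrel₀.mul hrel₀).mono hle
  have hdef : ∀ g, EntriesIn (𝔪 ^ k) (defect ρ η' W g) := fun g => by
    rw [hWdef, defect_add]
    exact (hdef₀ g).add (((hrel₀.mul_left _).mul_right _).add hrel₀)
  have hρ : ∀ g, (ρ g : M2 R).map red = ((residual ρ red g : (M2 (ZMod 2))ˣ) : M2 (ZMod 2)) :=
    fun g => rfl
  have hρ' : ∀ g, (↑(ρ g)⁻¹ : M2 R).map red =
      (↑(residual ρ red g)⁻¹ : M2 (ZMod 2)) := fun g => rfl
  -- the coordinates of the obstruction are cocycles in the residual module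
  let b := Module.Free.chooseBasis (ZMod 2) (Gr red k)
  have hco : ∀ i, ∃ y, InV y ∧ ∀ g, coord (b.coord i) (defect ρ η' W g) =
      conjAct (residual ρ red) g y + y := by
    intro i
    refine h.selmer _ ⟨fun g => ?_, fun g g' => ?_⟩ (fun g hg => ?_) fun v g hg => ?_
    -- values in the residual module: the relation of `W` holds modulo `𝔪 ^ (k + 1)`
    · have e := defect_rel ρ η' hη'idem W g
      have h1 : EntriesIn (𝔪 ^ (k + 1)) ((ρ g : M2 R) * rel W * (↑(ρ g)⁻¹ : M2 R) + rel W +
          defect ρ η' W g * defect ρ η' W g) :=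
        (((hrel.mul_left _).mul_right _).add hrel).add (((hdef g).mul (hdef g)).mono hle)
      have := congrArg (coord (b.coord i)) e
      simp only [rel] at h1
      rw [coord_eq_zero_of_mem _ h1, coord_add _ (((hdef g).mul_right W).add ((hdef g).mul_left W))
        (hdef g), coord_add _ ((hdef g).mul_right W) ((hdef g).mul_left W),
        coord_mul_right _ (hdef g), coord_mul_left _ _ (hdef g), hW] at this
      exact this
    -- a cocycle: the defect is one
    · rw [defect_mul ρ η' hη'add, coord_add _ (hdef g) (((hdef g').mul_left _).mul_right _),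
        coord_mul_right _ ((hdef g').mul_left _), coord_mul_left _ _ (hdef g'), hρ, hρ']
      rfl
    -- it is trivial where `ρ` and the sign are
    · rw [hη', defect_eq_zero_of_killed W hg, coord_eq_zero_of_mem _ (A := 0) fun _ _ =>
        Ideal.zero_mem _]
    -- it is line valued at `v`: its product with `N` has trace zero, `N` commuting with `ρ g`
    · rw [← coord_mul_left _ _ (hdef g), coord_trace _ ((hdef g).mul_left _),
        trace_defect ρ η' W _ (h.trace v) (h.comm v g hg),
        (cls_eq_zero_iff (Ideal.zero_mem _)).mpr (Ideal.zero_mem _), map_zero]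
  choose y hyV hy using hco
  -- a matrix with these coordinates
  obtain ⟨Y, hYe, hY'⟩ := exists_entriesIn_coord_eq b y
  -- correcting `W` by it keeps the residue; as each `y i` is in the residual module it keeps the
  -- relation, and as the obstruction is their coboundary the defect cancels modulo `𝔪 ^ (k + 1)`
  refine ⟨W + Y, ?_, ?_, fun g => ?_⟩
  · show red.mapMatrix (W + _) = w₀
    rw [map_add, RingHom.mapMatrix_apply, RingHom.mapMatrix_apply, hW,
      (map_eq_zero_iff_entries _).mpr (hYe.mono (Ideal.pow_le_pow_right hk)), add_zero]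
  · intro s t
    have e : rel (W + Y) = rel W + (Y * W + W * Y + Y) +
        Y * Y := by simp only [rel]; noncomm_ring
    rw [e]
    refine Ideal.add_mem _ (Ideal.add_mem _ (hrel s t) ?_) (hle ((hYe.mul hYe) s t))
    have hin := ((hYe.mul_right W).add (hYe.mul_left W)).add hYe
    rw [← cls_eq_zero_iff (hin s t), ← b.forall_coord_eq_zero_iff]
    intro i
    have := congrFun (congrFun (show coord (b.coord i)
        (Y * W + W * Y + Y) = 0 by
      rw [coord_add _ ((hYe.mul_right W).add (hYe.mul_left W)) hYe,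
        coord_add _ (hYe.mul_right W) (hYe.mul_left W), coord_mul_right _ hYe,
        coord_mul_left _ _ hYe, hW, hY']
      exact hyV i) s) t
    exact this
  · intro s t
    have e := defect_add ρ η' W (Y) g
    have hin : EntriesIn (𝔪 ^ k) ((ρ g : M2 R) * Y * (↑(ρ g)⁻¹ : M2 R) + Y) :=
      ((hYe.mul_left _).mul_right _).add hYe
    show defect ρ η' (W + Y) g s t ∈ _
    rw [e, ← cls_eq_zero_iff (((hdef g).add hin) s t), ← b.forall_coord_eq_zero_iff]
    intro i
    have := congrFun (congrFun (show coord (b.coord i) (defect ρ η' W g +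
        ((ρ g : M2 R) * Y * (↑(ρ g)⁻¹ : M2 R) + Y)) = 0 by
      rw [coord_add _ (hdef g) hin, coord_add _ ((hYe.mul_left _).mul_right _) hYe,
        coord_mul_right _ (hYe.mul_left _), coord_mul_left _ _ hYe, hρ, hρ', hY', hy]
      ext p q
      simp only [conjAct, Matrix.add_apply, Matrix.zero_apply,
        CharTwo.add_self_eq_zero (R := ZMod 2)]) s) t
    exact this

/-- **The commutant lifts.** -/
theorem exists_commutant (h : Setup ρ η P red) :
    ∃ W : M2 R, W.map red = w₀ ∧ W * W + W + 1 = 0 ∧ ∀ g,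
      (ρ g : M2 R) * W * (↑(ρ g)⁻¹ : M2 R) = W + algebraMap (ZMod 2) R (η g) • 1 := by
  obtain ⟨n, hn⟩ := h.nilpotent
  have hall : ∀ k, LiftsTo ρ η red (k + 1) := fun k => by
    induction k with
    | zero => exact liftsTo_one h
    | succ j ih => exact liftsTo_succ h (by omega) ih
  obtain ⟨W, hW, hrel, hdef⟩ := hall n
  have hz : ∀ a ∈ 𝔪 ^ (n + 1), a = 0 := fun a ha => by
    have := Ideal.pow_le_pow_right (Nat.le_succ n) ha
    rwa [hn, Ideal.mem_bot] at this
  refine ⟨W, hW, Matrix.ext fun i j => hz _ (hrel i j), fun g => ?_⟩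
  have e : defect ρ (fun g => algebraMap (ZMod 2) R (η g)) W g = 0 :=
    Matrix.ext fun i j => hz _ (hdef g i j)
  simp only [defect] at e
  have h2 := two_smul_eq_zero (W + algebraMap (ZMod 2) R (η g) • (1 : M2 R))
  linear_combination (norm := abel) e - h2

end Main

end Fermat.Agent.LT.Deform
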