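import Fermat.Agent.LT.Deform.Character
import Fermat.Agent.LT.Deform.Lift

/-!
# Recovering a ring from a dihedral representation

In characteristic `2` let a representation of determinant one with a commutant `W` have at most
`3 h` values on the kernel of the sign, and let a homomorphism `π` send traces of elements there
to `ω c + ω ^ 2 c⁻¹`, for generators `c` of a group of `2`-power order `h` of unipotent units
independent over `𝔽₄`. If the traces generate the ring, then `π` is injective.

Main result: `injective_of_dihedral`.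
-/

set_option autoImplicit false

open Matrix

namespace Fermat.Agent.LT.Deform

variable {R : Type*} [CommRing R] [CharP R 2] [Algebra (ZMod 2) R] {red : R →+* ZMod 2}
  {W : M2 R} {Λ : Type*} [CommRing Λ]

/-! ## The value of `a + b W` -/

/-- The value `a + b ω` of `a + b W`. -/
noncomputable def coordVal (π : R →+* Λ) (ω : Λ) (hru : ReflectsUnits red) (hW : W.map red = w₀)
    (M : {M : M2 R // M * W = W * M}) : Λ :=
  π (exists_of_commute hru hW M.2).choose +
    π (exists_of_commute hru hW M.2).choose_spec.choose * ω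

variable (π : R →+* Λ) (ω : Λ) (hru : ReflectsUnits red) (hW : W.map red = w₀)

omit [CharP R 2] [Algebra (ZMod 2) R] in
theorem coordVal_eq (M : {M : M2 R // M * W = W * M}) {a b : R}
    (h : (M : M2 R) = a • (1 : M2 R) + b • W) : coordVal π ω hru hW M = π a + π b * ω := by
  obtain ⟨ha, hb⟩ := coords_unique hru hW
    ((exists_of_commute hru hW M.2).choose_spec.choose_spec.symm.trans h)
  unfold coordVal
  rw [hb, ha]

omit [CharP R 2] [Algebra (ZMod 2) R] in
/-- The value is multiplicative. -/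
theorem coordVal_mul (hrel : W * W + W + 1 = 0) (hω : ω * ω + ω + 1 = 0)
    (M M' : {M : M2 R // M * W = W * M})
    (h : (M : M2 R) * (M' : M2 R) * W = W * ((M : M2 R) * (M' : M2 R))) :
    coordVal π ω hru hW ⟨_, h⟩ = coordVal π ω hru hW M * coordVal π ω hru hW M' := by
  obtain ⟨a, b, e⟩ := exists_of_commute hru hW M.2
  obtain ⟨c, d, e'⟩ := exists_of_commute hru hW M'.2
  have hWW : W * W = -W - 1 := by linear_combination (norm := abel) hrel
  have e'' : (M : M2 R) * (M' : M2 R) =
      (a * c - b * d) • (1 : M2 R) + (a * d + b * c - b * d) • W := by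
    rw [e, e']
    simp only [add_mul, mul_add, smul_mul_assoc, mul_smul_comm, one_mul, mul_one, hWW]
    match_scalars <;> ring
  rw [coordVal_eq π ω hru hW ⟨_, h⟩ e'', coordVal_eq π ω hru hW M e,
    coordVal_eq π ω hru hW M' e']
  simp only [map_add, map_sub, map_mul]
  linear_combination -(π b * π d) * hω

/-! ## The units `ω ^ i e c` -/

section Units

variable {C : Type*} [CommGroup C] (e : C →* Λˣ)

/-- In an algebra over `𝔽₂` two is zero. -/
theorem algebra_two_eq_zero [Algebra (ZMod 2) Λ] : (2 : Λ) = 0 := by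
  rw [← map_ofNat (algebraMap (ZMod 2) Λ) 2, show (2 : ZMod 2) = 0 from rfl, map_zero]

/-- Independence over `𝔽₄` forces a nonzero ring. -/
theorem nontrivial_of_indep [Algebra (ZMod 2) Λ] [Fintype C] {ω : Λ}
    (hind : ∀ a b : C → ZMod 2,
      ∑ c, a c • (e c : Λ) + ω * ∑ c, b c • (e c : Λ) = 0 → a = 0 ∧ b = 0) : Nontrivial Λ := by
  classical
  by_contra h
  have := not_nontrivial_iff_subsingleton.mp h
  simpa using congrFun (hind (Pi.single 1 1) 0 (Subsingleton.elim _ _)).1 1

/-- The units `ω ^ i e c`. -/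
def unitHom (ωu : Λˣ) (hω3 : ωu ^ 3 = 1) : Multiplicative (ZMod 3) × C →* Λˣ :=
  MonoidHom.coprod
    { toFun := fun i => ωu ^ (Multiplicative.toAdd i).val
      map_one' := by simp
      map_mul' := fun i j => by
        rw [← pow_add, toAdd_mul, ZMod.val_add, ← pow_eq_pow_mod _ hω3] }
    e

theorem unitHom_apply (ωu : Λˣ) (hω3 : ωu ^ 3 = 1) (i : Multiplicative (ZMod 3)) (c : C) :
    unitHom e ωu hω3 (i, c) = ωu ^ (Multiplicative.toAdd i).val * e c := rfl

/-- Independence over `𝔽₄` makes the units `ω ^ i e c` distinct. -/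
theorem unitHom_injective [Algebra (ZMod 2) Λ] (ωu : Λˣ) (hω3 : ωu ^ 3 = 1)
    (hωrel : (ωu : Λ) * ωu + ωu + 1 = 0) [Fintype C]
    (hind : ∀ a b : C → ZMod 2,
      ∑ c, a c • (e c : Λ) + (ωu : Λ) * ∑ c, b c • (e c : Λ) = 0 → a = 0 ∧ b = 0) :
    Function.Injective (unitHom e ωu hω3) := by
  classical
  have : CharP Λ 2 ∨ Subsingleton Λ := by
    rcases subsingleton_or_nontrivial Λ with h | h
    · exact Or.inr h
    · exact Or.inl (charP_of_injective_algebraMap (algebraMap (ZMod 2) Λ).injective 2)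
  have h2 : (2 : Λ) = 0 := algebra_two_eq_zero
  have hsum : ∀ c₀ : C, ∑ c, (Pi.single c₀ 1 : C → ZMod 2) c • (e c : Λ) = e c₀ := fun c₀ => by
    rw [Finset.sum_eq_single c₀ (fun c _ hc => by rw [Pi.single_eq_of_ne hc, zero_smul])
      (fun h => absurd (Finset.mem_univ c₀) h), Pi.single_eq_same, one_smul]
  refine (injective_iff_map_eq_one _).mpr ?_
  rintro ⟨i, c⟩ hic
  rw [unitHom_apply] at hic
  have hval := congrArg Units.val hic
  simp only [Units.val_mul, Units.val_pow_eq_pow_val, Units.val_one] at hval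
  rcases (show Multiplicative.toAdd i = 0 ∨ Multiplicative.toAdd i = 1 ∨
      Multiplicative.toAdd i = 2 by generalize Multiplicative.toAdd i = x; revert x; decide)
    with h | h | h
  · obtain rfl : i = 1 := toAdd_eq_zero.mp h
    rw [h, ZMod.val_zero, pow_zero, one_mul] at hval
    have := hind (Pi.single c 1 + Pi.single 1 1) 0 (by
      simp only [Pi.add_apply, add_smul, Finset.sum_add_distrib, hsum, map_one, Units.val_one,
        Pi.zero_apply, zero_smul, Finset.sum_const_zero, mul_zero, add_zero, hval]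
      linear_combination h2)
    by_contra hne
    have hc : c ≠ 1 := fun hc => hne (by rw [hc]; rfl)
    simpa [Pi.single_eq_of_ne hc] using congrFun this.1 c
  · exfalso
    rw [h, ZMod.val_one, pow_one] at hval
    have := hind (Pi.single 1 1) (Pi.single c 1) (by
      rw [hsum, hsum, map_one, Units.val_one]
      linear_combination hval + h2)
    simpa using congrFun this.1 1
  · exfalso
    rw [h, show (2 : ZMod 3).val = 2 from rfl] at hval
    have := hind (Pi.single c 1 + Pi.single 1 1) (Pi.single c 1) (by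
      simp only [Pi.add_apply, add_smul, Finset.sum_add_distrib, hsum, map_one, Units.val_one]
      linear_combination (e c : Λ) * hωrel - hval)
    simpa using congrFun this.2 c

/-- A subgroup of `μ₃ × C` containing `(ω, c)` for a nonempty set of generators `c` is everything,
when the order of `C` is a power of `2`. -/
theorem eq_top_of_mem {k : ℕ} (hC : Nat.card C = 2 ^ k)
    (K : Subgroup (Multiplicative (ZMod 3) × C)) (s : Set C) (hs : s.Nonempty)
    (hgen : Subgroup.closure s = ⊤) (hmem : ∀ c ∈ s, (Multiplicative.ofAdd 1, c) ∈ K) : K = ⊤ := by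
  have hproj : K.map (MonoidHom.snd (Multiplicative (ZMod 3)) C) = ⊤ :=
    top_le_iff.mp (hgen ▸ (Subgroup.closure_le _).mpr fun c hc => ⟨_, hmem c hc, rfl⟩)
  obtain ⟨c₀, hc₀⟩ := hs
  have h3c : ((2 ^ k : ℕ) : ZMod 3) * ((2 ^ k : ℕ) : ZMod 3) = 1 := by
    push_cast
    rw [← mul_pow, show (2 : ZMod 3) * 2 = 1 by decide, one_pow]
  have h3 : ((Multiplicative.ofAdd 1, 1) : Multiplicative (ZMod 3) × C) ∈ K := by
    have hp := K.pow_mem (hmem c₀ hc₀) (2 ^ k)
    have hp' := K.pow_mem hp (2 ^ k)
    rw [Prod.pow_mk, Prod.pow_mk, ← hC, pow_card_eq_one', one_pow, hC] at hp'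
    convert hp' using 2
    rw [← ofAdd_nsmul, ← ofAdd_nsmul, nsmul_eq_mul, nsmul_eq_mul, mul_one, h3c]
  rw [eq_top_iff]
  rintro ⟨i, c⟩ -
  obtain ⟨⟨j, c'⟩, hjc, (rfl : c' = c)⟩ :
      c ∈ K.map (MonoidHom.snd (Multiplicative (ZMod 3)) C) := by
    rw [hproj]; trivial
  have hpow : ((i, c') : Multiplicative (ZMod 3) × C) =
      (j, c') * (Multiplicative.ofAdd 1, 1) ^ (Multiplicative.toAdd (i / j)).val := by
    rw [Prod.pow_mk, one_pow, Prod.mk_mul_mk, mul_one, ← ofAdd_nsmul, nsmul_eq_mul,
      ZMod.natCast_zmod_val, mul_one, ofAdd_toAdd, mul_div_cancel]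
  rw [hpow]
  exact K.mul_mem hjc (K.pow_mem h3 _)

end Units

/-! ## Roots and spans -/

omit [Algebra (ZMod 2) R] in
theorem two_smul_eq_zero' (M : M2 R) : M + M = 0 := by
  ext i j; simp [CharTwo.add_self_eq_zero]

omit [CharP R 2] [Algebra (ZMod 2) R] in
/-- Cayley–Hamilton in determinant one. -/
theorem sq_sub_trace_smul {M : M2 R} (hd : M.det = 1) : M * M - M.trace • M + 1 = 0 := by
  rw [Matrix.det_fin_two] at hd
  ext i j
  fin_cases i <;> fin_cases j <;>
    simp [Matrix.mul_apply, Fin.sum_univ_two, Matrix.trace_fin_two] <;>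
    first | linear_combination -hd | ring

omit [CharP R 2] [Algebra (ZMod 2) R] in
/-- A root of `(X - ω u) (X - ω ^ 2 v)` congruent to `ω` or `ω + 1`, for unipotent `u` and `v`, is
one of `ω u` and `ω ^ 2 v`. -/
private theorem root_cases [Algebra (ZMod 2) Λ] {ω : Λ} (hω : ω * ω + ω + 1 = 0) {u v m : Λ}
    (hu : IsNilpotent (u - 1)) (hv : IsNilpotent (v - 1))
    (hprod : (m - ω * u) * (m - ω * ω * v) = 0) {a : ZMod 2}
    (hm : IsNilpotent (m - (algebraMap (ZMod 2) Λ a + ω))) :
    m = ω * u ∨ m = ω * ω * v := by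
  have hun : ∀ x y : Λ, IsUnit y → IsNilpotent (x - y) → IsUnit x := fun x y hy hn => by
    simpa using hn.isUnit_add_left_of_commute hy (Commute.all _ _)
  rcases (show a = 0 ∨ a = 1 by clear hm; revert a; decide) with rfl | rfl
  · left
    have hw : IsUnit (m - ω * ω * v) := by
      refine hun _ (ω - ω * ω) (IsUnit.of_mul_eq_one (1 : Λ) ?_) ?_
      · linear_combination -hω + ω * algebra_two_eq_zero (Λ := Λ)
      · have := (Commute.all _ _).isNilpotent_sub hm
          ((Commute.all (ω * ω) _).isNilpotent_mul_left hv)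
        convert this using 1
        rw [map_zero]
        ring
    exact sub_eq_zero.mp (hw.mul_left_eq_zero.mp hprod)
  · right
    have hw : IsUnit (m - ω * u) := by
      refine hun _ 1 isUnit_one ?_
      have := (Commute.all _ _).isNilpotent_sub hm ((Commute.all ω _).isNilpotent_mul_left hu)
      convert this using 1
      rw [map_one]
      ring
    exact sub_eq_zero.mp (hw.mul_right_eq_zero.mp hprod)

/-- The span of the image of a monoid is closed under multiplication. -/
private theorem mul_mem_span_range {H A : Type*} [Monoid H] [Semiring A] [Algebra (ZMod 2) A]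
    (f : H →* A) {x y : A} (hx : x ∈ Submodule.span (ZMod 2) (Set.range f))
    (hy : y ∈ Submodule.span (ZMod 2) (Set.range f)) :
    x * y ∈ Submodule.span (ZMod 2) (Set.range f) := by
  refine Submodule.mul_le.mp ((Submodule.span_mul_span _ _ _).trans_le (Submodule.span_mono ?_))
    x hx y hy
  rintro _ ⟨_, ⟨g, rfl⟩, _, ⟨g', rfl⟩, rfl⟩
  exact ⟨g * g', map_mul f g g'⟩

/-- A sum over `μ₃ × C`, by layers. -/
private theorem sum_layers {C M : Type*} [Fintype C] [AddCommMonoid M]
    (F : Multiplicative (ZMod 3) × C → M) :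
    ∑ y, F y =
      ∑ c, (F (1, c) + (F (Multiplicative.ofAdd 1, c) + F (Multiplicative.ofAdd 2, c))) := by
  rw [Fintype.sum_prod_type_right]
  refine Finset.sum_congr rfl fun c _ => ?_
  rw [← Fintype.sum_equiv Multiplicative.ofAdd (fun i : ZMod 3 => F (Multiplicative.ofAdd i, c))
    (fun x => F (x, c)) (fun _ => rfl), show (Finset.univ : Finset (ZMod 3)) = {0, 1, 2} from rfl,
    Finset.sum_insert (by decide), Finset.sum_insert (by decide), Finset.sum_singleton, ofAdd_zero]

omit [CharP R 2] [Algebra (ZMod 2) R] in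
/-- A combination of the units `ω ^ i e c`, written over `1` and `ω`. -/
private theorem sum_smul_unitHom [Algebra (ZMod 2) Λ] {ω : Λ} (hω : ω * ω + ω + 1 = 0) {C : Type*}
    [CommGroup C] [Fintype C] (e : C →* Λˣ) (ωu : Λˣ) (hωu : ωu ^ 3 = 1) (hval : (ωu : Λ) = ω)
    (v : Multiplicative (ZMod 3) × C → ZMod 2) :
    ∑ y, v y • (unitHom e ωu hωu y : Λ) =
      ∑ c, (v (1, c) + v (Multiplicative.ofAdd 2, c)) • (e c : Λ) + ω *
        ∑ c, (v (Multiplicative.ofAdd 1, c) + v (Multiplicative.ofAdd 2, c)) • (e c : Λ) := by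
  rw [sum_layers, Finset.mul_sum, ← Finset.sum_add_distrib]
  refine Finset.sum_congr rfl fun c _ => ?_
  simp only [unitHom_apply, Units.val_mul, Units.val_pow_eq_pow_val, toAdd_ofAdd, toAdd_one,
    ZMod.val_zero, ZMod.val_one, pow_zero, pow_one, one_mul, hval,
    show (2 : ZMod 3).val = 2 from rfl]
  have hsq : ω ^ 2 = ω + 1 := by
    linear_combination hω - (ω + 1) * algebra_two_eq_zero (Λ := Λ)
  rw [hsq, add_smul, add_smul, add_mul, one_mul, smul_add, mul_add, mul_smul_comm, mul_smul_comm]
  abel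

omit [CharP R 2] [Algebra (ZMod 2) R] in
include hru hW in
/-- An element `p + q W` of order dividing `3` lying over `ω` is a root of `X ^ 2 + X + 1`. -/
private theorem sq_add_add_one_eq_zero [Algebra (ZMod 2) Λ] [Nontrivial Λ]
    (hω : ω * ω + ω + 1 = 0) (hπ : ∀ x : R, red x = 0 → IsNilpotent (π x)) {p q : R} {X : M2 R}
    (hX : X = p • (1 : M2 R) + q • W) (hX3 : X * X * X = 1) (hμ : π p + π q * ω = ω) :
    X * X + X + 1 = 0 := by
  -- the residual image is not the identity
  have hqr : ¬ (red (p - 1) = 0 ∧ red q = 0) := by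
    rintro ⟨hp0, hq0⟩
    have hn : IsNilpotent (ω - 1) := by
      rw [show ω - 1 = π (p - 1) + π q * ω by
        rw [map_sub, map_one]; linear_combination -hμ]
      exact (Commute.all _ _).isNilpotent_add (hπ _ hp0)
        ((Commute.all _ _).isNilpotent_mul_right (hπ _ hq0))
    refine hn.not_isUnit (IsUnit.of_mul_eq_one ω ?_)
    linear_combination hω - (ω + 1) * algebra_two_eq_zero (Λ := Λ)
  have hdet : IsUnit (X - 1).det := by
    refine isUnit_iff_exists_inv.mpr (isUnit_iff_exists_inv.mp (hru _ ?_))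
    have e : ((X - 1).map red) = red (p - 1) • (1 : M2 (ZMod 2)) + red q • w₀ := by
      have hW' : ∀ i j, red (W i j) = w₀ i j := fun i j => congrFun (congrFun hW i) j
      rw [hX]
      ext i j
      fin_cases i <;> fin_cases j <;>
        simp [hW', map_sub, map_add, map_mul] <;> ring
    rw [RingHom.map_det, RingHom.mapMatrix_apply, e]
    revert hqr
    generalize red (p - 1) = x
    generalize red q = y
    revert x y
    decide
  have : (X - 1) * (X * X + X + 1) = 0 := by
    rw [show (X - 1) * (X * X + X + 1) = X * X * X - 1 by noncomm_ring, hX3, sub_self]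
  have := congrArg ((X - 1)⁻¹ * ·) this
  simpa [Matrix.nonsing_inv_mul _ hdet, ← mul_assoc] using this

include hru hW in
/-- A matrix of determinant `1` commuting with `W`, of trace residually `1` and going to
`ω x + ω ^ 2 y` with `x y = 1`, goes to `ω x` or to `ω ^ 2 y`. -/
private theorem coordVal_cases [Algebra (ZMod 2) Λ] (hrel : W * W + W + 1 = 0)
    (hω : ω * ω + ω + 1 = 0) (hπ : ∀ x : R, red x = 0 → IsNilpotent (π x)) {M : M2 R}
    (hdet : M.det = 1) (hM : M * W = W * M) (htr : red M.trace = 1) {x y : Λ} (hxy : x * y = 1)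
    (hx : IsNilpotent (x - 1)) (hy : IsNilpotent (y - 1))
    (hval : π M.trace = ω * x + ω * ω * y) :
    coordVal π ω hru hW ⟨M, hM⟩ = ω * x ∨ coordVal π ω hru hW ⟨M, hM⟩ = ω * ω * y := by
  have hω3 : ω * ω * ω = 1 := by linear_combination (ω - 1) * hω
  obtain ⟨a, b, hab⟩ := exists_of_commute hru hW hM
  have hb : M.trace = b := by rw [hab, trace_coords hru hW hrel]
  have hch := sq_sub_trace_smul hdet
  rw [hb, hab] at hch
  have hWW : W * W = -W - 1 := by linear_combination (norm := abel) hrel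
  have e1 : (a * a - b * b - b * a + 1) • (1 : M2 R) +
      (a * b + b * a - b * b - b * b) • W = (0 : R) • (1 : M2 R) + (0 : R) • W := by
    rw [zero_smul, zero_smul, add_zero, ← hch]
    simp only [add_mul, mul_add, smul_mul_assoc, mul_smul_comm, one_mul, mul_one, hWW,
      smul_sub, smul_neg, smul_smul, sub_smul, add_smul, one_smul, smul_add]
    abel
  obtain ⟨e2, e3⟩ := coords_unique hru hW e1
  have e2' := congrArg π e2
  have e3' := congrArg π e3
  simp only [map_add, map_sub, map_mul, map_one, map_zero] at e2' e3'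
  set m : Λ := coordVal π ω hru hW ⟨M, hM⟩
  have hmv : m = π a + π b * ω := coordVal_eq π ω hru hW _ hab
  have hmu : m * m - π b * m + 1 = 0 := by
    rw [hmv]; linear_combination e2' + ω * e3' + (π b * π b) * hω
  rw [← hb, hval] at hmu
  have hprod : (m - ω * x) * (m - ω * ω * y) = 0 := by
    linear_combination hmu + ω * ω * ω * hxy + hω3
  obtain ⟨a₀, ha₀⟩ : ∃ a₀ : ZMod 2, red a = a₀ := ⟨_, rfl⟩
  have hnil : IsNilpotent (m - (algebraMap (ZMod 2) Λ a₀ + ω)) := by
    rw [hmv, show π a + π b * ω - (algebraMap (ZMod 2) Λ a₀ + ω) =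
      π (a - algebraMap (ZMod 2) R a₀) + π (b - 1) * ω by
        rw [map_sub, map_sub, map_one, ← RingHom.comp_apply,
          RingHom.ext_zmod (π.comp (algebraMap (ZMod 2) R)) (algebraMap (ZMod 2) Λ)]
        ring]
    refine (Commute.all _ _).isNilpotent_add (hπ _ ?_)
      ((Commute.all _ _).isNilpotent_mul_right (hπ _ ?_))
    · rw [map_sub, ha₀, red_algebraMap, sub_self]
    · rw [map_sub, map_one, ← hb, htr, sub_self]
  exact root_cases hω hx hy hprod hnil

/-! ## The linear extension of the values -/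

omit [CharP R 2] in
include hru hW in
/-- The linear extension of the values kills a scalar combination killed by `π`. -/
private theorem sum_smul_eq_zero [Algebra (ZMod 2) Λ] {Y : Type*} [Fintype Y] (v : Y → ZMod 2)
    (M : Y → M2 R) (u : Y → Λ)
    (huM : ∀ y, ∃ p q : R, M y = p • 1 + q • W ∧ u y = π p + π q * ω) {a : R} (ha : π a = 0)
    (hv : a • (1 : M2 R) = ∑ y, v y • M y) : ∑ y, v y • u y = 0 := by
  choose p q hpq hu using huM
  have e : (∑ y, v y • p y) • (1 : M2 R) + (∑ y, v y • q y) • W = a • (1 : M2 R) + (0 : R) • W := by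
    rw [zero_smul, add_zero, hv, Finset.sum_smul, Finset.sum_smul, ← Finset.sum_add_distrib]
    refine Finset.sum_congr rfl fun y _ => ?_
    rw [hpq y, smul_add, smul_assoc, smul_assoc]
  obtain ⟨e1, e2⟩ := coords_unique hru hW e
  have hlin : ∀ (c : ZMod 2) (x : R), π (c • x) = c • π x := fun c x => by
    rw [Algebra.smul_def, Algebra.smul_def, map_mul, ← RingHom.comp_apply,
      RingHom.ext_zmod (π.comp (algebraMap (ZMod 2) R)) (algebraMap (ZMod 2) Λ)]
  calc ∑ y, v y • u y = π (∑ y, v y • p y) + π (∑ y, v y • q y) * ω := by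
        simp only [map_sum, Finset.sum_mul, ← Finset.sum_add_distrib, hlin, hu, smul_add,
          smul_mul_assoc]
    _ = 0 := by rw [e1, e2, ha, map_zero, zero_mul, add_zero]

include hru hW in
/-- Over a root of `X ^ 2 + X + 1`, a combination of the values of a homomorphism on `μ₃ × C`
vanishes when its two layers do. -/
private theorem sum_smul_hom_eq_zero [Algebra (ZMod 2) Λ] [Nontrivial Λ] (hω : ω * ω + ω + 1 = 0)
    (hπ : ∀ x : R, red x = 0 → IsNilpotent (π x)) {C : Type*} [CommGroup C] [Fintype C]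
    (F : Multiplicative (ZMod 3) × C →* M2 R) {p q : R}
    (hF : F (Multiplicative.ofAdd 1, 1) = p • (1 : M2 R) + q • W) (hval : π p + π q * ω = ω)
    {v : Multiplicative (ZMod 3) × C → ZMod 2}
    (h1 : ∀ c, v (1, c) + v (Multiplicative.ofAdd 2, c) = 0)
    (h2 : ∀ c, v (Multiplicative.ofAdd 1, c) + v (Multiplicative.ofAdd 2, c) = 0) :
    ∑ y, v y • F y = 0 := by
  set yω : Multiplicative (ZMod 3) × C := (Multiplicative.ofAdd 1, 1) with hyω
  set X : M2 R := F yω with hX
  have hX3 : X * X * X = 1 := by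
    rw [hX, ← map_mul, ← map_mul, show yω * yω * yω = 1 by
      rw [hyω]; exact Prod.ext (by simp; decide) (by simp), map_one]
  have hrel' : X * X + X + 1 = 0 := sq_add_add_one_eq_zero π ω hru hW hω hπ hF hX3 hval
  have hsq2 : ∀ c, F (Multiplicative.ofAdd 2, c) =
      F (Multiplicative.ofAdd 1, c) + F (1, c) := fun c => by
    have e1 : ((Multiplicative.ofAdd 2, c) : Multiplicative (ZMod 3) × C) = yω * yω * (1, c) := by
      rw [hyω]; exact Prod.ext (by simp; rfl) (by simp)
    have e2 : ((Multiplicative.ofAdd 1, c) : Multiplicative (ZMod 3) × C) = yω * (1, c) := by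
      rw [hyω]; exact Prod.ext (by simp) (by simp)
    rw [e1, e2, map_mul, map_mul, map_mul]
    show X * X * _ = X * _ + _
    have hh : X * X = X + 1 := by
      have h2 := two_smul_eq_zero' (X + 1)
      linear_combination (norm := abel) hrel' - h2
    rw [hh, add_mul, one_mul]
  have hzero : ∑ y, v y • F y = 0 := by
    rw [sum_layers]
    refine Finset.sum_eq_zero fun c _ => ?_
    rw [hsq2 c, smul_add,
      show ∀ x y z w : M2 R, x + (y + (z + w)) = (x + w) + (y + z) from fun x y z w => by abel,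
      ← add_smul, ← add_smul]
    rw [show v (1, c) + v (Multiplicative.ofAdd 2, c) = 0 from h1 c,
      show v (Multiplicative.ofAdd 1, c) + v (Multiplicative.ofAdd 2, c) = 0 from h2 c,
      zero_smul, zero_smul, add_zero]
  exact hzero

variable {G : Type*} [Group G] (ρ : G →* (M2 R)ˣ) (η : G → ZMod 2)

omit [CharP R 2] in
/-- When the traces generate the ring, every scalar matrix lies in the span of the image of the
kernel of the sign. -/
private theorem smul_one_mem_span (H : Subgroup G) (hH : ∀ g, η g = 0 → g ∈ H)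
    (hconj : ∀ g, (ρ g : M2 R) * W * (↑(ρ g)⁻¹ : M2 R) = W + algebraMap (ZMod 2) R (η g) • 1)
    (hdet : ∀ g, (ρ g : M2 R).det = 1)
    (hgen : Algebra.adjoin (ZMod 2) (Set.range fun g => (ρ g : M2 R).trace) = ⊤) (a : R) :
    a • (1 : M2 R) ∈ Submodule.span (ZMod 2) (Set.range fun g : H => (ρ g : M2 R)) := by
  let S : Submodule (ZMod 2) (M2 R) := Submodule.span (ZMod 2) (Set.range fun g : H => (ρ g : M2 R))
  have hmul : ∀ M ∈ S, ∀ M' ∈ S, M * M' ∈ S := fun M hM M' hM' =>
    mul_mem_span_range ((Units.coeHom _).comp (ρ.comp H.subtype)) hM hM'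
  have hone : (1 : M2 R) ∈ S := Submodule.subset_span ⟨1, by simp⟩
  let A : Subalgebra (ZMod 2) R :=
    { carrier := {a | a • (1 : M2 R) ∈ S}
      mul_mem' := fun {a b} ha hb => by
        show (a * b) • (1 : M2 R) ∈ S
        rw [show (a * b) • (1 : M2 R) = a • 1 * b • 1 by
          rw [smul_mul_assoc, one_mul, smul_smul]]
        exact hmul _ ha _ hb
      add_mem' := fun {a b} ha hb => by
        show (a + b) • (1 : M2 R) ∈ S
        rw [add_smul]; exact add_mem ha hb
      algebraMap_mem' := fun r => by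
        show algebraMap (ZMod 2) R r • (1 : M2 R) ∈ S
        rw [algebraMap_smul]; exact S.smul_mem r hone }
  have hA : A = ⊤ := by
    rw [eq_top_iff, ← hgen, Algebra.adjoin_le_iff]
    rintro _ ⟨g, rfl⟩
    show (ρ g : M2 R).trace • (1 : M2 R) ∈ S
    rcases (show η g = 0 ∨ η g = 1 by generalize η g = x; revert x; decide) with h | h
    · have hch := sq_sub_trace_smul (hdet g)
      have e : (ρ g : M2 R).trace • (1 : M2 R) = (ρ g : M2 R) + (↑(ρ g)⁻¹ : M2 R) := by
        calc (ρ g : M2 R).trace • (1 : M2 R)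
            = ((ρ g : M2 R).trace • (ρ g : M2 R)) * (↑(ρ g)⁻¹ : M2 R) := by
              rw [smul_mul_assoc, Units.mul_inv]
          _ = ((ρ g : M2 R) * (ρ g : M2 R) + 1) * (↑(ρ g)⁻¹ : M2 R) := by
              congr 1; linear_combination (norm := abel) -hch
          _ = _ := by rw [add_mul, one_mul, mul_assoc, Units.mul_inv, mul_one]
      rw [e]
      exact add_mem (Submodule.subset_span ⟨⟨g, hH g h⟩, rfl⟩)
        (Submodule.subset_span ⟨(⟨g, hH g h⟩ : H)⁻¹, by simp⟩)
    · have := trace_eq_zero_of_sign ρ (fun g => algebraMap (ZMod 2) R (η g)) g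
        (by rw [h, map_one]) (hconj g)
      rw [this, zero_smul]
      exact zero_mem _
  exact show a ∈ A by rw [hA]; trivial

/-! ## The kernel of the sign -/

/-- The kernel of the sign. -/
private def signKer (hη : ∀ g g', η (g * g') = η g + η g') : Subgroup G where
  carrier := {g | η g = 0}
  one_mem' := by
    show η 1 = 0
    have := hη 1 1
    rwa [mul_one, left_eq_add] at this
  mul_mem' {a b} ha hb := by
    show η (a * b) = 0
    rw [hη, ha, hb, add_zero]
  inv_mem' {a} ha := by
    show η a⁻¹ = 0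
    have h1 : η 1 = 0 := by
      have := hη 1 1
      rwa [mul_one, left_eq_add] at this
    have := hη a a⁻¹
    rwa [mul_inv_cancel, h1, show η a = 0 from ha, zero_add, eq_comm] at this

omit [CharP R 2] in
/-- Elements of trivial sign commute with `W`. -/
private theorem commute_of_sign_eq_zero
    (hconj : ∀ g, (ρ g : M2 R) * W * (↑(ρ g)⁻¹ : M2 R) = W + algebraMap (ZMod 2) R (η g) • 1)
    {g : G} (hg : η g = 0) : (ρ g : M2 R) * W = W * (ρ g : M2 R) := by
  have := hconj g
  rw [hg, map_zero, zero_smul, add_zero] at this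
  calc (ρ g : M2 R) * W = (ρ g : M2 R) * W * ((↑(ρ g)⁻¹ : M2 R) * (ρ g : M2 R)) := by
        rw [Units.inv_mul, mul_one]
    _ = _ := by rw [← mul_assoc, this]

omit [CharP R 2] [Algebra (ZMod 2) R] in
/-- The values `a + b ω` on a subgroup commuting with `W`, as units. -/
private noncomputable def valHom (hrel : W * W + W + 1 = 0) (hω : ω * ω + ω + 1 = 0)
    (H : Subgroup G)
    (hcomm : ∀ g : H, (ρ g : M2 R) * W = W * (ρ g : M2 R)) : H →* Λˣ :=
  MonoidHom.toHomUnits
    { toFun := fun g => coordVal π ω hru hW ⟨_, hcomm g⟩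
      map_one' := by
        rw [coordVal_eq π ω hru hW _ (a := 1) (b := 0) (by simp)]
        simp
      map_mul' := fun g g' => by
        have h : (ρ g : M2 R) * (ρ g' : M2 R) * W = W * ((ρ g : M2 R) * (ρ g' : M2 R)) := by
          have := hcomm (g * g')
          rwa [Subgroup.coe_mul, map_mul, Units.val_mul] at this
        rw [← coordVal_mul π ω hru hW hrel hω ⟨_, hcomm g⟩ ⟨_, hcomm g'⟩ h]
        congr 1
        exact Subtype.ext (by simp) }

/-- A homomorphism taking the value `ω e c` or `ω ^ 2 e c⁻¹` reaches the unit `ω e c`. -/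
private theorem mem_range_of_val_cases {H C : Type*} [Group H] [CommGroup C] (μ : H →* Λˣ)
    (e : C →* Λˣ) {ω : Λ} (ωu : Λˣ) (hωu : ωu ^ 3 = 1) (hωv : (ωu : Λ) = ω) {g : H} {c : C}
    (h : (μ g : Λ) = ω * e c ∨ (μ g : Λ) = ω * ω * e c⁻¹) :
    unitHom e ωu hωu (Multiplicative.ofAdd 1, c) ∈ μ.range := by
  have hu : unitHom e ωu hωu (Multiplicative.ofAdd 1, c) = ωu * e c := by
    simp [unitHom_apply, ZMod.val_one]
  rw [hu]
  rcases h with h | h
  · exact ⟨g, Units.ext (by rw [h, Units.val_mul, hωv])⟩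
  · refine ⟨g⁻¹, ?_⟩
    have hg : μ g = ωu * ωu * e c⁻¹ := Units.ext (by rw [h, Units.val_mul, Units.val_mul, hωv])
    rw [map_inv, hg, map_inv e, inv_eq_iff_mul_eq_one]
    calc ωu * ωu * (e c)⁻¹ * (ωu * e c) = ωu * ωu * ωu * ((e c)⁻¹ * e c) := by ac_rfl
      _ = 1 := by rw [inv_mul_cancel, mul_one, ← hωu, pow_succ, sq]

/-- If `μ` factors through `f`, reaches the values of an injective `u`, and `f` has no more values
than `u`, then the values of `f` are those of a homomorphism lying over `u`. -/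
private theorem exists_hom_of_card_le {H M N Y : Type*} [Group H] [Group M] [Group N] [Group Y]
    [Fintype Y] (f : H →* M) (μ : H →* N) (u : Y →* N) (hu : Function.Injective u)
    (hfact : ∀ g g', f g = f g' → μ g = μ g') (hle : ∀ y, u y ∈ μ.range)
    (hfin : (Set.range f).Finite) (hcard : Nat.card (Set.range f) ≤ Nat.card Y) :
    ∃ F : Y →* M, (∀ y, ∃ g, f g = F y ∧ μ g = u y) ∧ ∀ g, ∃ y, f g = F y := by
  choose sec hsec using hle
  let Φ : Y → Set.range f := fun y => ⟨f (sec y), _, rfl⟩
  have hΦ : Function.Injective Φ := fun y y' h => hu (by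
    rw [← hsec y, ← hsec y']
    exact hfact _ _ (congrArg Subtype.val h))
  have := hfin.to_subtype
  have hbij : Function.Bijective Φ := hΦ.bijective_of_nat_card_le hcard
  have hsurj : ∀ g, ∃ y, f g = f (sec y) := fun g =>
    let ⟨y, hy⟩ := hbij.2 ⟨f g, g, rfl⟩
    ⟨y, (congrArg Subtype.val hy).symm⟩
  have hback : ∀ g g', μ g = μ g' → f g = f g' := fun g g' h => by
    obtain ⟨y, hy⟩ := hsurj g
    obtain ⟨y', hy'⟩ := hsurj g'
    have hyy : y = y' := hu (by rw [← hsec y, ← hsec y', ← hfact _ _ hy, ← hfact _ _ hy', h])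
    rw [hy, hy', hyy]
  refine ⟨MonoidHom.mk' (fun y => f (sec y)) fun y y' => ?_, fun y => ⟨sec y, rfl, hsec y⟩, hsurj⟩
  rw [← map_mul]
  exact hback _ _ (by rw [hsec, map_mul u, map_mul μ, hsec, hsec])

/-! ## Recovering the ring -/

include hru hW in
/-- **Traces generate nothing more than the group ring.** -/
theorem injective_of_dihedral [Algebra (ZMod 2) Λ] (hrel : W * W + W + 1 = 0)
    (hη : ∀ g g', η (g * g') = η g + η g')
    (hconj : ∀ g, (ρ g : M2 R) * W * (↑(ρ g)⁻¹ : M2 R) = W + algebraMap (ZMod 2) R (η g) • 1)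
    (hdet : ∀ g, (ρ g : M2 R).det = 1)
    (hgen : Algebra.adjoin (ZMod 2) (Set.range fun g => (ρ g : M2 R).trace) = ⊤)
    (hω : ω * ω + ω + 1 = 0) (hπ : ∀ x : R, red x = 0 → IsNilpotent (π x))
    {C : Type*} [CommGroup C] [Fintype C] {k : ℕ} (hC : Fintype.card C = 2 ^ k) (e : C →* Λˣ)
    (he : ∀ c, IsNilpotent ((e c : Λ) - 1))
    (hind : ∀ a b : C → ZMod 2,
      ∑ c, a c • (e c : Λ) + ω * ∑ c, b c • (e c : Λ) = 0 → a = 0 ∧ b = 0)
    (hfin : ((fun g => ρ g) '' {g | η g = 0}).Finite)
    (hbound : Nat.card ((fun g => ρ g) '' {g | η g = 0}) ≤ 3 * Fintype.card C)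
    (s : Set C) (hs : s.Nonempty) (hfrob : Subgroup.closure s = ⊤)
    (hmem : ∀ c ∈ s, ∃ g, η g = 0 ∧ red (ρ g : M2 R).trace = 1 ∧
      π (ρ g : M2 R).trace = ω * (e c : Λ) + ω * ω * (e c⁻¹ : Λ)) :
    Function.Injective π := by
  classical
  let H : Subgroup G := signKer η hη
  have hcomm : ∀ g : H, (ρ g : M2 R) * W = W * (ρ g : M2 R) := fun g =>
    commute_of_sign_eq_zero ρ η hconj g.2
  let μ : H →* Λˣ := valHom π ω hru hW ρ hrel hω H hcomm
  let f : H →* (M2 R)ˣ := ρ.comp H.subtype
  have hω3 : ω * ω * ω = 1 := by linear_combination (ω - 1) * hω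
  let ωu : Λˣ := ⟨ω, ω * ω, by rw [← mul_assoc]; exact hω3, hω3⟩
  have hωu : ωu ^ 3 = 1 := Units.ext (by simpa [pow_succ, ωu] using hω3)
  let u := unitHom e ωu hωu
  have hinj : Function.Injective u := unitHom_injective e ωu hωu hω hind
  have hee : ∀ c, (e c : Λ) * (e c⁻¹ : Λ) = 1 := fun c => by
    rw [← Units.val_mul, ← map_mul, mul_inv_cancel, map_one, Units.val_one]
  -- every unit `ω ^ i e c` is a value
  have hle : ∀ y, u y ∈ μ.range := by
    have := eq_top_of_mem (by rw [Nat.card_eq_fintype_card, hC]) (μ.range.comap u) s hs hfrob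
      fun c hc => by
        obtain ⟨g, hg0, hg1, hgc⟩ := hmem c hc
        exact mem_range_of_val_cases μ e ωu hωu rfl (g := (⟨g, hg0⟩ : H))
          (coordVal_cases π ω hru hW hrel hω hπ (hdet g) (hcomm ⟨g, hg0⟩) hg1 (hee c) (he c)
            (he c⁻¹) hgc)
    exact fun y => show y ∈ μ.range.comap u by rw [this]; trivial
  -- counting: the image of `H` is a copy of `μ₃ × C`
  have himage : (fun g => ρ g) '' {g | η g = 0} = Set.range f := Set.image_eq_range _ _
  rw [himage] at hfin hbound
  obtain ⟨F, hF, hsurj⟩ := exists_hom_of_card_le f μ u hinj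
    (fun g g' h => Units.ext (congrArg (coordVal π ω hru hW)
      (Subtype.ext (congrArg Units.val h)))) hle hfin (by
      rw [Nat.card_prod, Nat.card_eq_fintype_card (α := C)]
      simpa [Nat.card_zmod] using hbound)
  have hval : ∀ y, ∃ p q : R, (F y : M2 R) = p • 1 + q • W ∧ (u y : Λ) = π p + π q * ω :=
      fun y => by
    obtain ⟨g, hg, hgu⟩ := hF y
    obtain ⟨p, q, hpq⟩ := exists_of_commute hru hW (hcomm g)
    exact ⟨p, q, hg ▸ hpq, hgu ▸ coordVal_eq π ω hru hW _ hpq⟩
  rw [injective_iff_map_eq_zero]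
  intro a ha
  have hspan : a • (1 : M2 R) ∈ Submodule.span (ZMod 2) (Set.range fun y => (F y : M2 R)) := by
    refine Submodule.span_le.mpr ?_ (smul_one_mem_span ρ η H (fun _ h => h) hconj hdet hgen a)
    rintro _ ⟨g, rfl⟩
    obtain ⟨y, hy⟩ := hsurj g
    exact Submodule.subset_span ⟨y, congrArg Units.val hy.symm⟩
  obtain ⟨v, hv⟩ := (Submodule.mem_span_range_iff_exists_fun _).mp hspan
  -- apply the linear extension of `μ`
  have key : ∑ y, v y • (u y : Λ) = 0 :=
    sum_smul_eq_zero π ω hru hW v (fun y => (F y : M2 R)) (fun y => (u y : Λ)) hval ha hv.symm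
  -- independence
  obtain ⟨h1, h2⟩ := hind _ _ ((sum_smul_unitHom hω e ωu hωu rfl v).symm.trans key)
  -- the element above `ω` is a root of `X ^ 2 + X + 1`
  obtain ⟨p, q, hpq, hμX⟩ := hval (Multiplicative.ofAdd 1, 1)
  rw [unitHom_apply, toAdd_ofAdd, ZMod.val_one, pow_one, map_one, mul_one] at hμX
  have : Nontrivial Λ := nontrivial_of_indep e hind
  have hzero : a • (1 : M2 R) = 0 :=
    hv.symm.trans (sum_smul_hom_eq_zero π ω hru hW hω hπ ((Units.coeHom _).comp F) hpq hμX.symm
      (congrFun h1) (congrFun h2))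
  simpa using congrFun (congrFun hzero 0) 0

end Fermat.Agent.LT.Deform
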