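import Fermat.Agent.LT.Deform.Model
import Fermat.Agent.LT.Deform.Span

/-!
# Every congruent system factors through the localised Hecke ring

The ring generated by the pairs (value at the points of the maximal ideal, prescribed value) carries
a representation. Given `Input`, its reduction modulo `2` is dihedral: as `Input.selmer` holds, the
residual element of order three lifts to a matrix normalised by the image. So that reduction maps
injectively to the target of `π` (`exists_hom`: a value at the points killed by `π` is twice a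
value), and the prescribed values define a homomorphism.
-/

set_option autoImplicit false

noncomputable section

open Matrix MvPolynomial

attribute [local instance 2000] Semiring.toModule Module.toDistribMulAction

namespace Fermat.Agent.LT.Deform

universe u

/-! ## The ring of pairs and the input -/

/-- In a ring whose units are reflected by `red`, a monic quadratic `X ^ 2 - t X + d` with nilpotent
`d` and residual roots `0` and `1` has a root reducing to `1`. -/
theorem exists_root_of_nilpotent {B : Type*} [CommRing B] (red : B →+* ZMod 2)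
    (hru : ReflectsUnits red) (t d : B) (ht : red t = 1) (hd0 : red d = 0) (hd : IsNilpotent d) :
    ∃ α, α ^ 2 - t * α + d = 0 ∧ red α = 1 := by
  obtain ⟨n, hn⟩ := hd
  suffices h : ∀ k, ∃ α, red α = 1 ∧ d ^ k ∣ α ^ 2 - t * α + d by
    obtain ⟨α, hα, h⟩ := h n
    rw [hn] at h
    exact ⟨α, zero_dvd_iff.mp h, hα⟩
  intro k
  induction k with
  | zero => exact ⟨1, map_one red, by simp⟩
  | succ k ih =>
    rcases Nat.eq_zero_or_pos k with rfl | hk
    · refine ⟨t, ht, ?_⟩
      rw [pow_one]
      exact ⟨1, by ring⟩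
    obtain ⟨α, hα, w, hw⟩ := ih
    have hu : red (2 * α - t) = 1 := by rw [map_sub, map_mul, map_ofNat, hα, ht]; decide
    obtain ⟨u, hu⟩ := (hru _ hu).exists_right_inv
    refine ⟨α - u * (d ^ k * w), ?_, u * u * w * w * d ^ (k - 1), ?_⟩
    · rw [map_sub, map_mul, map_mul, map_pow, hd0, zero_pow hk.ne']; simp [hα]
    · obtain ⟨j, rfl⟩ : ∃ j, k = j + 1 := ⟨k - 1, by omega⟩
      rw [Nat.add_sub_cancel]
      linear_combination (norm := ring_nf) hw - (d ^ (j + 1) * w) * hu

variable {T : Type*} [CommRing T] (t : ℕ → T) (P : Set ℕ) (a : ℕ → ℤ) {N : ℕ}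
  {Amb : Type u} [CommRing Amb] (ev : T →+* Amb)

/-- Evaluation at the pairs. -/
def pairEval (N : ℕ) : MvPolynomial P ℤ →+* Amb × ZMod (2 ^ N) :=
  eval₂Hom (Int.castRingHom _) fun l => (ev (t l), (a l : ZMod (2 ^ N)))

theorem pairEval_fst (p : MvPolynomial P ℤ) :
    (pairEval t P a ev N p).1 = ev (aeval (fun l : P => t l) p) := by
  induction p using MvPolynomial.induction_on with
  | C n => simp [pairEval]
  | add p q hp hq => simp [hp, hq]
  | mul_X p l hp =>
    simp only [pairEval, coe_eval₂Hom, map_aeval, algebraMap_int_eq, eval₂_mul, eval₂_X,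
      Prod.fst_mul, map_mul, aeval_X] at hp ⊢
    rw [hp]

theorem pairEval_snd (p : MvPolynomial P ℤ) :
    (pairEval t P a ev N p).2 = ((aeval (fun l : P => a l) p : ℤ) : ZMod (2 ^ N)) := by
  induction p using MvPolynomial.induction_on with
  | C n => simp [pairEval]
  | add p q hp hq => simp [hp, hq]
  | mul_X p l hp =>
    simp only [pairEval, coe_eval₂Hom, aeval_eq_eval, eval₂_mul, eval₂_X, Prod.snd_mul, map_mul,
      eval_X, Int.cast_mul] at hp ⊢
    rw [hp]

/-- An integral combination of the matrices of group elements and of traces of group elements. -/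
def comb {G : Type*} [Group G] {S : Type*} [CommRing S] (ρ : G → M2 S) (c d : G →₀ ℤ) : M2 S :=
  (c.sum fun h n => n • ρ h) + (d.sum fun h n => n • (ρ h).trace) • (1 : M2 S)

theorem map_comb {G : Type*} [Group G] {S S' : Type*} [CommRing S] [CommRing S'] (f : S →+* S')
    {ρ : G → M2 S} {ρ' : G → M2 S'} (h : ∀ g, f.mapMatrix (ρ g) = ρ' g) (c d : G →₀ ℤ) :
    f.mapMatrix (comb ρ c d) = comb ρ' c d := by
  have ht : ∀ g, f (ρ g).trace = (ρ' g).trace := fun g => by
    rw [← h g]; exact AddMonoidHom.map_trace f.toAddMonoidHom _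
  have hs : ∀ x : S, f.mapMatrix (x • (1 : M2 S)) = f x • (1 : M2 S') := fun x => by
    ext i j
    by_cases hij : i = j <;> simp [hij]
  simp only [comb, map_add, map_finsuppSum, map_zsmul, h, hs, ht]

theorem map_comb_algHom {G : Type*} [Group G] {S : Type*} [CommRing S] (Ψ : M2 S →ₐ[S] M2 S)
    {ρ ρ' : G → M2 S} (h : ∀ g, Ψ (ρ g) = ρ' g) (ht : ∀ g, (ρ g).trace = (ρ' g).trace)
    (c d : G →₀ ℤ) : Ψ (comb ρ c d) = comb ρ' c d := by
  simp only [comb, map_add, map_finsuppSum, map_zsmul, map_smul, map_one, h, ht]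

/-- What the deformation argument consumes: a ring `T` generated by the `t l`, `l ∈ P`, its values
`ev` at the points of the maximal ideal cut out by `π`, the prescribed values `a` modulo `2 ^ N`,
representations `ρA` and `ρN` with these two systems of traces and the same residual `r`, whose
sign is `η`, and at every `j` a decomposition group `D j`, inertia `I j` and an element `τ j`.
The target `Λ` of `π` contains a cube root of unity `ω` and, through `e`, a group `C` of order
`2 ^ k` that is independent over `𝔽₂(ω)`. -/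
structure Input {G : Type*} [Group G] (ρA : G →* M2 Amb) (ρN : G →* M2 (ZMod (2 ^ N)))
    (r : G →* (M2 (ZMod 2))ˣ) (η : G → ZMod 2) {J : Type*} (D I : J → Set G) (τ : J → G)
    {Λ : Type*} [CommRing Λ] [Algebra (ZMod 2) Λ] (π : T →+* Λ) (ω : Λ)
    {C : Type*} [CommGroup C] [Fintype C] (e : C →* Λˣ) (k : ℕ) : Prop where
  /-- The modulus is not `1`. -/
  pos : 0 < N
  /-- The operators generate the ring. -/
  gen : Algebra.adjoin ℤ (t '' P) = ⊤
  /-- There are finitely many values at the points. -/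
  finite : (Set.range ev).Finite
  /-- The value at an element outside the maximal ideal is a unit. -/
  unit : ∀ x : T, ¬ IsNilpotent (π x) → IsUnit (ev x)
  /-- A value killed by `2 ^ i`, `i ≤ N`, dies in `Λ`. -/
  ker : ∀ i ≤ N, ∀ x : T, (2 : Amb) ^ i * ev x = 0 → π x = 0
  /-- The prescribed values are congruent to the operators in `Λ`. -/
  congr : ∀ l ∈ P, IsNilpotent (π (t l) - (a l : Λ))
  /-- Every trace is one of the values. -/
  trace : ∀ g, ∃ l ∈ P, (ρA g).trace = ev (t l) ∧ (ρN g).trace = (a l : ZMod (2 ^ N))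
  /-- Every value is a trace. -/
  frob : ∀ l ∈ P, ∃ g, (ρA g).trace = ev (t l) ∧ (ρN g).trace = (a l : ZMod (2 ^ N))
  /-- The two determinants are one odd integer. -/
  det : ∀ g, ∃ u : ℤ, Odd u ∧ (ρA g).det = (u : Amb) ∧ (ρN g).det = (u : ZMod (2 ^ N))
  /-- The prescribed representation reduces to `r`. -/
  residual : ∀ g, (ρN g).map (ZMod.castHom (dvd_pow_self 2 pos.ne') (ZMod 2)) = (r g : M2 (ZMod 2))
  /-- `r` is absolutely irreducible. -/
  span : Submodule.span (ZMod 2) (Set.range fun g => (r g : M2 (ZMod 2))) = ⊤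
  /-- The sign is additive. -/
  sign_add : ∀ g h, η (g * h) = η g + η h
  /-- `r` fixes or inverts the element of order three according to the sign. -/
  sign : ∀ g, conjAct r g w₀ = w₀ + η g • 1
  /-- The trace at `τ j` is one even integer. -/
  trace_tau : ∀ j, ∃ e : ℤ, Even e ∧ (ρA (τ j)).trace = (e : Amb) ∧
    (ρN (τ j)).trace = (e : ZMod (2 ^ N))
  /-- Modulo `2` the decomposition group at `j` commutes with `τ j`. -/
  comm : ∀ j, ∀ g ∈ D j, ∃ c d : G →₀ ℤ,
    ρA g * (ρA (τ j) - 1) - (ρA (τ j) - 1) * ρA g = (2 : ℤ) • comb ρA c d ∧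
    ρN g * (ρN (τ j) - 1) - (ρN (τ j) - 1) * ρN g = (2 : ℤ) • comb ρN c d
  /-- Modulo `2` inertia at `j` acts trivially on the image of `τ j - 1`. -/
  inertia : ∀ j, ∀ h ∈ I j, ∃ c d : G →₀ ℤ,
    (ρA h - 1) * (ρA (τ j) - 1) = (2 : ℤ) • comb ρA c d ∧
    (ρN h - 1) * (ρN (τ j) - 1) = (2 : ℤ) • comb ρN c d
  /-- No `τ j` is residually trivial. -/
  moved : ∀ j, r (τ j) ≠ 1
  /-- The Selmer group of the lines of the `τ j` vanishes. -/
  selmer : ∀ Z : Set G, (∀ h, ρA h = 1 → ρN h = 1 → h ∈ Z) →
    SelmerZero r Z D fun j => (r (τ j) : M2 (ZMod 2)) + 1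
  /-- In a finite quotient of `G` through the two representations in which the kernel of the sign
  is abelian and unramified at every `j`, this kernel has at most `3 |C|` elements. -/
  bound : ∀ (X : Type u) (_ : Group X) (_ : Finite X) (f : G →* X),
    (∀ h, ρA h = 1 → ρN h = 1 → f h = 1) → (∀ j, ∀ h ∈ I j, η h = 0 → f h = 1) →
    (∀ g h, η g = 0 → η h = 0 → Commute (f g) (f h)) →
    Nat.card (f '' {g | η g = 0}) ≤ 3 * Fintype.card C
  /-- `ω` is a primitive cube root of unity. -/
  omega : ω * ω + ω + 1 = 0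
  /-- `C` has order `2 ^ k`. -/
  card : Fintype.card C = 2 ^ k
  /-- `C` is unipotent in `Λ`. -/
  unipotent : ∀ c, IsNilpotent ((e c : Λ) - 1)
  /-- `C` is independent over `𝔽₂(ω)`. -/
  indep : ∀ a b : C → ZMod 2,
    ∑ c, a c • (e c : Λ) + ω * ∑ c, b c • (e c : Λ) = 0 → a = 0 ∧ b = 0
  /-- Some operator has the value `ω c + ω² c⁻¹` of a dihedral trace. -/
  nonempty : {c | ∃ l ∈ P, π (t l) = ω * (e c : Λ) + ω * ω * (e c⁻¹ : Λ)}.Nonempty
  /-- These `c` generate `C`. -/
  closure : Subgroup.closure {c | ∃ l ∈ P, π (t l) = ω * (e c : Λ) + ω * ω * (e c⁻¹ : Λ)} = ⊤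

variable {t P a ev} {G : Type*} [Group G] {ρA : G →* M2 Amb} {ρN : G →* M2 (ZMod (2 ^ N))}
  {r : G →* (M2 (ZMod 2))ˣ} {η : G → ZMod 2} {J : Type*} {D I : J → Set G} {τ : J → G}
  {Λ : Type*} [CommRing Λ] [Algebra (ZMod 2) Λ] {π : T →+* Λ} {ω : Λ}
  {C : Type*} [CommGroup C] [Fintype C] {e : C →* Λˣ} {k : ℕ}

/-! ## Pairs, units and nilpotents -/

omit [CommRing T] in
/-- Odd integers are units modulo `2 ^ N`. -/
private theorem isUnit_intCast_of_odd {n : ℤ} (hn : Odd n) : IsUnit (n : ZMod (2 ^ N)) := by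
  obtain ⟨w, rfl⟩ := hn
  have h2 : IsNilpotent (2 * (w : ZMod (2 ^ N))) := ⟨N, by
    rw [mul_pow, show (2 : ZMod (2 ^ N)) ^ N = ((2 ^ N : ℕ) : ZMod (2 ^ N)) by push_cast; rfl,
      ZMod.natCast_self, zero_mul]⟩
  push_cast
  rw [add_comm]
  exact h2.isUnit_add_left_of_commute isUnit_one (Commute.all _ _)

/-- The ring generated by the pairs is finite. -/
private theorem finite_pairEval_range (hfin : (Set.range ev).Finite) :
    Finite (pairEval t P a ev N).range := by
  have : Finite (Set.range ev) := hfin.to_subtype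
  refine Finite.of_injective (fun y : (pairEval t P a ev N).range =>
    ((⟨(y : Amb × ZMod (2 ^ N)).1, ?_⟩ : Set.range ev), (y : Amb × ZMod (2 ^ N)).2))
    fun y y' e => Subtype.ext (Prod.ext ?_ ?_)
  · obtain ⟨p, hp⟩ := y.2
    exact ⟨aeval (fun l : P => t l) p, by rw [← hp, pairEval_fst]⟩
  · exact congrArg Subtype.val (Prod.ext_iff.mp e).1
  · exact (Prod.ext_iff.mp e).2

/-- An element of a finite subring which is a unit of the ambient ring is a unit there. -/
private theorem isUnit_of_isUnit_coe {S : Type*} [CommRing S] {B : Subring S} [Finite B] {x : B}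
    (hu : IsUnit (x : S)) : IsUnit x := by
  have hinj : Function.Injective fun y : B => x * y := fun y y' e =>
    Subtype.ext (hu.mul_left_cancel (congrArg Subtype.val e))
  obtain ⟨y, hy⟩ := (Finite.injective_iff_surjective.mp hinj) 1
  exact IsUnit.of_mul_eq_one y hy

/-- In a finite ring whose units are reflected by `red`, the kernel of `red` is nilpotent. -/
private theorem isNilpotent_of_red_eq_zero {B : Type*} [CommRing B] [Finite B]
    {red : B →+* ZMod 2} (hru : ReflectsUnits red) {x : B} (hx : red x = 0) : IsNilpotent x := by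
  obtain ⟨i, j, hij, e⟩ := Finite.exists_ne_map_eq_of_infinite fun m : ℕ => x ^ m
  wlog hlt : i < j generalizing i j
  · exact this j i hij.symm e.symm (by omega)
  obtain ⟨d, hd, rfl⟩ : ∃ d, 0 < d ∧ j = i + d := ⟨j - i, by omega, by omega⟩
  have hu : IsUnit (1 - x ^ d) := hru _ (by
    rw [map_sub, map_one, map_pow, hx, zero_pow hd.ne', sub_zero])
  refine ⟨i, hu.mul_left_eq_zero.mp ?_⟩
  rw [mul_sub, mul_one, ← pow_add]
  exact sub_eq_zero.mpr e

omit [Algebra (ZMod 2) Λ] in
/-- The congruences at the generators hold for every polynomial in them. -/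
private theorem isNilpotent_aeval_sub (hc : ∀ l ∈ P, IsNilpotent (π (t l) - (a l : Λ)))
    (p : MvPolynomial P ℤ) :
    IsNilpotent (π (aeval (fun l : P => t l) p) - ((aeval (fun l : P => a l) p : ℤ) : Λ)) := by
  rw [← mem_nilradical, ← Ideal.Quotient.eq]
  have : ((Ideal.Quotient.mk (nilradical Λ)).comp π).comp
      (aeval fun l : P => t l : MvPolynomial P ℤ →ₐ[ℤ] T).toRingHom =
      (Ideal.Quotient.mk (nilradical Λ)).comp
        ((Int.castRingHom Λ).comp (aeval fun l : P => a l :
            MvPolynomial P ℤ →ₐ[ℤ] ℤ).toRingHom) := by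
    refine MvPolynomial.ringHom_ext (fun n => by simp) fun l => ?_
    simp only [AlgHom.toRingHom_eq_coe, RingHom.coe_comp, RingHom.coe_coe, Function.comp_apply,
      aeval_X, coe_aeval_eq_eval, Int.coe_castRingHom, eval_X, map_intCast]
    exact Ideal.Quotient.eq.mpr (mem_nilradical.mpr (hc l l.2))
  exact RingHom.congr_fun this p

omit [Algebra (ZMod 2) Λ] in
/-- `ω u + ω ^ 2 v` is not nilpotent, for unipotent `u` and `v`. -/
private theorem not_isNilpotent_omega_comb [Nontrivial Λ] (hω : ω * ω + ω + 1 = 0) {u v : Λ}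
    (hu : IsNilpotent (u - 1)) (hv : IsNilpotent (v - 1)) :
    ¬ IsNilpotent (ω * u + ω * ω * v) := fun hn => by
  have h1 : IsNilpotent (ω + ω * ω) := by
    have := (Commute.all _ _).isNilpotent_sub hn ((Commute.all _ _).isNilpotent_add
      ((Commute.all ω _).isNilpotent_mul_left hu)
      ((Commute.all (ω * ω) _).isNilpotent_mul_left hv))
    convert this using 1
    ring
  rw [show ω + ω * ω = -1 by linear_combination hω] at h1
  exact h1.not_isUnit isUnit_one.neg

/-- The pair of two representations. -/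
private def pairRep {S : Type*} [CommRing S] (ρ₁ : G →* M2 Amb) (ρ₂ : G →* M2 S) :
    G →* M2 (Amb × S) where
  toFun g := Matrix.of fun i j => (ρ₁ g i j, ρ₂ g i j)
  map_one' := by ext i j <;> fin_cases i <;> fin_cases j <;> simp
  map_mul' g g' := by ext i j <;> simp [Matrix.mul_apply, Fin.sum_univ_two]

/-- A matrix whose image under an injection is twice an image vanishes modulo `2`. -/
private theorem map_eq_zero_of_two_mul {B S Q : Type*} [CommRing B] [CommRing S] [CommRing Q]
    {ι : B →+* S} (hι : Function.Injective ι) (f : B →+* Q) (h2 : (2 : Q) = 0) {X Y : M2 B}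
    (h : ι.mapMatrix X = (2 : ℤ) • ι.mapMatrix Y) : f.mapMatrix X = 0 := by
  have e : X = (2 : ℤ) • Y := by
    refine Matrix.map_injective hι ?_
    rw [← map_zsmul] at h
    exact h
  rw [e]
  ext i j
  simp only [RingHom.mapMatrix_apply, Matrix.map_apply, Matrix.smul_apply, Matrix.zero_apply]
  rw [zsmul_eq_mul, map_mul, map_intCast, Int.cast_ofNat, h2, zero_mul]

/-- A representation fixing `W` up to a sign is commutative on the kernel of the sign. -/
private theorem commute_of_sign_eq_zero {R : Type*} [CommRing R] [Algebra (ZMod 2) R]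
    {red : R →+* ZMod 2} {W : M2 R} (ρ : G →* (M2 R)ˣ) (hru : ReflectsUnits red)
    (hW : W.map red = w₀)
    (hc : ∀ g, (ρ g : M2 R) * W * (↑(ρ g)⁻¹ : M2 R) = W + algebraMap (ZMod 2) R (η g) • 1)
    {g g' : G} (hg : η g = 0) (hg' : η g' = 0) : Commute (ρ g) (ρ g') := by
  obtain ⟨a₁, b₁, e₁⟩ := exists_coords ρ (fun g => algebraMap (ZMod 2) R (η g)) hru hW g
    (by rw [hg, map_zero]) (hc g)
  obtain ⟨a₂, b₂, e₂⟩ := exists_coords ρ (fun g => algebraMap (ZMod 2) R (η g)) hru hW g'
    (by rw [hg', map_zero]) (hc g')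
  refine Units.ext ?_
  rw [Units.val_mul, Units.val_mul, e₁, e₂]
  simp only [add_mul, mul_add, smul_mul_assoc, mul_smul_comm, one_mul, mul_one]
  match_scalars <;> ring

/-- Two matrices over pairs agree when both components agree. -/
private theorem pair_ext {S S' : Type*} [CommRing S] [CommRing S'] {X Y : M2 (S × S')}
    (h₁ : (RingHom.fst S S').mapMatrix X = (RingHom.fst S S').mapMatrix Y)
    (h₂ : (RingHom.snd S S').mapMatrix X = (RingHom.snd S S').mapMatrix Y) : X = Y :=
  Matrix.ext fun i j => Prod.ext (congrFun (congrFun h₁ i) j) (congrFun (congrFun h₂ i) j)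

private theorem fst_pairRep {S : Type*} [CommRing S] (ρ₁ : G →* M2 Amb) (ρ₂ : G →* M2 S) (g : G) :
    (RingHom.fst Amb S).mapMatrix (pairRep ρ₁ ρ₂ g) = ρ₁ g := by
  ext i j; simp [pairRep]

private theorem snd_pairRep {S : Type*} [CommRing S] (ρ₁ : G →* M2 Amb) (ρ₂ : G →* M2 S) (g : G) :
    (RingHom.snd Amb S).mapMatrix (pairRep ρ₁ ρ₂ g) = ρ₂ g := by
  ext i j; simp [pairRep]

omit [Algebra (ZMod 2) Λ] in
/-- A generator whose value is `ω u + ω ^ 2 v`, for unipotent `u` and `v`, has an odd prescribed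
value. -/
private theorem cast_eq_one_of_omega_comb [Nontrivial Λ] (hω : ω * ω + ω + 1 = 0) (h2 : (2 : Λ) = 0)
    {l : ℕ} (hl : IsNilpotent (π (t l) - (a l : Λ))) {u v : Λ} (hu : IsNilpotent (u - 1))
    (hv : IsNilpotent (v - 1)) (e : π (t l) = ω * u + ω * ω * v) : (a l : ZMod 2) = 1 := by
  rw [ZMod.intCast_eq_one_iff_odd]
  by_contra hodd
  obtain ⟨w, hw⟩ := Int.not_odd_iff_even.mp hodd
  refine not_isNilpotent_omega_comb hω hu hv ?_
  rw [hw] at hl
  push_cast at hl
  rwa [← two_mul, h2, zero_mul, sub_zero, e] at hl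

/-- The pairs with odd prescribed value are units. -/
private theorem reflectsUnits_pairs [Nontrivial Λ] (hfin : (Set.range ev).Finite)
    (hunit : ∀ x : T, ¬ IsNilpotent (π x) → IsUnit (ev x))
    (hc : ∀ l ∈ P, IsNilpotent (π (t l) - (a l : Λ)))
    {red : (pairEval t P a ev N).range →+* ZMod 2}
    (hred : ∀ p, red ((pairEval t P a ev N).rangeRestrict p) =
      ((aeval (fun l : P => a l) p : ℤ) : ZMod 2)) : ReflectsUnits red := by
  intro x hx
  obtain ⟨p, rfl⟩ := (pairEval t P a ev N).rangeRestrict_surjective x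
  have := finite_pairEval_range (t := t) (P := P) (a := a) (N := N) hfin
  rw [hred, ZMod.intCast_eq_one_iff_odd] at hx
  refine isUnit_of_isUnit_coe (Prod.isUnit_iff.mpr ⟨?_, ?_⟩)
  · rw [RingHom.coe_rangeRestrict, pairEval_fst]
    refine hunit _ fun hn => ?_
    obtain ⟨w, hw⟩ := hx
    have h1 : IsNilpotent ((aeval (fun l : P => a l) p : ℤ) : Λ) := by
      have := (Commute.all _ _).isNilpotent_sub hn (isNilpotent_aeval_sub hc p)
      simpa using this
    rw [hw] at h1
    push_cast at h1
    rw [algebra_two_eq_zero, zero_mul, zero_add] at h1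
    exact h1.not_isUnit isUnit_one
  · rw [RingHom.coe_rangeRestrict, pairEval_snd]
    exact isUnit_intCast_of_odd hx

omit [CommRing T] in
/-- An `𝔽₂`-algebra which is a quotient of a polynomial ring over `ℤ` is generated by any set
containing the images of the variables. -/
private theorem adjoin_eq_top_of_surjective {σ Q : Type*} [CommRing Q] [Algebra (ZMod 2) Q]
    (f : MvPolynomial σ ℤ →+* Q) (hf : Function.Surjective f) {s : Set Q}
    (hs : ∀ i, f (X i) ∈ s) : Algebra.adjoin (ZMod 2) s = ⊤ := by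
  rw [eq_top_iff]
  intro x _
  obtain ⟨p, rfl⟩ := hf x
  induction p using MvPolynomial.induction_on with
  | C n =>
    rw [show (MvPolynomial.C n : MvPolynomial σ ℤ) = (n : MvPolynomial σ ℤ) by simp, map_intCast]
    exact intCast_mem _ n
  | add p p' hp hp' => rw [map_add]; exact add_mem (hp trivial) (hp' trivial)
  | mul_X p i hp => rw [map_mul]; exact mul_mem (hp trivial) (Algebra.subset_adjoin (hs i))

/-! ## The argument modulo `2` -/

/-- **The argument modulo `2`.** A representation over a ring of characteristic `2` with the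
residual and local properties of the pairs, generated by its traces at `P`, is dihedral; so its ring
has nothing more than the coefficient ring. -/
private theorem injective_modTwo (h : Input t P a ev ρA ρN r η D I τ π ω e k) {Q : Type u}
    [CommRing Q] [Finite Q] [CharP Q 2] [Algebra (ZMod 2) Q] {redQ : Q →+* ZMod 2}
    (hru : ReflectsUnits redQ) (hnil : ∀ x, redQ x = 0 → IsNilpotent x) (f : MvPolynomial P ℤ →+* Q)
    (hf : Function.Surjective f) (hfred : ∀ l : P, redQ (f (X l)) = (a l : ZMod 2))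
    (ρQ : G →* (M2 Q)ˣ) (hone : ∀ g, ρA g = 1 → ρN g = 1 → ρQ g = 1)
    (hresQ : ∀ g, (ρQ g : M2 Q).map redQ = (r g : M2 (ZMod 2)))
    (hdet : ∀ g, (ρQ g : M2 Q).det = 1) (hτ : ∀ j, ((ρQ (τ j) : M2 Q) - 1).trace = 0)
    (hcomm : ∀ j, ∀ g ∈ D j,
      (ρQ g : M2 Q) * ((ρQ (τ j) : M2 Q) - 1) = ((ρQ (τ j) : M2 Q) - 1) * (ρQ g : M2 Q))
    (hinert : ∀ j, ∀ g ∈ I j, ((ρQ g : M2 Q) - 1) * ((ρQ (τ j) : M2 Q) - 1) = 0)
    (htr : ∀ l : P, ∃ g, (ρQ g : M2 Q).trace = f (X l))
    (πQ : Q →+* Λ) (hπQ : ∀ l : P, πQ (f (X l)) = π (t l)) : Function.Injective πQ := by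
  classical
  have : Nontrivial Λ := nontrivial_of_indep e h.indep
  have : Nontrivial Q := redQ.domain_nontrivial
  let pl : J → Place G Q := fun j => ⟨D j, (ρQ (τ j) : M2 Q) - 1⟩
  have hres : residual ρQ redQ = r := MonoidHom.ext fun g => Units.ext (hresQ g)
  have hNres : ∀ j, (pl j).N.map redQ = (r (τ j) : M2 (ZMod 2)) + 1 := fun j => by
    show redQ.mapMatrix ((ρQ (τ j) : M2 Q) - 1) = _
    rw [map_sub, map_one, RingHom.mapMatrix_apply, hresQ]
    exact CharTwo.sub_eq_add _ _
  have hsetup : Setup ρQ η pl redQ := by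
    refine ⟨?_, h.sign_add, fun g => ?_, hτ, hcomm, ?_⟩
    · have : IsNilpotent (RingHom.ker redQ) := by
        rw [Ideal.FG.isNilpotent_iff_le_nilradical (IsNoetherian.noetherian _)]
        exact fun x hx => mem_nilradical.mpr (hnil x hx)
      obtain ⟨n, hn⟩ := this
      exact ⟨n, hn⟩
    · rw [hres]; exact h.sign g
    · rw [hres, show (fun i => (pl i).N.map redQ) = fun j => (r (τ j) : M2 (ZMod 2)) + 1 from
        funext hNres]
      refine h.selmer _ fun g e1 e2 => ⟨hone g e1 e2, ?_⟩
      have := h.sign g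
      have hr1 : (r g : M2 (ZMod 2)) = 1 := by
        rw [← h.residual g, e2]
        exact map_one (ZMod.castHom (dvd_pow_self 2 h.pos.ne') (ZMod 2)).mapMatrix
      have hr1' : r g = 1 := Units.ext hr1
      rw [conjAct, hr1', inv_one, Units.val_one, one_mul, mul_one, left_eq_add] at this
      simpa using congrFun (congrFun this 0) 0
  obtain ⟨W, hW, hrel, hconj⟩ := exists_commutant hsetup
  have hWrel : ∀ g, (ρQ g : M2 Q) * W * (↑(ρQ g)⁻¹ : M2 Q) = W + algebraMap (ZMod 2) Q (η g) • 1 :=
    hconj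
  -- unramified on the kernel of the sign
  have hinone : ∀ j, ∀ g ∈ I j, η g = 0 → ρQ g = 1 := fun j g hg hg0 =>
    eq_one_of_mul_eq_zero ρQ (fun g => algebraMap (ZMod 2) Q (η g)) hru hW g
      (by rw [hg0, map_zero]) (hWrel g) (pl j).N
      (by
        rw [hNres j]
        intro e0
        refine h.moved j (Units.ext ?_)
        rw [Units.val_one, ← sub_eq_zero, CharTwo.sub_eq_add]
        exact e0)
      (hinert j g hg)
  have hcommute : ∀ g g', η g = 0 → η g' = 0 → Commute (ρQ g) (ρQ g') := fun _ _ =>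
    commute_of_sign_eq_zero ρQ hru hW hWrel
  have : Finite (M2 Q) := inferInstanceAs (Finite (Fin 2 → Fin 2 → Q))
  have hbound := h.bound (M2 Q)ˣ inferInstance inferInstance ρQ hone hinone hcommute
  refine injective_of_dihedral πQ ω hru hW ρQ η hrel h.sign_add hWrel hdet
    (adjoin_eq_top_of_surjective f hf htr) h.omega (fun x hx => (hnil x hx).map πQ) h.card e
    h.unipotent h.indep (Set.toFinite _) hbound
    {c | ∃ l ∈ P, π (t l) = ω * (e c : Λ) + ω * ω * (e c⁻¹ : Λ)} h.nonempty h.closure ?_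
  rintro c ⟨l, hl, hc⟩
  obtain ⟨g, hg⟩ := htr ⟨l, hl⟩
  have hred1 : redQ (ρQ g : M2 Q).trace = 1 := by
    rw [hg, hfred]
    exact cast_eq_one_of_omega_comb h.omega algebra_two_eq_zero (h.congr l hl) (h.unipotent c)
      (h.unipotent c⁻¹) hc
  refine ⟨g, ?_, hred1, by rw [hg, hπQ]; exact hc⟩
  rcases (show η g = 0 ∨ η g = 1 by generalize η g = x; revert x; decide) with hη | hη
  · exact hη
  · exfalso
    have := trace_eq_zero_of_sign ρQ (fun g => algebraMap (ZMod 2) Q (η g)) g
      (by rw [hη, map_one]) (hWrel g)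
    rw [this, map_zero] at hred1
    exact zero_ne_one hred1

/-- The value at the points factors through the pairs modulo `2`. -/
private theorem exists_factor (hker : ∀ x : T, ev x = 0 → π x = 0) {Q : Type*} [CommRing Q]
    (f : MvPolynomial P ℤ →+* Q) (hf : Function.Surjective f)
    (hf0 : ∀ p, f p = 0 → ∃ p', pairEval t P a ev N p = 2 * pairEval t P a ev N p') :
    ∃ πQ : Q →+* Λ, ∀ p, πQ (f p) = π (aeval (fun l : P => t l) p) := by
  let tP : MvPolynomial P ℤ →ₐ[ℤ] T := aeval fun l : P => t l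
  have hle : RingHom.ker f ≤ RingHom.ker (π.comp tP.toRingHom) := fun p hp => by
    obtain ⟨p', e⟩ := hf0 p (RingHom.mem_ker.mp hp)
    have e1 := congrArg Prod.fst e
    rw [Prod.fst_mul, pairEval_fst, pairEval_fst, Prod.fst_ofNat] at e1
    have := hker (tP p - 2 * tP p') (by rw [map_sub, map_mul, map_ofNat, e1, sub_self])
    rw [map_sub, map_mul, map_ofNat, algebra_two_eq_zero, zero_mul, sub_zero] at this
    exact RingHom.mem_ker.mpr this
  exact ⟨RingHom.liftOfSurjective f hf ⟨_, hle⟩, fun p =>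
    RingHom.liftOfRightInverse_comp_apply f _ (Function.rightInverse_surjInv hf) ⟨_, hle⟩ p⟩

/-! ## The model of the pair representation -/

/-- The model of the pair representation over the pairs. -/
private theorem exists_pairModel (h : Input t P a ev ρA ρN r η D I τ π ω e k)
    {red : (pairEval t P a ev N).range →+* ZMod 2} (hru : ReflectsUnits red)
    (hnil : ∀ x, red x = 0 → IsNilpotent x)
    (hred : ∀ x, red x = ZMod.castHom (dvd_pow_self 2 h.pos.ne') (ZMod 2)
      (x : Amb × ZMod (2 ^ N)).2) :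
    ∃ (Ψ : M2 (Amb × ZMod (2 ^ N)) →ₐ[Amb × ZMod (2 ^ N)] M2 (Amb × ZMod (2 ^ N)))
      (RB : G →* M2 (pairEval t P a ev N).range),
      (∀ g, (pairEval t P a ev N).range.subtype.mapMatrix (RB g) = Ψ (pairRep ρA ρN g)) ∧
      (∀ g, ((RB g).trace : Amb × ZMod (2 ^ N)) = (pairRep ρA ρN g).trace) ∧
      (∀ g, ∃ u : ℤ, Odd u ∧ (RB g).det = (u : (pairEval t P a ev N).range)) ∧
      ∀ g, (RB g).map red = (r g : M2 (ZMod 2)) := by
  classical
  -- `c2` is reduction modulo two; traces and determinants of the pair are in the pairs `B`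
  let c2 : ZMod (2 ^ N) →+* ZMod 2 := ZMod.castHom (dvd_pow_self 2 h.pos.ne') (ZMod 2)
  let B := (pairEval t P a ev N).range
  let q : MvPolynomial P ℤ →+* B := (pairEval t P a ev N).rangeRestrict
  let ι : B →+* Amb × ZMod (2 ^ N) := B.subtype
  let ρ : G →* M2 (Amb × ZMod (2 ^ N)) := pairRep ρA ρN
  have htrρ : ∀ g, (ρ g).trace = ((ρA g).trace, (ρN g).trace) := fun g => by
    simp [ρ, pairRep, Matrix.trace_fin_two]
  have hdetρ : ∀ g, (ρ g).det = ((ρA g).det, (ρN g).det) := fun g => by
    simp [ρ, pairRep, Matrix.det_fin_two]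
  choose lT hlT hlTA hlTN using h.trace
  choose uD huD huDA huDN using h.det
  let tA : G → B := fun g => q (X ⟨lT g, hlT g⟩)
  let dA : G → B := fun g => (uD g : B)
  have hqX : ∀ l : P, (q (X l) : Amb × ZMod (2 ^ N)) = (ev (t l), ((a l : ℤ) : ZMod (2 ^ N))) :=
    fun l => by show pairEval t P a ev N (X l) = _; simp [pairEval]
  have htr : ∀ g, (ρ g).trace = ι (tA g) := fun g => by
    rw [htrρ, hlTA, hlTN]
    exact (hqX ⟨lT g, hlT g⟩).symm
  have hdet : ∀ g, (ρ g).det = ι (dA g) := fun g => by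
    rw [hdetρ, huDA, huDN]
    show _ = ((uD g : B) : Amb × ZMod (2 ^ N))
    ext <;> simp
  let rb : G →* M2 (ZMod 2) := (Units.coeHom _).comp r
  have hc2map : ∀ g, (ρN g).map c2 = rb g := h.residual
  have hrt : ∀ g, (rb g).trace = red (tA g) := fun g => by
    rw [← hc2map]
    rw [hred]
    show _ = c2 ((ι (tA g)).2)
    rw [← htr, htrρ]
    exact (AddMonoidHom.map_trace c2.toAddMonoidHom _).symm
  have hrd : ∀ g, (rb g).det = red (dA g) := fun g => by
    rw [← hc2map]
    rw [hred]
    show _ = c2 ((ι (dA g)).2)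
    rw [← hdet, hdetρ]
    exact (RingHom.map_det c2 _).symm
  obtain ⟨Ψ, RB, hRΨ, hRtr, hRdet, hRred⟩ := exists_model ι red ρ tA dA rb Subtype.val_injective hru
    (fun t d ht hd => exists_root_of_nilpotent red hru t d ht hd (hnil d hd))
      htr hdet hrt hrd h.span
  exact ⟨Ψ, RB, hRΨ, fun g => by rw [hRtr]; exact (htr g).symm,
    fun g => ⟨uD g, huD g, hRdet g⟩, hRred⟩

/-- Modulo two, the decomposition group at `j` commutes with the image of `τ j`, and inertia at `j`
fixes the image of `τ j - 1`: both defects are twice an integral combination in both components. -/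
private theorem modTwo_local (h : Input t P a ev ρA ρN r η D I τ π ω e k)
    {Ψ : M2 (Amb × ZMod (2 ^ N)) →ₐ[Amb × ZMod (2 ^ N)] M2 (Amb × ZMod (2 ^ N))}
    {RB : G →* M2 (pairEval t P a ev N).range}
    (hΨ : ∀ g, (pairEval t P a ev N).range.subtype.mapMatrix (RB g) = Ψ (pairRep ρA ρN g))
    (htr : ∀ g, ((RB g).trace : Amb × ZMod (2 ^ N)) = (pairRep ρA ρN g).trace)
    {Q : Type*} [CommRing Q] (mkQ : (pairEval t P a ev N).range →+* Q) (h2 : (2 : Q) = 0) (j : J) :
    (∀ g ∈ D j, mkQ.mapMatrix (RB g) * (mkQ.mapMatrix (RB (τ j)) - 1) =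
      (mkQ.mapMatrix (RB (τ j)) - 1) * mkQ.mapMatrix (RB g)) ∧
    ∀ g ∈ I j, (mkQ.mapMatrix (RB g) - 1) * (mkQ.mapMatrix (RB (τ j)) - 1) = 0 := by
  let ι : (pairEval t P a ev N).range →+* Amb × ZMod (2 ^ N) := (pairEval t P a ev N).range.subtype
  let ρ : G →* M2 (Amb × ZMod (2 ^ N)) := pairRep ρA ρN
  -- integral combinations in the model are images of those in the ambient ring
  have hιcomb : ∀ c d, ι.mapMatrix (comb (fun g => RB g) c d) = Ψ (comb (fun g => ρ g) c d) :=
    fun c d => (map_comb ι hΨ c d).trans (map_comb_algHom Ψ (fun _ => rfl)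
      (fun g => by
        rw [← hΨ, ← htr]
        exact AddMonoidHom.map_trace ι.toAddMonoidHom (RB g))
      c d).symm
  -- a matrix over the pairs which in both components is twice a combination vanishes modulo two
  have hdesc : ∀ (X : M2 (pairEval t P a ev N).range) (Y : M2 (Amb × ZMod (2 ^ N)))
      (c d : G →₀ ℤ), ι.mapMatrix X = Ψ Y →
      (RingHom.fst _ _).mapMatrix Y = (2 : ℤ) • comb ρA c d →
      (RingHom.snd _ _).mapMatrix Y = (2 : ℤ) • comb ρN c d → mkQ.mapMatrix X = 0 :=
    fun X Y c d e eA eN => by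
      have eY : Y = (2 : ℤ) • comb (fun g => ρ g) c d := by
        refine pair_ext ?_ ?_
        · simp only [eA, map_zsmul, ρ, map_comb _ (fst_pairRep ρA ρN)]
        · simp only [eN, map_zsmul, ρ, map_comb _ (snd_pairRep ρA ρN)]
      exact map_eq_zero_of_two_mul (ι := ι) Subtype.val_injective mkQ h2
        (Y := comb (fun g => RB g) c d) (by rw [e, eY, map_zsmul, hιcomb])
  refine ⟨fun g hg => ?_, fun g hg => ?_⟩
  · obtain ⟨c, d, eA, eN⟩ := h.comm j g hg
    have := hdesc (RB g * (RB (τ j) - 1) - (RB (τ j) - 1) * RB g)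
      (ρ g * (ρ (τ j) - 1) - (ρ (τ j) - 1) * ρ g) c d
      (by simp only [map_sub, map_mul, map_one]; rw [hΨ, hΨ])
      (by simp only [map_sub, map_mul, map_one, ρ, fst_pairRep, eA])
      (by simp only [map_sub, map_mul, map_one, ρ, snd_pairRep, eN])
    simp only [map_sub, map_mul, map_one, sub_eq_zero] at this
    exact this
  · obtain ⟨c, d, eA, eN⟩ := h.inertia j g hg
    have := hdesc ((RB g - 1) * (RB (τ j) - 1)) ((ρ g - 1) * (ρ (τ j) - 1)) c d
      (by simp only [map_sub, map_mul, map_one]; rw [hΨ, hΨ])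
      (by simp only [map_sub, map_mul, map_one, ρ, fst_pairRep, eA])
      (by simp only [map_sub, map_mul, map_one, ρ, snd_pairRep, eN])
    simp only [map_sub, map_mul, map_one] at this
    exact this

/-- The pairs killed by `π` are twice pairs. -/
private theorem exists_eq_two_mul (h : Input t P a ev ρA ρN r η D I τ π ω e k)
    (p₀ : MvPolynomial P ℤ) (hp₀ : π (aeval (fun l : P => t l) p₀) = 0) :
    ∃ p', pairEval t P a ev N p₀ = 2 * pairEval t P a ev N p' := by
  classical
  have hN := h.pos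
  have : Nontrivial Λ := nontrivial_of_indep e h.indep
  -- the pairs `B`; their residue `red` is the prescribed value modulo two, read by `c2`
  let c2 : ZMod (2 ^ N) →+* ZMod 2 := ZMod.castHom (dvd_pow_self 2 hN.ne') (ZMod 2)
  let B := (pairEval t P a ev N).range
  let q : MvPolynomial P ℤ →+* B := (pairEval t P a ev N).rangeRestrict
  have hq : Function.Surjective q := (pairEval t P a ev N).rangeRestrict_surjective
  let ι : B →+* Amb × ZMod (2 ^ N) := B.subtype
  let red : B →+* ZMod 2 := c2.comp ((RingHom.snd _ _).comp ι)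
  have hredq : ∀ p, red (q p) = ((aeval (fun l : P => a l) p : ℤ) : ZMod 2) := fun p => by
    show c2 (pairEval t P a ev N p).2 = _
    rw [pairEval_snd, map_intCast]
  have : Finite B := finite_pairEval_range h.finite
  have hru : ReflectsUnits red := reflectsUnits_pairs h.finite h.unit h.congr hredq
  have hnil : ∀ x : B, red x = 0 → IsNilpotent x := fun x hx => isNilpotent_of_red_eq_zero hru hx
  -- the representation over the ambient ring and its model
  let ρ : G →* M2 (Amb × ZMod (2 ^ N)) := pairRep ρA ρN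
  have hqX : ∀ l : P, (q (X l) : Amb × ZMod (2 ^ N)) = (ev (t l), ((a l : ℤ) : ZMod (2 ^ N))) :=
    fun l => by show pairEval t P a ev N (X l) = _; simp [pairEval]
  obtain ⟨Ψ, RB, hg', htr, hdet, hRred⟩ := exists_pairModel h hru hnil fun _ => rfl
  have htrρ : ∀ g, ((RB g).trace : Amb × ZMod (2 ^ N)) = ((ρA g).trace, (ρN g).trace) := fun g =>
    (htr g).trans (by simp [pairRep, Matrix.trace_fin_two])
  -- reduction modulo two: `Q = B / 2 B`, with residue map `redQ`
  let Q := B ⧸ Ideal.span {(2 : B)}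
  let mkQ : B →+* Q := Ideal.Quotient.mk _
  have h2Q : (2 : Q) = 0 := by
    rw [← map_ofNat mkQ, Ideal.Quotient.eq_zero_iff_mem]
    exact Ideal.mem_span_singleton_self _
  have hle : Ideal.span {(2 : B)} ≤ RingHom.ker red := by
    rw [Ideal.span_le, Set.singleton_subset_iff, SetLike.mem_coe, RingHom.mem_ker, map_ofNat]
    rfl
  let redQ : Q →+* ZMod 2 := Ideal.Quotient.lift _ red hle
  have hruQ : ReflectsUnits redQ := by
    intro x hx
    obtain ⟨y, rfl⟩ := Ideal.Quotient.mk_surjective x
    exact (hru y hx).map mkQ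
  have : Nontrivial Q := redQ.domain_nontrivial
  have : Finite Q := Finite.of_surjective mkQ Ideal.Quotient.mk_surjective
  have hchar : CharP Q 2 := (CharP.charP_iff_prime_eq_zero Nat.prime_two).mpr h2Q
  let : Algebra (ZMod 2) Q := ZMod.algebra Q 2
  let ρQ : G →* (M2 Q)ˣ := (Units.map mkQ.mapMatrix.toMonoidHom).comp RB.toHomUnits
  have hρQ : ∀ g, (ρQ g : M2 Q) = mkQ.mapMatrix (RB g) := fun g => rfl
  have htrQ : ∀ g, (ρQ g : M2 Q).trace = mkQ (RB g).trace := fun g => by
    rw [hρQ]
    exact (AddMonoidHom.map_trace mkQ.toAddMonoidHom _).symm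
  -- the value in `Λ` factors through `Q`
  obtain ⟨πQ, hπQ⟩ := exists_factor (fun x hx => h.ker 0 (Nat.zero_le _) x (by
    rw [pow_zero, one_mul, hx])) (mkQ.comp q) (Ideal.Quotient.mk_surjective.comp hq) fun p hp => by
      obtain ⟨y, hy⟩ := Ideal.mem_span_singleton'.mp (Ideal.Quotient.eq_zero_iff_mem.mp hp)
      obtain ⟨p', rfl⟩ := hq y
      exact ⟨p', (congrArg Subtype.val (hy.symm.trans (mul_comm _ _)) :)⟩
  -- what `injective_modTwo` asks of `ρQ`, in the order it asks
  have honeQ : ∀ g, ρA g = 1 → ρN g = 1 → ρQ g = 1 := fun g e1 e2 => by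
    have e0 : ρ g = 1 := pair_ext (by rw [fst_pairRep, e1, map_one])
      (by rw [snd_pairRep, e2, map_one])
    have e : RB g = 1 := Matrix.map_injective Subtype.val_injective (show ι.mapMatrix (RB g) =
      ι.mapMatrix 1 by rw [hg', e0, map_one, map_one])
    exact Units.ext (by rw [hρQ, e, map_one, Units.val_one])
  -- the determinant is an odd integer, so `1` modulo two
  have hdetQ : ∀ g, (ρQ g : M2 Q).det = 1 := fun g => by
    obtain ⟨u, ⟨w, hw⟩, hu⟩ := hdet g
    rw [hρQ, ← RingHom.map_det, hu, map_intCast, hw]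
    push_cast
    rw [h2Q, zero_mul, zero_add]
  -- the trace of `τ j - 1` is an even integer minus `2`, so zero modulo two
  have hτQ : ∀ j, ((ρQ (τ j) : M2 Q) - 1).trace = 0 := fun j => by
    obtain ⟨e₀, ⟨w, hw⟩, he1, he2⟩ := h.trace_tau j
    have e : (RB (τ j)).trace = (e₀ : B) := Subtype.val_injective (by
      rw [htrρ, he1, he2]
      ext <;> simp)
    rw [Matrix.trace_sub, Matrix.trace_one, htrQ, e, map_intCast, hw]
    push_cast
    rw [← two_mul, h2Q]
    simp [h2Q]
  -- every generator is a trace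
  have hfrobQ : ∀ l : P, ∃ g, (ρQ g : M2 Q).trace = mkQ (q (X l)) := fun l => by
    obtain ⟨g, hgA, hgN⟩ := h.frob l l.2
    refine ⟨g, (htrQ g).trans (congrArg mkQ (Subtype.val_injective ?_))⟩
    rw [htrρ, hgA, hgN]
    exact (hqX l).symm
  -- so `πQ` is injective, and what `π` kills vanishes in `B / 2 B`
  have hinjQ : Function.Injective πQ := injective_modTwo h hruQ
    (fun x => Quotient.inductionOn' x fun y hy => (hnil y hy).map mkQ) (mkQ.comp q)
    (Ideal.Quotient.mk_surjective.comp hq) (fun l => (hredq (X l)).trans (by rw [aeval_X]))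
    ρQ honeQ hRred hdetQ hτQ (fun j => (modTwo_local h hg' htr mkQ h2Q j).1)
    (fun j => (modTwo_local h hg' htr mkQ h2Q j).2) hfrobQ πQ
    (fun l => (hπQ (X l)).trans (by rw [aeval_X]))
  have : mkQ (q p₀) = 0 := hinjQ (by rw [map_zero, ← hp₀]; exact hπQ p₀)
  obtain ⟨y, hy⟩ := Ideal.mem_span_singleton'.mp (Ideal.Quotient.eq_zero_iff_mem.mp this)
  obtain ⟨p', rfl⟩ := hq y
  exact ⟨p', (congrArg Subtype.val (hy.symm.trans (mul_comm _ _)) :)⟩

/-- A pair with zero first component is zero. -/
private theorem pairEval_snd_eq_zero (h : Input t P a ev ρA ρN r η D I τ π ω e k)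
    (p : MvPolynomial P ℤ) (hp : ev (aeval (fun l : P => t l) p) = 0) :
    ((aeval (fun l : P => a l) p : ℤ) : ZMod (2 ^ N)) = 0 := by
  -- divide by `2` up to `N` times: each quotient still dies in `Λ`, its value being killed by a
  -- power `2 ^ j`, `j ≤ N`
  have hdivide : ∀ j ≤ N, ∃ p', pairEval t P a ev N p = 2 ^ j * pairEval t P a ev N p' ∧
      (2 : Amb) ^ j * ev (aeval (fun l : P => t l) p') = 0 := by
    intro j hj
    induction j with
    | zero => exact ⟨p, by simp, by simp [hp]⟩
    | succ j ih =>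
      obtain ⟨p₁, e1, e2⟩ := ih (by omega)
      obtain ⟨p₂, e3⟩ := exists_eq_two_mul h p₁ (h.ker j (by omega) _ e2)
      refine ⟨p₂, by rw [e1, e3, pow_succ]; ring, ?_⟩
      have := congrArg Prod.fst e3
      rw [Prod.fst_mul, pairEval_fst, pairEval_fst, Prod.fst_ofNat] at this
      rw [this] at e2
      rw [pow_succ, mul_assoc]
      exact e2
  obtain ⟨p', e1, -⟩ := hdivide N le_rfl
  have := congrArg Prod.snd e1
  rw [Prod.snd_mul, Prod.pow_snd, pairEval_snd, pairEval_snd, Prod.snd_ofNat] at this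
  rw [this, show (2 : ZMod (2 ^ N)) ^ N = ((2 ^ N : ℕ) : ZMod (2 ^ N)) by push_cast; rfl,
    ZMod.natCast_self, zero_mul]

/-! ## The homomorphism -/

/-- **The prescribed values define a homomorphism**, and a value at the points killed by `π` is
twice a value: the values modulo `2` inject into `Λ`. -/
theorem exists_hom (h : Input t P a ev ρA ρN r η D I τ π ω e k) :
    (∃ φ : T →+* ZMod (2 ^ N), ∀ l ∈ P, φ (t l) = (a l : ZMod (2 ^ N))) ∧
      ∀ x : T, π x = 0 → ∃ y : T, ev x = 2 * ev y := by
  let tP : MvPolynomial P ℤ →ₐ[ℤ] T := aeval fun l : P => t l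
  have htP : Function.Surjective tP := by
    rw [← AlgHom.range_eq_top, ← Algebra.adjoin_range_eq_range_aeval, ← h.gen]
    congr 1
    ext x
    simp
  let f : MvPolynomial P ℤ →+* ZMod (2 ^ N) :=
    (Int.castRingHom _).comp (aeval fun l : P => a l).toRingHom
  have hf : RingHom.ker tP.toRingHom ≤ RingHom.ker f := fun p hp =>
    pairEval_snd_eq_zero h p (by rw [show tP p = 0 from hp, map_zero])
  refine ⟨⟨RingHom.liftOfSurjective tP.toRingHom htP ⟨f, hf⟩, fun l hl => ?_⟩, fun x hx => ?_⟩
  · have := RingHom.liftOfRightInverse_comp_apply tP.toRingHom _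
      (Function.rightInverse_surjInv htP) ⟨f, hf⟩ (X ⟨l, hl⟩)
    simpa [tP, f] using this
  · obtain ⟨p, rfl⟩ := htP x
    obtain ⟨p', e⟩ := exists_eq_two_mul h p hx
    refine ⟨tP p', ?_⟩
    have := congrArg Prod.fst e
    rw [Prod.fst_mul, pairEval_fst, pairEval_fst, Prod.fst_ofNat] at this
    exact this

end Fermat.Agent.LT.Deform
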