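import Fermat.Agent.LT.Deform.Obstruction

/-!
# The character of a representation with a commutant

In characteristic `2` let `W` lift the residual element of order three. If `W ^ 2 + W + 1 = 0` and
the representation conjugates `W` to `W + η`, then on the kernel of the sign the representation is
`a + b W`, multiplicatively; the trace is `b` there and `0` elsewhere, and an element of that kernel
with `(ρ h - 1) N = 0`, `N` residually a nonzero matrix, acts trivially.
-/

set_option autoImplicit false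

open Matrix

namespace Fermat.Agent.LT.Deform

variable {R : Type*} [CommRing R] (red : R →+* ZMod 2)

/-- Reflection of units along the residue map. -/
def ReflectsUnits : Prop := ∀ x : R, red x = 1 → IsUnit x

variable {red} {W : M2 R}

theorem w₀_no_eigen : ∀ u v : ZMod 2, ¬ (u = 0 ∧ v = 0) →
    u * (w₀ 1 0 * u + w₀ 1 1 * v) - v * (w₀ 0 0 * u + w₀ 0 1 * v) = 1 := by decide

/-- A column with a residually nonzero entry is cyclic for `W`. -/
theorem isUnit_cyclicDet (hru : ReflectsUnits red) (hW : W.map red = w₀) (v : Fin 2 → R)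
    (hv : ¬ (red (v 0) = 0 ∧ red (v 1) = 0)) :
    IsUnit (v 0 * (W *ᵥ v) 1 - v 1 * (W *ᵥ v) 0) := by
  refine hru _ ?_
  have h : ∀ i j, red (W i j) = w₀ i j := fun i j => congrFun (congrFun hW i) j
  simp only [Matrix.mulVec, dotProduct, Fin.sum_univ_two, map_sub, map_mul, map_add, h]
  exact w₀_no_eigen _ _ hv

/-- A combination of `1` and `W` killing a cyclic column is zero. -/
theorem eq_zero_of_mulVec_eq_zero (hru : ReflectsUnits red) (hW : W.map red = w₀) (v : Fin 2 → R)
    (hv : ¬ (red (v 0) = 0 ∧ red (v 1) = 0)) {x y : R} (h : (x • (1 : M2 R) + y • W) *ᵥ v = 0) :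
    x = 0 ∧ y = 0 := by
  have hu := isUnit_cyclicDet hru hW v hv
  simp only [Matrix.add_mulVec, Matrix.smul_mulVec, Matrix.one_mulVec] at h
  have h0 := congrFun h 0
  have h1 := congrFun h 1
  simp only [Pi.add_apply, Pi.smul_apply, smul_eq_mul, Pi.zero_apply] at h0 h1
  refine ⟨hu.mul_left_eq_zero.mp ?_, hu.mul_left_eq_zero.mp ?_⟩
  · linear_combination (W *ᵥ v) 1 * h0 - (W *ᵥ v) 0 * h1
  · linear_combination v 0 * h1 - v 1 * h0

/-- Matrices commuting with `W` are combinations of `1` and `W`. -/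
theorem exists_of_commute (hru : ReflectsUnits red) (hW : W.map red = w₀) {M : M2 R}
    (hM : M * W = W * M) : ∃ x y : R, M = x • (1 : M2 R) + y • W := by
  set v : Fin 2 → R := ![1, 0] with hv
  have hv' : ¬ (red (v 0) = 0 ∧ red (v 1) = 0) := by simp [hv]
  obtain ⟨u, hu⟩ := (isUnit_cyclicDet hru hW v hv').exists_right_inv
  -- coordinates of `M v` in the basis `v, W v`
  set m := M *ᵥ v
  set w := W *ᵥ v
  refine ⟨u * (m 0 * w 1 - m 1 * w 0), u * (v 0 * m 1 - v 1 * m 0), ?_⟩
  set x := u * (m 0 * w 1 - m 1 * w 0)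
  set y := u * (v 0 * m 1 - v 1 * m 0)
  have hm : m = (x • (1 : M2 R) + y • W) *ᵥ v := by
    ext i
    simp only [Matrix.add_mulVec, Matrix.smul_mulVec, Matrix.one_mulVec, Pi.add_apply,
      Pi.smul_apply, smul_eq_mul]
    fin_cases i <;> simp only [x, y, Fin.zero_eta, Fin.mk_one]
    · show m 0 = u * (m 0 * w 1 - m 1 * w 0) * v 0 + u * (v 0 * m 1 - v 1 * m 0) * w 0
      linear_combination -(m 0) * hu
    · show m 1 = u * (m 0 * w 1 - m 1 * w 0) * v 1 + u * (v 0 * m 1 - v 1 * m 0) * w 1
      linear_combination -(m 1) * hu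
  set D := M - (x • (1 : M2 R) + y • W)
  have hD0 : D *ᵥ v = 0 := by simp only [D, Matrix.sub_mulVec]; rw [← hm, sub_self]
  have hDW : D * W = W * D := by
    simp only [D, sub_mul, mul_sub, add_mul, mul_add, hM, smul_mul_assoc, mul_smul_comm, one_mul,
      mul_one]
  have hD1 : D *ᵥ w = 0 := by
    show D *ᵥ (W *ᵥ v) = 0
    rw [Matrix.mulVec_mulVec, hDW, ← Matrix.mulVec_mulVec, hD0, Matrix.mulVec_zero]
  rw [← sub_eq_zero]
  ext i j
  have e0 := congrFun hD0 i
  have e1 := congrFun hD1 i
  simp only [Matrix.mulVec, dotProduct, Fin.sum_univ_two, Pi.zero_apply] at e0 e1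
  have key0 : D i 0 * (v 0 * w 1 - v 1 * w 0) = 0 := by linear_combination w 1 * e0 - v 1 * e1
  have key1 : D i 1 * (v 0 * w 1 - v 1 * w 0) = 0 := by linear_combination v 0 * e1 - w 0 * e0
  show D i j = 0
  fin_cases j
  · exact (isUnit_cyclicDet hru hW v hv').mul_left_eq_zero.mp key0
  · exact (isUnit_cyclicDet hru hW v hv').mul_left_eq_zero.mp key1

theorem trace_eq_one (hrel : W * W + W + 1 = 0) (hru : ReflectsUnits red) (hW : W.map red = w₀)
    [CharP R 2] : W.trace = 1 := by
  have h01 : IsUnit (W 0 1) := hru _ (by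
    have := congrFun (congrFun hW 0) 1; simpa [w₀] using this)
  have e := congrFun (congrFun hrel 0) 1
  simp [Matrix.mul_apply, Fin.sum_univ_two] at e
  have : W 0 1 * (W.trace + 1) = 0 := by
    simp only [Matrix.trace, Matrix.diag_apply, Fin.sum_univ_two]; linear_combination e
  rw [h01.mul_right_eq_zero, ← CharTwo.sub_eq_add, sub_eq_zero] at this
  exact this

variable [CharP R 2] {G : Type*} [Group G] (ρ : G →* (M2 R)ˣ) (η : G → R)

omit [CharP R 2] in
/-- The trace vanishes off the kernel of the sign. -/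
theorem trace_eq_zero_of_sign (g : G) (hg : η g = 1)
    (hc : (ρ g : M2 R) * W * (↑(ρ g)⁻¹ : M2 R) = W + η g • 1) : (ρ g : M2 R).trace = 0 := by
  have h : (ρ g : M2 R) * W = W * (ρ g : M2 R) + (ρ g : M2 R) := by
    calc (ρ g : M2 R) * W = (ρ g : M2 R) * W * ((↑(ρ g)⁻¹ : M2 R) * (ρ g : M2 R)) := by
          rw [Units.inv_mul, mul_one]
      _ = _ := by rw [← mul_assoc, hc, hg, one_smul, add_mul, one_mul]
  have := congrArg Matrix.trace h
  rw [Matrix.trace_add, Matrix.trace_mul_comm W] at this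
  simpa using this

omit [CharP R 2] in
/-- The coefficients on the kernel of the sign. -/
theorem exists_coords (hru : ReflectsUnits red) (hW : W.map red = w₀) (g : G) (hg : η g = 0)
    (hc : (ρ g : M2 R) * W * (↑(ρ g)⁻¹ : M2 R) = W + η g • 1) :
    ∃ a b : R, (ρ g : M2 R) = a • (1 : M2 R) + b • W := by
  refine exists_of_commute hru hW ?_
  rw [hg, zero_smul, add_zero] at hc
  calc (ρ g : M2 R) * W = (ρ g : M2 R) * W * ((↑(ρ g)⁻¹ : M2 R) * (ρ g : M2 R)) := by
        rw [Units.inv_mul, mul_one]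
    _ = _ := by rw [← mul_assoc, hc]

omit [CharP R 2] in
/-- A combination of `1` and `W` determines its coefficients. -/
theorem coords_unique (hru : ReflectsUnits red) (hW : W.map red = w₀) {a b a' b' : R}
    (h : a • (1 : M2 R) + b • W = a' • (1 : M2 R) + b' • W) : a = a' ∧ b = b' := by
  have h' : ((a - a') • (1 : M2 R) + (b - b') • W) *ᵥ ![1, 0] = 0 := by
    have e : (a - a') • (1 : M2 R) + (b - b') • W =
        (a • (1 : M2 R) + b • W) - (a' • (1 : M2 R) + b' • W) := by
      rw [sub_smul, sub_smul]; abel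
    rw [e, h, sub_self, Matrix.zero_mulVec]
  have := eq_zero_of_mulVec_eq_zero hru hW _ (by simp) h'
  exact ⟨sub_eq_zero.mp this.1, sub_eq_zero.mp this.2⟩

/-- The trace on the kernel of the sign is the coefficient of `W`. -/
theorem trace_coords (hru : ReflectsUnits red) (hW : W.map red = w₀)
    (hrel : W * W + W + 1 = 0) (a b : R) : (a • (1 : M2 R) + b • W).trace = b := by
  rw [Matrix.trace_add, Matrix.trace_smul, Matrix.trace_smul, trace_eq_one hrel hru hW,
    Matrix.trace_one, Fintype.card_fin, Nat.cast_two, CharTwo.two_eq_zero]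
  simp

omit [CharP R 2] in
/-- An element with `(ρ h - 1) N = 0` on the kernel of the sign acts trivially. -/
theorem eq_one_of_mul_eq_zero (hru : ReflectsUnits red) (hW : W.map red = w₀) (h : G)
    (hh : η h = 0) (hc : (ρ h : M2 R) * W * (↑(ρ h)⁻¹ : M2 R) = W + η h • 1) (N : M2 R)
    (hN : N.map red ≠ 0) (h0 : ((ρ h : M2 R) - 1) * N = 0) : ρ h = 1 := by
  obtain ⟨a, b, e⟩ := exists_coords ρ η hru hW h hh hc
  obtain ⟨i, j, hij⟩ : ∃ i j, red (N i j) ≠ 0 := by
    by_contra hne; push Not at hne; exact hN (Matrix.ext hne)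
  have hv : ¬ (red (N 0 j) = 0 ∧ red (N 1 j) = 0) := by
    rintro ⟨h0, h1⟩; fin_cases i <;> contradiction
  have hcol : ((a - 1) • (1 : M2 R) + b • W) *ᵥ (fun i => N i j) = 0 := by
    have e' : (a - 1) • (1 : M2 R) + b • W = (ρ h : M2 R) - 1 := by
      rw [e, sub_smul, one_smul]; abel
    rw [e']
    ext i
    exact congrFun (congrFun h0 i) j
  obtain ⟨ha, hb⟩ := eq_zero_of_mulVec_eq_zero hru hW _ hv hcol
  refine Units.ext ?_
  rw [e, sub_eq_zero.mp ha, hb, one_smul, zero_smul, add_zero, Units.val_one]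

end Fermat.Agent.LT.Deform
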