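import Fermat.Agent.LT.Deform.Character
import Fermat.Agent.RT.Glue.MatrixUnits

/-!
# A model over the ring of traces

A representation over a ring `A` whose traces and determinants lie in a subring `B` with residue
field `ZMod 2`, in which a monic quadratic with residual roots `0` and `1` has a root, with residual
representation spanning the matrices, has a model over `B`, obtained by applying an endomorphism of
the algebra of matrices over `A`.
-/

set_option autoImplicit false

noncomputable section

open Matrix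
open Fermat.Agent.RT.Glue (munit munit_map coord_mul coord_one)

namespace Fermat.Agent.LT.Deform

theorem det_add_two {K : Type*} [CommRing K] (a b : M2 K) :
    (a + b).det = a.det + b.det + a.trace * b.trace - (a * b).trace := by
  simp [Matrix.det_fin_two, Matrix.trace_fin_two, Matrix.mul_apply, Fin.sum_univ_two]
  ring

theorem cayley_two {K : Type*} [CommRing K] (M : M2 K) :
    M * M - M.trace • M + M.det • (1 : M2 K) = 0 := by
  ext i j
  fin_cases i <;> fin_cases j <;>
    simp [Matrix.mul_apply, Fin.sum_univ_two, Matrix.trace_fin_two, Matrix.det_fin_two] <;> ring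

/-- A ring map into binary matrices whose image contains a spanning family is onto. -/
private theorem surjective_of_span {R G : Type*} [Ring R] (Φ : R →+* M2 (ZMod 2))
    (r : G → M2 (ZMod 2)) (hmem : ∀ g, ∃ w, Φ w = r g)
    (hspan : Submodule.span (ZMod 2) (Set.range r) = ⊤) : Function.Surjective Φ := by
  intro X
  have hX : X ∈ Submodule.span (ZMod 2) (Set.range r) := by rw [hspan]; trivial
  induction hX using Submodule.span_induction with
  | mem x hx =>
    obtain ⟨g, rfl⟩ := hx
    exact hmem g
  | zero => exact ⟨0, map_zero _⟩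
  | add x y _ _ hx hy =>
    obtain ⟨a, ha⟩ := hx; obtain ⟨b, hb⟩ := hy
    exact ⟨a + b, by rw [map_add, ha, hb]⟩
  | smul c x _ hx =>
    obtain ⟨a, ha⟩ := hx
    rcases (show ∀ z : ZMod 2, z = 0 ∨ z = 1 by decide) c with rfl | rfl
    · exact ⟨0, by rw [map_zero, zero_smul]⟩
    · exact ⟨a, by rw [ha, one_smul]⟩

variable {A B : Type*} [CommRing A] [CommRing B] (ι : B →+* A) (red : B →+* ZMod 2)
  {G : Type*} [Group G] (ρ : G →* M2 A) (tA dA : G → B) (r : G →* M2 (ZMod 2))

/-- Lifts of the residual matrix units: `e` has trace `1` and determinant `0`, and the trace of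
`e z (1 - e) y e` is `1`. -/
private theorem exists_units_lift {W : Type*} [Ring W] (Φ : W →+* M2 A) (Φb : W →+* M2 (ZMod 2))
    (τ : W → B) (s : B → W) (hru : ReflectsUnits red)
    (hroot : ∀ t d : B, red t = 1 → red d = 0 → ∃ α, α ^ 2 - t * α + d = 0 ∧ red α = 1)
    (hΦs : ∀ c, Φ (s c) = ι c • 1) (hΦbs : ∀ c, Φb (s c) = red c • 1)
    (htrΦ : ∀ w, (Φ w).trace = ι (τ w)) (htrb : ∀ w, (Φb w).trace = red (τ w))
    (hdetw : ∀ w, ∃ d, (Φ w).det = ι d ∧ (Φb w).det = red d) (hsurj : Function.Surjective Φb) :
    ∃ e y z : W, ((Φ e).trace = 1 ∧ (Φ e).det = 0) ∧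
      (Φ e * Φ z * (1 - Φ e) * Φ y * Φ e).trace = 1 ∧
      Φb e = !![1, 0; 0, 0] ∧ Φb y = !![0, 0; 1, 0] ∧ Φb z = !![0, 1; 0, 0] := by
  -- `x` lifts the idempotent matrix unit. The roots of `X ^ 2 - t X + d`, with `t`, `d` its trace
  -- and determinant, are `α` and `t - α`, so `e = (x - (t - α)) / (2 α - t)` is an idempotent
  obtain ⟨x, hx⟩ := hsurj !![1, 0; 0, 0]
  obtain ⟨y, hy⟩ := hsurj !![0, 0; 1, 0]
  obtain ⟨z₀, hz₀⟩ := hsurj !![0, 1; 0, 0]
  obtain ⟨d, hdA, hdb⟩ := hdetw x
  set t := τ x with htdef
  have htb : red t = 1 := by rw [htdef, ← htrb, hx]; decide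
  have hdb0 : red d = 0 := by rw [← hdb, hx]; decide
  obtain ⟨α, hα, hαb⟩ := hroot t d htb hdb0
  obtain ⟨ui, hui⟩ := (hru (2 * α - t) (by
    rw [map_sub, map_mul, map_ofNat, htb, hαb]; decide)).exists_right_inv
  have hub : red ui = 1 := by
    have := congrArg red hui
    rw [map_mul, map_sub, map_mul, map_ofNat, htb, hαb, map_one] at this
    revert this
    generalize red ui = v
    revert v
    decide
  obtain ⟨e, he⟩ : ∃ e : W,
      e = s ui * (x - s (t - α)) := ⟨_, rfl⟩
  have hΦe : (Φ e).trace = 1 ∧ (Φ e).det = 0 := by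
    have ht' := htrΦ x
    rw [← htdef, Matrix.trace_fin_two] at ht'
    rw [Matrix.det_fin_two] at hdA
    have hroot' := congrArg ι hα
    have huinv := congrArg ι hui
    simp only [map_add, map_sub, map_mul, map_pow, map_zero, map_one, map_ofNat] at hroot' huinv
    constructor
    · simp [he, map_mul, map_sub, hΦs, Matrix.trace_fin_two]
      linear_combination (ι ui) * ht' + huinv
    · simp [he, map_mul, map_sub, hΦs, Matrix.det_fin_two, -mul_eq_zero]
      linear_combination (ι ui) ^ 2 * (hdA - (ι t - ι α) * ht' + hroot')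
  have hΦbe : Φb e = !![1, 0; 0, 0] := by
    rw [he, map_mul, map_sub, hΦbs, hΦbs, hx, hub, map_sub, htb, hαb, sub_self, zero_smul,
      sub_zero, one_smul, one_mul]
  -- scale `z₀` so that the last trace, congruent to `1`, becomes `1`
  set c := τ (e * z₀ * (1 - e) * y * e) with hcdef
  have hcb : red c = 1 := by
    rw [hcdef, ← htrb, map_mul, map_mul, map_mul, map_mul, map_sub, map_one, hΦbe, hy, hz₀]
    decide
  obtain ⟨uc, huc⟩ := (hru c hcb).exists_right_inv
  have hucb : red uc = 1 := by
    have := congrArg red huc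
    rwa [map_mul, hcb, one_mul, map_one] at this
  obtain ⟨z, hz⟩ : ∃ z : W, z = s uc * z₀ := ⟨_, rfl⟩
  have hc : (Φ e * Φ z * (1 - Φ e) * Φ y * Φ e).trace = 1 := by
    have h3 : ι uc * (Φ (e * z₀ * (1 - e) * y * e)).trace = 1 := by
      rw [htrΦ, ← map_mul, ← hcdef, mul_comm, huc, map_one]
    simpa [hz, map_mul, map_sub, map_one, hΦs, smul_mul_assoc, mul_smul_comm,
      Matrix.trace_smul] using h3
  have hΦbz : Φb z = !![0, 1; 0, 0] := by
    rw [hz, map_mul, hΦbs, hucb, one_smul, one_mul, hz₀]
  exact ⟨e, y, z, hΦe, hc, hΦbe, hy, hΦbz⟩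

/-- The endomorphism of the matrices taking the coordinates with respect to the matrix units built
from `e`, `y` and `z`. -/
private def coordHom {e y z : M2 A} (he : e.trace = 1 ∧ e.det = 0)
    (hc : (e * z * (1 - e) * y * e).trace = 1) : M2 A →ₐ[A] M2 A where
  toFun X := Matrix.of fun a b => (X * munit e y z b a).trace
  map_one' := by
    ext a b
    show ((1 : M2 A) * _).trace = _
    rw [one_mul, coord_one he.1 he.2, Matrix.one_apply]
  map_mul' X Y := by
    ext a b
    rw [Matrix.mul_apply]
    exact coord_mul he.1 he.2 hc X Y a b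
  map_zero' := by ext a b; simp
  map_add' X Y := by ext a b; simp [add_mul, Matrix.trace_add]
  commutes' s := by
    ext a b
    show (algebraMap A (M2 A) s * munit e y z b a).trace = _
    rw [Algebra.algebraMap_eq_smul_one, smul_mul_assoc, one_mul, Matrix.trace_smul,
      coord_one he.1 he.2, Matrix.smul_apply, Matrix.one_apply]

/-- An endomorphism of the matrices preserving the trace of `M` preserves its determinant: `Ψ M`
satisfies the Cayley–Hamilton equations of both. -/
private theorem det_map_of_trace_eq (Ψ : M2 A →ₐ[A] M2 A) {M : M2 A}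
    (ht : (Ψ M).trace = M.trace) : (Ψ M).det = M.det := by
  have h1 := cayley_two (Ψ M)
  have h2 := congrArg Ψ (cayley_two M)
  simp only [map_add, map_sub, map_mul, map_smul, map_zero, map_one] at h2
  rw [ht, ← h2] at h1
  have h3 : _ = _ := congrFun (congrFun (add_left_cancel (G := M2 A) h1) 0) 0
  simpa using h3

/-- The extension of a representation to the group ring over the ring of traces. -/
private def groupLift {S : Type*} [CommRing S] (f : B →+* S) (σ : G →* M2 S) :
    MonoidAlgebra B G →+* M2 S :=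
  MonoidAlgebra.liftNCRingHom ((Matrix.scalar (Fin 2)).comp f) σ
    fun _ _ => Matrix.scalar_commute _ (fun _ => Commute.all _ _) _

/-- The extension at a multiple of a group element. -/
private theorem groupLift_single {S : Type*} [CommRing S] (f : B →+* S) (σ : G →* M2 S) (g : G)
    (c : B) : groupLift f σ (MonoidAlgebra.single g c) = f c • σ g := by
  simp [groupLift, MonoidAlgebra.liftNCRingHom, Matrix.smul_eq_diagonal_mul]

/-- The linear extension of a system of traces is the trace of the linear extension. -/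
private theorem trace_groupLift {S : Type*} [CommRing S] (f : B →+* S) (σ : G →* M2 S)
    (τ : MonoidAlgebra B G →ₗ[B] B) (hτ : ∀ g c, τ (MonoidAlgebra.single g c) = c * tA g)
    (hσ : ∀ g, (σ g).trace = f (tA g)) (w : MonoidAlgebra B G) :
    (groupLift f σ w).trace = f (τ w) := by
  induction w using MonoidAlgebra.induction_linear with
  | zero => simp
  | add x y hx hy => rw [map_add, map_add, Matrix.trace_add, hx, hy, map_add]
  | single g c =>
    rw [groupLift_single, hτ, Matrix.trace_smul, hσ, map_mul, smul_eq_mul]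

/-- **The model over the ring of traces.** -/
theorem exists_model (hι : Function.Injective ι) (hru : ReflectsUnits red)
    (hroot : ∀ t d : B, red t = 1 → red d = 0 → ∃ α, α ^ 2 - t * α + d = 0 ∧ red α = 1)
    (htr : ∀ g, (ρ g).trace = ι (tA g)) (hdet : ∀ g, (ρ g).det = ι (dA g))
    (hrt : ∀ g, (r g).trace = red (tA g)) (hrd : ∀ g, (r g).det = red (dA g))
    (hspan : Submodule.span (ZMod 2) (Set.range r) = ⊤) :
    ∃ (Ψ : M2 A →ₐ[A] M2 A) (R : G →* M2 B), (∀ g, (R g).map ι = Ψ (ρ g)) ∧
      (∀ g, (R g).trace = tA g) ∧ (∀ g, (R g).det = dA g) ∧ ∀ g, (R g).map red = r g := by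
  classical
  let τ : MonoidAlgebra B G →ₗ[B] B :=
    (Finsupp.linearCombination B tA).comp (MonoidAlgebra.coeffLinearEquiv B).toLinearMap
  have hτ1 : ∀ (g : G) (c : B), τ (MonoidAlgebra.single g c) = c * tA g := by
    intro g c
    show Finsupp.linearCombination B tA (MonoidAlgebra.coeff (MonoidAlgebra.single g c)) = _
    rw [MonoidAlgebra.coeff_single, Finsupp.linearCombination_single, smul_eq_mul]
  let Φ : MonoidAlgebra B G →+* M2 A := groupLift ι ρ
  let Φb : MonoidAlgebra B G →+* M2 (ZMod 2) := groupLift red r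
  have hΦ1 : ∀ g (c : B), Φ (MonoidAlgebra.single g c) = ι c • ρ g := groupLift_single ι ρ
  have hΦb1 : ∀ g (c : B), Φb (MonoidAlgebra.single g c) = red c • r g := groupLift_single red r
  have htrΦ : ∀ w, (Φ w).trace = ι (τ w) := trace_groupLift tA ι ρ τ hτ1 htr
  have htrb : ∀ w, (Φb w).trace = red (τ w) := trace_groupLift tA red r τ hτ1 hrt
  have hdetw : ∀ w, ∃ d, (Φ w).det = ι d ∧ (Φb w).det = red d := by
    intro w
    induction w using MonoidAlgebra.induction_linear with
    | zero => exact ⟨0, by simp, by simp⟩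
    | add x y hx hy =>
      obtain ⟨dx, hx, hx'⟩ := hx
      obtain ⟨dy, hy, hy'⟩ := hy
      refine ⟨dx + dy + τ x * τ y - τ (x * y), ?_, ?_⟩
      · rw [map_add, det_add_two, hx, hy, ← map_mul, htrΦ, htrΦ, htrΦ]
        simp only [map_add, map_sub, map_mul]
      · rw [map_add, det_add_two, hx', hy', ← map_mul, htrb, htrb, htrb]
        simp only [map_add, map_sub, map_mul]
    | single g c =>
      exact ⟨c ^ 2 * dA g, by rw [hΦ1, Matrix.det_smul, hdet]; simp,
        by rw [hΦb1, Matrix.det_smul, hrd]; simp⟩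
  have hsurj : Function.Surjective Φb :=
    surjective_of_span Φb r (fun g => ⟨MonoidAlgebra.single g 1, by rw [hΦb1, map_one, one_smul]⟩)
      hspan
  obtain ⟨e, y, z, hΦe, hc, hΦbe, hy, hΦbz⟩ :=
    exists_units_lift ι red Φ Φb τ (MonoidAlgebra.single 1) hru hroot
      (fun c => by rw [hΦ1, map_one]) (fun c => by rw [hΦb1, map_one]) htrΦ htrb hdetw hsurj
  let Ψ : M2 A →ₐ[A] M2 A := coordHom hΦe hc
  let F : G → M2 B := fun g =>
    Matrix.of fun a b => τ (MonoidAlgebra.single g 1 * munit e y z b a)
  have hF : ∀ g, (F g).map ι = Ψ (ρ g) := fun g => by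
    ext a b
    show ι (τ _) = (ρ g * munit (Φ e) (Φ y) (Φ z) b a).trace
    rw [← htrΦ, map_mul, munit_map, hΦ1, map_one, one_smul]
  have hinj : Function.Injective fun M : M2 B => M.map ι := fun M M' h =>
    Matrix.ext fun i j => hι (congrFun (congrFun h i) j)
  have hmap : ∀ M M' : M2 B, (M * M').map ι = M.map ι * M'.map ι := fun M M' =>
    map_mul ι.mapMatrix M M'
  let R : G →* M2 B :=
    { toFun := F
      map_one' := hinj (by show (F 1).map ι = _; rw [hF, map_one, map_one]; simp)
      map_mul' := fun g g' => hinj (by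
        show (F (g * g')).map ι = (F g * F g').map ι
        rw [hF, map_mul, map_mul, hmap (F g) (F g'), hF, hF]) }
  have htrR : ∀ g, (R g).trace = tA g := by
    intro g
    show (F g).trace = _
    rw [Matrix.trace_fin_two]
    show τ (_ * e) + τ (_ * (1 - e)) = _
    rw [← map_add, ← mul_add, add_sub_cancel, mul_one, hτ1, one_mul]
  refine ⟨Ψ, R, hF, htrR, fun g => hι ?_, fun g => ?_⟩
  · show ι (F g).det = _
    rw [RingHom.map_det ι, RingHom.mapMatrix_apply, hF, det_map_of_trace_eq Ψ, hdet]
    rw [← hF, htr, ← htrR]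
    exact (AddMonoidHom.map_trace ι.toAddMonoidHom (F g)).symm
  · -- modulo `2` the coordinates with respect to the matrix units are the entries
    ext a b
    show red (τ _) = _
    rw [← htrb, map_mul, munit_map, hΦb1, map_one, one_smul, hΦbe, hy, hΦbz]
    generalize r g = M
    revert M a b
    decide

end Fermat.Agent.LT.Deform
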